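import Mathlib
import Fermat.Statements.S16

/-!
# S16: shared definitions

Common definitions for the proof of S16 (index of the Eisenstein ideal at prime level).
-/

set_option autoImplicit false

namespace Fermat.Agent.S16

open ModularCurve CuspForm
open scoped MatrixGroups

/-- `sigmaP p k`: the sum of the divisors of `k` that are prime to `p` (it is `0` for `k = 0`). -/
def sigmaP (p k : ℕ) : ℕ := ∑ d ∈ k.divisors with ¬ p ∣ d, d

/-- The ring homomorphism of the frozen statement, from the formal Hecke algebra onto the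
Hecke algebra acting on the lattice of integral weight two cusp forms of level `p`. -/
noncomputable def rho (p : ℕ) [Fact p.Prime] : HeckeAlg →+* ↥(heckeLatticeAlgebra p ∅) :=
  (latticeRestrictHom p ∅).toRingHom.comp (heckeEvalForms p 2)

/-- The image of the Eisenstein ideal in the lattice Hecke algebra. -/
noncomputable def JL (p : ℕ) [Fact p.Prime] : Ideal ↥(heckeLatticeAlgebra p ∅) :=
  Ideal.map (rho p) (eisensteinIdeal p)

/-- Representatives of the right cosets `Γ₀(p) \ SL(2, ℤ)`: `none ↦ 1`, `some i ↦ S * T ^ i`. -/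
def cosetRep (p : ℕ) : Option (Fin p) → SL(2, ℤ)
  | none => 1
  | some i => ModularGroup.S * ModularGroup.T ^ (i : ℕ)

@[simp] theorem cosetRep_none (p : ℕ) : cosetRep p none = 1 := rfl

@[simp] theorem cosetRep_some (p : ℕ) (i : Fin p) :
    cosetRep p (some i) = ModularGroup.S * ModularGroup.T ^ (i : ℕ) := rfl

/-- `CongrOne p l r G`: the weight two form `G` of level `p` has constant term `1` and all its
higher `q`-coefficients lie in `l ^ r • ℤ_(l)`. -/
def CongrOne (p l r : ℕ) (G : ModularForm (CongruenceSubgroup.Gamma0 p) 2) : Prop :=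
  ModularFormClass.qCoeff G 0 = 1 ∧
    ∀ k : ℕ, 1 ≤ k → ∃ a b : ℤ, ¬ (l : ℤ) ∣ b ∧
      ModularFormClass.qCoeff G k = (l : ℂ) ^ r * (a : ℂ) / (b : ℂ)

end Fermat.Agent.S16
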