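import Mathlib
import Fermat.Agent.S16.Defs

/-!
# S16: algebra around the frozen statement

The formal Hecke algebra surjects onto the lattice Hecke algebra, every element of the latter is
congruent to an integer modulo the image `JL p` of the Eisenstein ideal, and hence the quotient
is `ℤ / n` as soon as the integers lying in `JL p` are exactly the multiples of `n`.
-/

set_option autoImplicit false

namespace Fermat.Agent.S16

open ModularCurve CuspForm UpperHalfPlane CongruenceSubgroup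
open scoped MatrixGroups ModularForm Manifold Real

namespace Alg

/-- The evaluation map from the formal Hecke algebra onto the Hecke algebra of cusp forms is
surjective. -/
theorem heckeEvalForms_surjective (N : ℕ) [NeZero N] (k : ℤ) :
    Function.Surjective (heckeEvalForms N k) := by
  have h1 : (MvPolynomial.aeval (R := ℤ) (heckeFormsGen N k)).range = ⊤ := by
    have key : Algebra.adjoin ℤ
        ((↑) ⁻¹' heckeGenerators N k ∅ : Set ↥(heckeAlgebra N k ∅)) = ⊤ :=
      Algebra.adjoin_adjoin_coe_preimage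
    rw [← Algebra.adjoin_range_eq_range_aeval, eq_top_iff, ← key]
    apply Algebra.adjoin_mono
    rintro ⟨T, hT⟩ hT'
    rcases hT' with ⟨ℓ, hℓ, hℓN, -, rfl⟩ | ⟨q, hqN, hq, -, rfl⟩
    · refine ⟨(⟨ℓ, hℓ⟩ : Nat.Primes), ?_⟩
      have h2 := heckeFormsGen_of_not_dvd (N := N) (k := k) (ℓ := (⟨ℓ, hℓ⟩ : Nat.Primes)) hℓN
      rw [h2]
      rfl
    · refine ⟨(⟨q, hq⟩ : Nat.Primes), ?_⟩
      have h2 := heckeFormsGen_of_dvd (N := N) (k := k) (q := (⟨q, hq⟩ : Nat.Primes)) hqN
      rw [h2]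
      rfl
  intro t
  have ht : t ∈ (MvPolynomial.aeval (R := ℤ) (heckeFormsGen N k)).range := by
    rw [h1]
    exact Algebra.mem_top
  exact ht

/-- `rho p` is surjective. -/
theorem rho_surjective (p : ℕ) [Fact p.Prime] : Function.Surjective (rho p) :=
  fun t => (latticeRestrictHom_surjective p ∅ t).elim fun s hs =>
    (heckeEvalForms_surjective p 2 s).elim fun x hx =>
      ⟨x, (congrArg (latticeRestrictHom p ∅) hx).trans hs⟩

/-- `rho p` maps constants to constants. -/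
theorem rho_C (p : ℕ) [Fact p.Prime] (k : ℤ) :
    rho p (MvPolynomial.C k) = algebraMap ℤ ↥(heckeLatticeAlgebra p ∅) k := by
  rw [eq_intCast (algebraMap ℤ ↥(heckeLatticeAlgebra p ∅)) k,
    eq_intCast (MvPolynomial.C (σ := Nat.Primes) (R := ℤ)) k, map_intCast]

end Alg

theorem rho_sub_mem_JL (p : ℕ) [Fact p.Prime] (x : HeckeAlg) :
    rho p x - algebraMap ℤ ↥(heckeLatticeAlgebra p ∅) (MvPolynomial.aeval (eisensteinSystem p) x)
      ∈ JL p := by
  have hmem : x - MvPolynomial.C (MvPolynomial.aeval (eisensteinSystem p) x) ∈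
      eisensteinIdeal p := by
    change _ ∈ eigenIdeal (eisensteinSystem p)
    rw [mem_eigenIdeal_iff, map_sub, MvPolynomial.aeval_C]
    exact sub_self _
  have h := Ideal.mem_map_of_mem (rho p) hmem
  rw [map_sub, Alg.rho_C] at h
  exact h

theorem exists_int_sub_mem_JL (p : ℕ) [Fact p.Prime] (t : ↥(heckeLatticeAlgebra p ∅)) :
    ∃ k : ℤ, t - algebraMap ℤ ↥(heckeLatticeAlgebra p ∅) k ∈ JL p :=
  (Alg.rho_surjective p t).elim fun x hx =>
    ⟨MvPolynomial.aeval (eisensteinSystem p) x, hx ▸ rho_sub_mem_JL p x⟩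

namespace Alg

/-- The canonical ring homomorphism `ℤ → T ⧸ JL p`. -/
noncomputable def intQuot (p : ℕ) [Fact p.Prime] : ℤ →+* (↥(heckeLatticeAlgebra p ∅) ⧸ JL p) :=
  (Ideal.Quotient.mk (JL p)).comp (algebraMap ℤ ↥(heckeLatticeAlgebra p ∅))

theorem intQuot_apply (p : ℕ) [Fact p.Prime] (k : ℤ) :
    intQuot p k = Ideal.Quotient.mk (JL p) (algebraMap ℤ ↥(heckeLatticeAlgebra p ∅) k) := rfl

theorem intQuot_surjective (p : ℕ) [Fact p.Prime] : Function.Surjective (intQuot p) :=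
  fun y => (Ideal.Quotient.mk_surjective y).elim fun t ht =>
    (exists_int_sub_mem_JL p t).elim fun k hk =>
      ⟨k, ((Ideal.Quotient.eq.2 hk).symm).trans ht⟩

theorem mem_ker_intQuot (p : ℕ) [Fact p.Prime] (k : ℤ) :
    k ∈ RingHom.ker (intQuot p) ↔ algebraMap ℤ ↥(heckeLatticeAlgebra p ∅) k ∈ JL p :=
  RingHom.mem_ker.trans Ideal.Quotient.eq_zero_iff_mem

theorem ker_intQuot (p : ℕ) [Fact p.Prime] (n : ℕ)
    (h : ∀ k : ℤ, algebraMap ℤ ↥(heckeLatticeAlgebra p ∅) k ∈ JL p ↔ (n : ℤ) ∣ k) :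
    RingHom.ker (intQuot p) = Ideal.span {(n : ℤ)} := by
  ext k
  rw [mem_ker_intQuot, Ideal.mem_span_singleton]
  exact h k

theorem card_quot_ker (p : ℕ) [Fact p.Prime] :
    Nat.card (↥(heckeLatticeAlgebra p ∅) ⧸ JL p) = Nat.card (ℤ ⧸ RingHom.ker (intQuot p)) :=
  (Nat.card_congr (RingHom.quotientKerEquivOfSurjective (intQuot_surjective p)).toEquiv).symm

theorem card_int_quot (I : Ideal ℤ) (n : ℕ) (hI : I = Ideal.span {(n : ℤ)}) :
    Nat.card (ℤ ⧸ I) = n := by
  subst hI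
  rw [Nat.card_congr (Int.quotientSpanNatEquivZMod n).toEquiv, Nat.card_zmod]

end Alg

theorem card_quot_eq (p : ℕ) [Fact p.Prime] (n : ℕ) (hn : 0 < n)
    (h : ∀ k : ℤ, algebraMap ℤ ↥(heckeLatticeAlgebra p ∅) k ∈ JL p ↔ (n : ℤ) ∣ k) :
    Nat.card (↥(heckeLatticeAlgebra p ∅) ⧸ JL p) = n := by
  have _ := hn
  rw [Alg.card_quot_ker p]
  exact Alg.card_int_quot _ n (Alg.ker_intQuot p n h)

end Fermat.Agent.S16
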