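import Mathlib
import Fermat.Agent.S16.Defs

/-!
# S16: the prime-to-`p` divisor sum `sigmaP`

Elementary identities for `sigmaP p k = ∑ d ∣ k, p ∤ d, d`.
-/

set_option autoImplicit false

namespace Fermat.Agent.S16

namespace SigmaP

/-- The divisors of `n` that are prime to `p`. -/
def D (p n : ℕ) : Finset ℕ := n.divisors.filter (fun d => ¬ p ∣ d)

theorem mem_D {p n d : ℕ} : d ∈ D p n ↔ (d ∣ n ∧ n ≠ 0) ∧ ¬ p ∣ d := by
  simp [D]

theorem sigmaP_eq (p n : ℕ) : sigmaP p n = ∑ d ∈ D p n, d := rfl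

theorem sum_image_mul (r : ℕ) (hr : r ≠ 0) (s : Finset ℕ) :
    ∑ d ∈ s.image (fun e => r * e), d = r * ∑ e ∈ s, e := by
  rw [Finset.sum_image, Finset.mul_sum]
  intro a _ b _ h
  exact Nat.eq_of_mul_eq_mul_left (Nat.pos_of_ne_zero hr) h

theorem not_dvd_mul {p r e : ℕ} (hp : p.Prime) (hr : r.Prime) (hrp : r ≠ p) (hpe : ¬ p ∣ e) :
    ¬ p ∣ r * e := by
  intro h
  rcases (Nat.Prime.dvd_mul hp).1 h with h | h
  · exact hrp ((Nat.prime_dvd_prime_iff_eq hp hr).1 h).symm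
  · exact hpe h

theorem D_mul_prime (p r k : ℕ) (hp : p.Prime) (hr : r.Prime) (hrp : r ≠ p) (hk : k ≠ 0) :
    D p (k * r) = D p k ∪ (D p k).image (fun e => r * e) := by
  ext d
  simp only [Finset.mem_union, Finset.mem_image, mem_D]
  constructor
  · rintro ⟨⟨hd, -⟩, hpd⟩
    by_cases hrd : r ∣ d
    · right
      obtain ⟨e, rfl⟩ := hrd
      refine ⟨e, ⟨⟨?_, hk⟩, fun h => hpd (h.mul_left r)⟩, rfl⟩
      rw [mul_comm k r] at hd
      exact Nat.dvd_of_mul_dvd_mul_left hr.pos hd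
    · left
      refine ⟨⟨?_, hk⟩, hpd⟩
      exact Nat.Coprime.dvd_of_dvd_mul_right
        ((Nat.Prime.coprime_iff_not_dvd hr).2 hrd).symm hd
  · rintro (⟨⟨hd, -⟩, hpd⟩ | ⟨e, ⟨⟨he, -⟩, hpe⟩, rfl⟩)
    · exact ⟨⟨hd.mul_right r, mul_ne_zero hk hr.ne_zero⟩, hpd⟩
    · refine ⟨⟨?_, mul_ne_zero hk hr.ne_zero⟩, not_dvd_mul hp hr hrp hpe⟩
      rw [mul_comm]
      exact mul_dvd_mul_right he r

theorem D_inter (p r k : ℕ) (hp : p.Prime) (hr : r.Prime) (hrp : r ≠ p) (hk : k ≠ 0) :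
    D p k ∩ (D p k).image (fun e => r * e) =
      if r ∣ k then (D p (k / r)).image (fun e => r * e) else ∅ := by
  split_ifs with hrk
  · ext d
    simp only [Finset.mem_inter, Finset.mem_image, mem_D]
    have hkr : k / r ≠ 0 := by
      obtain ⟨m, rfl⟩ := hrk
      rw [Nat.mul_div_cancel_left m hr.pos]
      exact fun h => hk (by rw [h, mul_zero])
    constructor
    · rintro ⟨⟨⟨hd, -⟩, -⟩, e, ⟨-, hpe⟩, rfl⟩
      exact ⟨e, ⟨⟨Nat.dvd_div_of_mul_dvd hd, hkr⟩, hpe⟩, rfl⟩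
    · rintro ⟨e, ⟨⟨he, -⟩, hpe⟩, rfl⟩
      have h1 : r * e ∣ k := Nat.mul_dvd_of_dvd_div hrk he
      exact ⟨⟨⟨h1, hk⟩, not_dvd_mul hp hr hrp hpe⟩,
        e, ⟨⟨(Dvd.intro_left r rfl).trans h1, hk⟩, hpe⟩, rfl⟩
  · ext d
    simp only [Finset.mem_inter, Finset.mem_image, mem_D, Finset.notMem_empty, iff_false]
    rintro ⟨⟨⟨hd, -⟩, -⟩, e, -, rfl⟩
    exact hrk ((Dvd.intro e rfl).trans hd)

/-- The `ℕ`-valued form of `sigmaP_mul_prime`. -/
theorem sigmaP_mul_prime_nat (p r k : ℕ) (hp : p.Prime) (hr : r.Prime) (hrp : r ≠ p)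
    (hk : 1 ≤ k) :
    sigmaP p (k * r) + (if r ∣ k then r * sigmaP p (k / r) else 0) =
      sigmaP p k + r * sigmaP p k := by
  have hk0 : k ≠ 0 := Nat.one_le_iff_ne_zero.1 hk
  have h := Finset.sum_union_inter (s₁ := D p k) (s₂ := (D p k).image (fun e => r * e))
    (f := fun d => d)
  rw [← D_mul_prime p r k hp hr hrp hk0, D_inter p r k hp hr hrp hk0,
    sum_image_mul r hr.ne_zero] at h
  simp only [sigmaP_eq]
  rw [← h]
  congr 1
  split_ifs with hrk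
  · rw [sum_image_mul r hr.ne_zero]
  · rfl

/-- The divisors of `p * m` divisible by `p` are the `p * e`, `e ∣ m`. -/
theorem filter_dvd_divisors (p m : ℕ) (hp : p ≠ 0) (hm : m ≠ 0) :
    (p * m).divisors.filter (fun d => p ∣ d) = m.divisors.image (fun e => p * e) := by
  ext d
  simp only [Finset.mem_filter, Finset.mem_image, Nat.mem_divisors]
  constructor
  · rintro ⟨⟨hd, -⟩, e, rfl⟩
    exact ⟨e, ⟨Nat.dvd_of_mul_dvd_mul_left (Nat.pos_of_ne_zero hp) hd, hm⟩, rfl⟩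
  · rintro ⟨e, ⟨he, -⟩, rfl⟩
    exact ⟨⟨mul_dvd_mul_left p he, mul_ne_zero hp hm⟩, Dvd.intro e rfl⟩

/-- The `ℕ`-valued form of `sigmaP_eq_sigma`. -/
theorem sigmaP_add_eq_sigma_nat (p k : ℕ) (hp : p.Prime) (hk : 1 ≤ k) :
    sigmaP p k + (if p ∣ k then p * ArithmeticFunction.sigma 1 (k / p) else 0) =
      ArithmeticFunction.sigma 1 k := by
  have hk0 : k ≠ 0 := Nat.one_le_iff_ne_zero.1 hk
  have h := Finset.sum_filter_not_add_sum_filter k.divisors (fun d => p ∣ d) (fun d => d)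
  simp only [ArithmeticFunction.sigma_one_apply]
  rw [← h]
  refine congrArg (sigmaP p k + ·) ?_
  split_ifs with hpk
  · obtain ⟨m, rfl⟩ := hpk
    have hm : m ≠ 0 := fun h => hk0 (by rw [h, mul_zero])
    rw [Nat.mul_div_cancel_left m hp.pos, filter_dvd_divisors p m hp.ne_zero hm,
      sum_image_mul p hp.ne_zero]
  · symm
    apply Finset.sum_eq_zero
    intro d hd
    rw [Finset.mem_filter, Nat.mem_divisors] at hd
    exact absurd (hd.2.trans hd.1.1) hpk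

end SigmaP

theorem sigmaP_one (p : ℕ) (hp : p.Prime) : sigmaP p 1 = 1 := by
  simp [sigmaP, Finset.filter_singleton, hp.ne_one]

/-- `σ'(k r) = (1 + r) σ'(k) - r σ'(k / r) [r ∣ k]` for a prime `r ≠ p`. -/
theorem sigmaP_mul_prime (p r k : ℕ) (hp : p.Prime) (hr : r.Prime) (hrp : r ≠ p) (hk : 1 ≤ k) :
    (sigmaP p (k * r) : ℤ) =
      (1 + r) * sigmaP p k - (if r ∣ k then (r : ℤ) * sigmaP p (k / r) else 0) := by
  have h := SigmaP.sigmaP_mul_prime_nat p r k hp hr hrp hk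
  have h' := congrArg (Nat.cast : ℕ → ℤ) h
  split_ifs at h' ⊢ with hrk
  · push_cast at h'
    linarith
  · push_cast at h'
    linarith

theorem sigmaP_mul_self (p k : ℕ) (hp : p.Prime) (hk : 1 ≤ k) : sigmaP p (k * p) = sigmaP p k := by
  have hk0 : k ≠ 0 := Nat.one_le_iff_ne_zero.1 hk
  rw [SigmaP.sigmaP_eq, SigmaP.sigmaP_eq]
  congr 1
  ext d
  simp only [SigmaP.mem_D]
  constructor
  · rintro ⟨⟨hd, -⟩, hpd⟩
    exact ⟨⟨Nat.Coprime.dvd_of_dvd_mul_right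
      ((Nat.Prime.coprime_iff_not_dvd hp).2 hpd).symm hd, hk0⟩, hpd⟩
  · rintro ⟨⟨hd, -⟩, hpd⟩
    exact ⟨⟨hd.mul_right p, mul_ne_zero hk0 hp.ne_zero⟩, hpd⟩

/-- `σ'(k) = σ(k) - p σ(k / p) [p ∣ k]`. -/
theorem sigmaP_eq_sigma (p k : ℕ) (hp : p.Prime) (hk : 1 ≤ k) :
    (sigmaP p k : ℤ) = ArithmeticFunction.sigma 1 k -
      (if p ∣ k then (p : ℤ) * ArithmeticFunction.sigma 1 (k / p) else 0) := by
  have h := SigmaP.sigmaP_add_eq_sigma_nat p k hp hk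
  have h' := congrArg (Nat.cast : ℕ → ℤ) h
  split_ifs at h' ⊢ with hpk
  · push_cast at h'
    linarith
  · push_cast at h'
    linarith

end Fermat.Agent.S16
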