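import Mathlib
import Fermat.Agent.S16.Defs
import Fermat.Agent.S16.SigmaP
import Fermat.Agent.S16.Alg
import Fermat.Prelude.Thm_ModularFormClass_qCoeff_heckeT
import Fermat.Prelude.Thm_ModularFormClass_qCoeff_heckeU
import Fermat.Prelude.Thm_CongruenceSubgroup_one_mem_strictPeriods_Gamma0
import Fermat.Prelude.Thm_ModularForm_sturm_bound_Gamma0

/-!
# S16: the duality between the lattice of integral cusp forms and its Hecke algebra

For a prime `p` let `L` be the lattice of weight two cusp forms of level `Γ₀(p)` with integral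
`q`-expansion and `T` the Hecke algebra acting on it.  The pairing `(t, f) ↦ a₁(t f)` identifies
`L` with `Hom(T, ℤ)`.  We use this to produce, from the knowledge that the integers in the
image `JL p` of the Eisenstein ideal are all divisible by `m`, a cusp form congruent modulo `m`
to the Eisenstein series: `aₖ(g) ≡ σ'(k) (mod m)` for all `k ≥ 1`
(`exists_form_of_int_mem`).
-/

set_option autoImplicit false

namespace Fermat.Agent.S16

open ModularCurve CuspForm UpperHalfPlane CongruenceSubgroup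
open scoped MatrixGroups ModularForm Manifold Real

namespace Dual

open Module

/-! ### Abstract duality -/

/-- Abstract duality: let `T` be a commutative algebra of endomorphisms of a finite free
`ℤ`-module `L` and `a` a functional on `L` such that the pairing `(t, f) ↦ a (t f)` is
separating on `L` and saturated. Then every functional on `T` is of the form `t ↦ a (t g)`. -/
theorem exists_pairing_eq
    {L : Type*} [AddCommGroup L] [Module.Finite ℤ L] [Module.Free ℤ L]
    (T : Subalgebra ℤ (Module.End ℤ L)) (hcomm : ∀ s t : T, s * t = t * s)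
    [Module.Finite ℤ T] [Module.Free ℤ T]
    (a : L →ₗ[ℤ] ℤ)
    (hsep : ∀ f : L, (∀ t : T, a ((t : Module.End ℤ L) f) = 0) → f = 0)
    (hsat : ∀ (N : ℤ) (f : L), N ≠ 0 → (∀ t : T, N ∣ a ((t : Module.End ℤ L) f)) →
      ∃ f' : L, N • f' = f)
    (φ : T →ₗ[ℤ] ℤ) :
    ∃ g : L, ∀ t : T, a ((t : Module.End ℤ L) g) = φ t := by
  -- the pairing
  let Φ : L →ₗ[ℤ] T →ₗ[ℤ] ℤ :=
    LinearMap.mk₂ ℤ (fun f t => a ((t : Module.End ℤ L) f))
      (fun f₁ f₂ t => by simp)
      (fun c f t => by simp)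
      (fun f t₁ t₂ => by simp)
      (fun c f t => by simp)
  have hΦ : ∀ f t, Φ f t = a ((t : Module.End ℤ L) f) := fun f t => rfl
  have hΦinj : Function.Injective Φ := by
    rw [injective_iff_map_eq_zero]
    intro f hf
    apply hsep
    intro t
    rw [← hΦ, hf]
    rfl
  have hΨinj : Function.Injective Φ.flip := by
    rw [injective_iff_map_eq_zero]
    intro t ht
    have h0 : ∀ f : L, a ((t : Module.End ℤ L) f) = 0 := by
      intro f
      have := LinearMap.congr_fun ht f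
      simpa [hΦ] using this
    apply Subtype.ext
    apply LinearMap.ext
    intro f
    apply hsep
    intro s
    have h1 : (s : Module.End ℤ L) ((t : Module.End ℤ L) f) =
        (t : Module.End ℤ L) ((s : Module.End ℤ L) f) := by
      have := congrArg (fun u : T => (u : Module.End ℤ L) f) (hcomm s t)
      simpa using this
    rw [h1]
    exact h0 _
  have hr1 : finrank ℤ L ≤ finrank ℤ (T →ₗ[ℤ] ℤ) :=
    LinearMap.finrank_le_finrank_of_injective hΦinj
  have hr2 : finrank ℤ T ≤ finrank ℤ (L →ₗ[ℤ] ℤ) :=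
    LinearMap.finrank_le_finrank_of_injective hΨinj
  have hr3 : finrank ℤ (T →ₗ[ℤ] ℤ) = finrank ℤ T := by
    rw [Module.finrank_linearMap, finrank_self, mul_one]
  have hr4 : finrank ℤ (L →ₗ[ℤ] ℤ) = finrank ℤ L := by
    rw [Module.finrank_linearMap, finrank_self, mul_one]
  have hr : finrank ℤ (LinearMap.range Φ) = finrank ℤ (T →ₗ[ℤ] ℤ) := by
    rw [LinearMap.finrank_range_of_inj hΦinj]
    omega
  have hq : finrank ℤ ((T →ₗ[ℤ] ℤ) ⧸ LinearMap.range Φ) = 0 := by
    have := (LinearMap.range Φ).finrank_quotient_add_finrank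
    omega
  have htors : Module.IsTorsion ℤ ((T →ₗ[ℤ] ℤ) ⧸ LinearMap.range Φ) :=
    Module.finrank_eq_zero_iff_isTorsion.mp hq
  obtain ⟨⟨N, hN⟩, hNφ⟩ := @htors ((LinearMap.range Φ).mkQ φ)
  have hN0 : N ≠ 0 := nonZeroDivisors.ne_zero hN
  have hmem : N • φ ∈ LinearMap.range Φ := by
    rw [← Submodule.Quotient.mk_eq_zero, Submodule.Quotient.mk_smul]
    exact hNφ
  obtain ⟨f, hf⟩ := hmem
  have hval : ∀ t : T, a ((t : Module.End ℤ L) f) = N * φ t := by
    intro t
    rw [← hΦ, hf]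
    simp
  obtain ⟨g, hg⟩ := hsat N f hN0 (fun t => ⟨φ t, hval t⟩)
  refine ⟨g, fun t => ?_⟩
  have := hval t
  rw [← hg] at this
  simp only [map_smul, smul_eq_mul] at this
  exact mul_left_cancel₀ hN0 this

/-- Abstract lifting: if every element of a free `ℤ`-module `M` is congruent to an integer
multiple of `e` modulo a subgroup (given by the predicate `P`), then there is a linear form `φ`
on `M` with `t ≡ φ t • e` for all `t`. -/
theorem exists_linear_lift_aux {M : Type*} [AddCommGroup M] [Module.Free ℤ M]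
    (P : M → Prop) (hP0 : P 0) (hPadd : ∀ x y, P x → P y → P (x + y))
    (hPneg : ∀ x, P x → P (-x)) (e : M) (hP : ∀ t : M, ∃ k : ℤ, P (t - k • e)) :
    ∃ φ : M →ₗ[ℤ] ℤ, ∀ t : M, P (t - φ t • e) := by
  have hPsmul : ∀ (c : ℤ) (x : M), P x → P (c • x) := by
    intro c x hx
    induction c using Int.induction_on with
    | zero => simpa using hP0
    | succ i hi =>
      rw [add_smul, one_smul]
      exact hPadd _ _ hi hx
    | pred i hi =>
      rw [sub_smul, one_smul, sub_eq_add_neg]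
      exact hPadd _ _ hi (hPneg _ hx)
  let b := Module.Free.chooseBasis ℤ M
  choose k hk using fun i => hP (b i)
  refine ⟨b.constr ℤ k, fun t => ?_⟩
  refine Submodule.span_induction (p := fun t _ => P (t - (b.constr ℤ k) t • e)) ?_ ?_ ?_ ?_
    (b.mem_span t)
  · rintro _ ⟨i, rfl⟩
    rw [b.constr_basis]
    exact hk i
  · simpa using hP0
  · intro x y _ _ hx hy
    rw [map_add, add_smul, add_sub_add_comm]
    exact hPadd _ _ hx hy
  · intro c x _ hx
    rw [map_smul, smul_eq_mul, mul_smul, ← smul_sub]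
    exact hPsmul c _ hx

/-! ### `q`-coefficients on the lattice -/

section Coeff

variable {N : ℕ}

theorem one_mem_periods (N : ℕ) :
    (1 : ℝ) ∈ (Subgroup.map (Matrix.SpecialLinearGroup.mapGL ℝ) (Gamma0 N)).strictPeriods :=
  CongruenceSubgroup.one_mem_strictPeriods_Gamma0 N

theorem qCoeff_add (f g : CuspForm (Gamma0 N) 2) (n : ℕ) :
    ModularFormClass.qCoeff ⇑(f + g) n =
      ModularFormClass.qCoeff ⇑f n + ModularFormClass.qCoeff ⇑g n := by
  have h1 : ⇑(f + g) = ⇑f + ⇑g := rfl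
  simp only [ModularFormClass.qCoeff, h1]
  rw [ModularForm.qExpansion_add one_pos (one_mem_periods N) f g, map_add]

theorem qCoeff_smul (c : ℂ) (f : CuspForm (Gamma0 N) 2) (n : ℕ) :
    ModularFormClass.qCoeff ⇑(c • f) n = c * ModularFormClass.qCoeff ⇑f n := by
  have h1 : ⇑(c • f) = c • ⇑f := by
    ext z
    simp
  simp only [ModularFormClass.qCoeff, h1]
  rw [ModularForm.qExpansion_smul one_pos (one_mem_periods N) c f]
  simp

theorem qCoeff_zsmul (c : ℤ) (f : CuspForm (Gamma0 N) 2) (n : ℕ) :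
    ModularFormClass.qCoeff ⇑(c • f) n = c * ModularFormClass.qCoeff ⇑f n := by
  rw [← Int.cast_smul_eq_zsmul ℂ c f, qCoeff_smul]

theorem qCoeff_zero_form (n : ℕ) :
    ModularFormClass.qCoeff ⇑(0 : CuspForm (Gamma0 N) 2) n = 0 := by
  have h1 : ⇑(0 : CuspForm (Gamma0 N) 2) = 0 := rfl
  simp only [ModularFormClass.qCoeff, h1]
  rw [UpperHalfPlane.qExpansion_zero, map_zero]

theorem qCoeff_zero_index (f : CuspForm (Gamma0 N) 2) : ModularFormClass.qCoeff ⇑f 0 = 0 :=
  CuspFormClass.qExpansion_coeff_zero f one_pos (one_mem_periods N)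

theorem mem_intLattice_iff (f : CuspForm (Gamma0 N) 2) :
    f ∈ CuspForm.intLattice N 2 ↔ ∀ n : ℕ, ∃ m : ℤ, ModularFormClass.qCoeff f n = (m : ℂ) := by
  constructor
  · intro hf
    refine Submodule.span_induction (p := fun (f : CuspForm (Gamma0 N) 2) _ => ∀ n : ℕ, ∃ m : ℤ,
      ModularFormClass.qCoeff f n = (m : ℂ)) (fun f hf => hf) ?_ ?_ ?_ hf
    · intro n
      exact ⟨0, by rw [qCoeff_zero_form]; simp⟩
    · intro f g _ _ hf hg n
      obtain ⟨a, ha⟩ := hf n
      obtain ⟨b, hb⟩ := hg n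
      exact ⟨a + b, by rw [qCoeff_add, ha, hb]; push_cast; ring⟩
    · intro c f _ hf n
      obtain ⟨a, ha⟩ := hf n
      exact ⟨c * a, by rw [qCoeff_zsmul, ha]; push_cast; ring⟩
  · intro hf
    exact Submodule.subset_span hf

theorem eq_zero_of_forall_qCoeff_eq_zero [NeZero N] (f : CuspForm (Gamma0 N) 2)
    (hf : ∀ n, ModularFormClass.qCoeff ⇑f n = 0) : f = 0 := by
  have hmf : (ModularFormClass.modularForm f : ModularForm (Gamma0 N) 2) = 0 := by
    refine ModularForm.sturm_bound_Gamma0 N _ fun n _ => ?_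
    simpa [ModularFormClass.qCoeff] using hf n
  have hcoe : (⇑f : ℍ → ℂ) = 0 := by
    have := congrArg (fun F : ModularForm (Gamma0 N) 2 => (⇑F : ℍ → ℂ)) hmf
    simpa using this
  exact DFunLike.coe_injective hcoe

/-- The `n`-th `q`-coefficient, as an integer valued linear form on the lattice. -/
noncomputable def coeffZ (N : ℕ) (n : ℕ) : ↥(CuspForm.intLattice N 2) →ₗ[ℤ] ℤ where
  toFun f := Classical.choose ((mem_intLattice_iff f.1).1 f.2 n)
  map_add' f g := by
    apply Int.cast_injective (α := ℂ)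
    rw [← Classical.choose_spec ((mem_intLattice_iff (f + g).1).1 (f + g).2 n)]
    push_cast
    rw [← Classical.choose_spec ((mem_intLattice_iff f.1).1 f.2 n),
      ← Classical.choose_spec ((mem_intLattice_iff g.1).1 g.2 n)]
    exact qCoeff_add f.1 g.1 n
  map_smul' c f := by
    apply Int.cast_injective (α := ℂ)
    rw [← Classical.choose_spec ((mem_intLattice_iff (c • f).1).1 (c • f).2 n)]
    simp only [RingHom.id_apply, smul_eq_mul]
    push_cast
    rw [← Classical.choose_spec ((mem_intLattice_iff f.1).1 f.2 n)]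
    exact qCoeff_zsmul c f.1 n

theorem coeffZ_spec (n : ℕ) (f : ↥(CuspForm.intLattice N 2)) :
    ((coeffZ N n f : ℤ) : ℂ) = ModularFormClass.qCoeff (f : CuspForm (Gamma0 N) 2) n :=
  (Classical.choose_spec ((mem_intLattice_iff f.1).1 f.2 n)).symm

theorem coeffZ_zero_index (f : ↥(CuspForm.intLattice N 2)) : coeffZ N 0 f = 0 := by
  apply Int.cast_injective (α := ℂ)
  rw [coeffZ_spec, qCoeff_zero_index, Int.cast_zero]

/-- Separation: a form of the lattice all of whose higher coefficients vanish is zero. -/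
theorem eq_zero_of_coeffZ [NeZero N] (f : ↥(CuspForm.intLattice N 2))
    (hf : ∀ n : ℕ, 1 ≤ n → coeffZ N n f = 0) : f = 0 := by
  apply Subtype.ext
  apply eq_zero_of_forall_qCoeff_eq_zero
  intro n
  rcases Nat.eq_zero_or_pos n with rfl | hn
  · exact qCoeff_zero_index _
  · rw [← coeffZ_spec, hf n hn, Int.cast_zero]

/-- Saturation: a form of the lattice all of whose higher coefficients are divisible by `D`
is `D` times a form of the lattice. -/
theorem exists_smul_eq_of_dvd_coeffZ (D : ℤ) (hD : D ≠ 0) (f : ↥(CuspForm.intLattice N 2))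
    (hf : ∀ n : ℕ, 1 ≤ n → D ∣ coeffZ N n f) :
    ∃ f' : ↥(CuspForm.intLattice N 2), D • f' = f := by
  have hD' : (D : ℂ) ≠ 0 := Int.cast_ne_zero.mpr hD
  have hmem : ((D : ℂ)⁻¹ • (f : CuspForm (Gamma0 N) 2)) ∈ CuspForm.intLattice N 2 := by
    rw [mem_intLattice_iff]
    intro n
    rcases Nat.eq_zero_or_pos n with rfl | hn
    · exact ⟨0, by rw [qCoeff_zero_index]; simp⟩
    · obtain ⟨c, hc⟩ := hf n hn
      refine ⟨c, ?_⟩
      rw [qCoeff_smul, ← coeffZ_spec, hc]
      push_cast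
      field_simp
  refine ⟨⟨_, hmem⟩, ?_⟩
  apply Subtype.ext
  show D • ((D : ℂ)⁻¹ • (f : CuspForm (Gamma0 N) 2)) = f
  rw [← Int.cast_smul_eq_zsmul ℂ D, smul_smul, mul_inv_cancel₀ hD', one_smul]

end Coeff

/-! ### The Hecke operators on the lattice -/

section Hecke

variable (p : ℕ) [Fact p.Prime]

theorem rho_heckeGen_apply_of_not_dvd (ℓ : Nat.Primes) (h : ¬ (ℓ : ℕ) ∣ p)
    (f : ↥(CuspForm.intLattice p 2)) :
    (((rho p (heckeGen ℓ) : ↥(heckeLatticeAlgebra p ∅)) :
        Module.End ℤ ↥(CuspForm.intLattice p 2)) f : CuspForm (Gamma0 p) 2) =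
      CuspForm.heckeTLin 2 ℓ.2 h (f : CuspForm (Gamma0 p) 2) := by
  have h1 : rho p (heckeGen ℓ) =
      latticeRestrictHom p ∅ (heckeAlgebra.T ℓ.2 h (Set.notMem_empty _)) := by
    rw [← heckeEvalForms_heckeGen_of_not_dvd (k := 2) h]
    rfl
  rw [h1]
  rfl

theorem rho_heckeGen_apply_of_dvd (ℓ : Nat.Primes) (h : (ℓ : ℕ) ∣ p)
    (f : ↥(CuspForm.intLattice p 2)) :
    (((rho p (heckeGen ℓ) : ↥(heckeLatticeAlgebra p ∅)) :
        Module.End ℤ ↥(CuspForm.intLattice p 2)) f : CuspForm (Gamma0 p) 2) =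
      CuspForm.heckeULin 2 h (f : CuspForm (Gamma0 p) 2) := by
  have h1 : rho p (heckeGen ℓ) =
      latticeRestrictHom p ∅ (heckeAlgebra.U ℓ.2 h (Set.notMem_empty _)) := by
    rw [← heckeEvalForms_heckeGen_of_dvd (k := 2) h]
    rfl
  rw [h1]
  rfl

/-- The action of `T_ℓ` (`ℓ ≠ p`) on the coefficients. -/
theorem coeffZ_rho_heckeGen_of_not_dvd (ℓ : Nat.Primes) (h : ¬ (ℓ : ℕ) ∣ p)
    (f : ↥(CuspForm.intLattice p 2)) (n : ℕ) :
    coeffZ p n (((rho p (heckeGen ℓ) : ↥(heckeLatticeAlgebra p ∅)) :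
        Module.End ℤ ↥(CuspForm.intLattice p 2)) f) =
      coeffZ p (n * ℓ) f + if (ℓ : ℕ) ∣ n then ((ℓ : ℕ) : ℤ) * coeffZ p (n / ℓ) f else 0 := by
  apply Int.cast_injective (α := ℂ)
  rw [coeffZ_spec, rho_heckeGen_apply_of_not_dvd p ℓ h f, CuspForm.coe_heckeTLin_apply,
    ModularFormClass.qCoeff_heckeT (f : CuspForm (Gamma0 p) 2) (one_mem_periods p)
      ℓ.2.ne_zero, ModularForm.coeffHeckeT]
  push_cast
  rw [coeffZ_spec]
  split_ifs
  · rw [coeffZ_spec]
    norm_num
  · rfl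

/-- The action of `U_p` on the coefficients. -/
theorem coeffZ_rho_heckeGen_of_dvd (ℓ : Nat.Primes) (h : (ℓ : ℕ) ∣ p)
    (f : ↥(CuspForm.intLattice p 2)) (n : ℕ) :
    coeffZ p n (((rho p (heckeGen ℓ) : ↥(heckeLatticeAlgebra p ∅)) :
        Module.End ℤ ↥(CuspForm.intLattice p 2)) f) = coeffZ p (n * ℓ) f := by
  apply Int.cast_injective (α := ℂ)
  rw [coeffZ_spec, rho_heckeGen_apply_of_dvd p ℓ h f, CuspForm.coe_heckeULin_apply,
    ModularFormClass.qCoeff_heckeU (f : CuspForm (Gamma0 p) 2) (one_mem_periods p)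
      ℓ.2.ne_zero, ModularForm.coeffHeckeU, coeffZ_spec]

theorem coe_rho_one :
    ((rho p 1 : ↥(heckeLatticeAlgebra p ∅)) : Module.End ℤ ↥(CuspForm.intLattice p 2)) = 1 := by
  rw [map_one]
  rfl

theorem coe_rho_mul (x y : HeckeAlg) :
    ((rho p (x * y) : ↥(heckeLatticeAlgebra p ∅)) : Module.End ℤ ↥(CuspForm.intLattice p 2)) =
      ((rho p x : ↥(heckeLatticeAlgebra p ∅)) : Module.End ℤ ↥(CuspForm.intLattice p 2)) *
        ((rho p y : ↥(heckeLatticeAlgebra p ∅)) : Module.End ℤ ↥(CuspForm.intLattice p 2)) := by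
  rw [map_mul]
  rfl

theorem coe_rho_sub (x y : HeckeAlg) :
    ((rho p (x - y) : ↥(heckeLatticeAlgebra p ∅)) : Module.End ℤ ↥(CuspForm.intLattice p 2)) =
      ((rho p x : ↥(heckeLatticeAlgebra p ∅)) : Module.End ℤ ↥(CuspForm.intLattice p 2)) -
        ((rho p y : ↥(heckeLatticeAlgebra p ∅)) : Module.End ℤ ↥(CuspForm.intLattice p 2)) := by
  rw [map_sub]
  rfl

theorem coe_rho_zsmul (c : ℤ) (x : HeckeAlg) :
    ((rho p (c • x) : ↥(heckeLatticeAlgebra p ∅)) : Module.End ℤ ↥(CuspForm.intLattice p 2)) =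
      c • ((rho p x : ↥(heckeLatticeAlgebra p ∅)) : Module.End ℤ ↥(CuspForm.intLattice p 2)) := by
  rw [map_zsmul]
  rfl

/-- For every `k ≥ 1` there is a Hecke operator `t = rho p x` (the `k`-th Hecke operator) with
`aₖ(f) = a₁(t f)` for all `f` in the lattice, whose Eisenstein eigenvalue is `σ'(k)`. -/
theorem exists_hecke_coeff (k : ℕ) (hk : 1 ≤ k) :
    ∃ x : HeckeAlg,
      (∀ f : ↥(CuspForm.intLattice p 2),
        coeffZ p k f = coeffZ p 1 (((rho p x : ↥(heckeLatticeAlgebra p ∅)) :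
          Module.End ℤ ↥(CuspForm.intLattice p 2)) f)) ∧
      MvPolynomial.aeval (eisensteinSystem p) x = (sigmaP p k : ℤ) := by
  have hp : p.Prime := Fact.out
  induction k using Nat.strong_induction_on with
  | _ k ih =>
    rcases eq_or_lt_of_le hk with h1 | h1
    · -- `k = 1`
      subst h1
      refine ⟨1, fun f => ?_, ?_⟩
      · rw [coe_rho_one, Module.End.one_apply]
      · rw [sigmaP_one p hp, map_one, Nat.cast_one]
    · obtain ⟨r, hr, k', rfl⟩ := Nat.exists_prime_and_dvd (ne_of_gt h1)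
      obtain ⟨ℓ, rfl⟩ : ∃ ℓ : Nat.Primes, (ℓ : ℕ) = r := ⟨⟨r, hr⟩, rfl⟩
      have hk' : 1 ≤ k' := by
        rcases Nat.eq_zero_or_pos k' with rfl | h
        · simp at hk
        · exact h
      have hlt : k' < (ℓ : ℕ) * k' := by
        have := hr.two_le
        nlinarith
      obtain ⟨x', hx', hx'E⟩ := ih k' hlt hk'
      rw [mul_comm (ℓ : ℕ) k']
      by_cases hrp : (ℓ : ℕ) = p
      · -- the operator `U_p`
        have hdvd : (ℓ : ℕ) ∣ p := hrp.dvd
        refine ⟨x' * heckeGen ℓ, fun f => ?_, ?_⟩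
        · rw [coe_rho_mul, Module.End.mul_apply, ← hx', coeffZ_rho_heckeGen_of_dvd p ℓ hdvd]
        · rw [map_mul, hx'E, aeval_heckeGen, eisensteinSystem_of_dvd hdvd, mul_one, hrp,
            sigmaP_mul_self p k' hp hk']
      · -- the operators `T_r`
        have hndvd : ¬ (ℓ : ℕ) ∣ p := fun h =>
          hrp ((Nat.prime_dvd_prime_iff_eq hr hp).mp h)
        have hsig := sigmaP_mul_prime p ℓ k' hp hr hrp hk'
        by_cases hrk : (ℓ : ℕ) ∣ k'
        · have hk'' : 1 ≤ k' / ℓ := Nat.div_pos (Nat.le_of_dvd hk' hrk) hr.pos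
          have hlt' : k' / ℓ < (ℓ : ℕ) * k' := lt_of_le_of_lt (Nat.div_le_self _ _) hlt
          obtain ⟨x'', hx'', hx''E⟩ := ih (k' / ℓ) hlt' hk''
          rw [if_pos hrk] at hsig
          refine ⟨x' * heckeGen ℓ - ((ℓ : ℕ) : ℤ) • x'', fun f => ?_, ?_⟩
          · have h2 := coeffZ_rho_heckeGen_of_not_dvd p ℓ hndvd f k'
            rw [if_pos hrk] at h2
            rw [coe_rho_sub, LinearMap.sub_apply, map_sub, coe_rho_mul, Module.End.mul_apply,
              ← hx', h2, coe_rho_zsmul, LinearMap.smul_apply, map_smul, ← hx'', smul_eq_mul]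
            exact (add_sub_cancel_right _ _).symm
          · rw [map_sub, map_mul, hx'E, aeval_heckeGen, eisensteinSystem_of_not_dvd hndvd,
              map_smul, hx''E, smul_eq_mul, hsig]
            ring
        · rw [if_neg hrk] at hsig
          refine ⟨x' * heckeGen ℓ, fun f => ?_, ?_⟩
          · have h2 := coeffZ_rho_heckeGen_of_not_dvd p ℓ hndvd f k'
            rw [if_neg hrk, add_zero] at h2
            rw [coe_rho_mul, Module.End.mul_apply, ← hx', h2]
          · rw [map_mul, hx'E, aeval_heckeGen, eisensteinSystem_of_not_dvd hndvd, hsig]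
            ring

/-- A `ℤ`-linear form on the Hecke algebra lifting the reduction modulo `JL p`. -/
theorem exists_linear_lift :
    ∃ φ : ↥(heckeLatticeAlgebra p ∅) →ₗ[ℤ] ℤ, ∀ t : ↥(heckeLatticeAlgebra p ∅),
      t - algebraMap ℤ ↥(heckeLatticeAlgebra p ∅) (φ t) ∈ JL p := by
  have hcast : ∀ k : ℤ, k • (1 : ↥(heckeLatticeAlgebra p ∅)) =
      algebraMap ℤ ↥(heckeLatticeAlgebra p ∅) k := fun k => by
    rw [zsmul_one, eq_intCast (algebraMap ℤ ↥(heckeLatticeAlgebra p ∅))]
  have key := exists_linear_lift_aux (M := ↥(heckeLatticeAlgebra p ∅)) (fun x => x ∈ JL p)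
    (JL p).zero_mem (fun x y hx hy => (JL p).add_mem hx hy) (fun x hx => (JL p).neg_mem hx) 1
    (fun t => (exists_int_sub_mem_JL p t).elim fun k hk => ⟨k, by rw [hcast]; exact hk⟩)
  exact key.elim fun φ hφ => ⟨φ, fun t => by rw [← hcast]; exact hφ t⟩

end Hecke

end Dual

theorem exists_form_of_int_mem (p : ℕ) [Fact p.Prime] (m : ℤ)
    (h : ∀ k : ℤ, algebraMap ℤ ↥(heckeLatticeAlgebra p ∅) k ∈ JL p → m ∣ k) :
    ∃ g : CuspForm (Gamma0 p) 2,
      ∀ k : ℕ, 1 ≤ k → ∃ c : ℤ, ModularFormClass.qCoeff g k = (c : ℂ) ∧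
        m ∣ c - (sigmaP p k : ℤ) := by
  have := intLattice.moduleFinite p
  have := intLattice.moduleFree p
  obtain ⟨φ, hφ⟩ := Dual.exists_linear_lift p
  -- the duality
  obtain ⟨g, hg⟩ := Dual.exists_pairing_eq (heckeLatticeAlgebra p ∅) (fun s t => mul_comm s t)
    (Dual.coeffZ p 1)
    (fun f hf => Dual.eq_zero_of_coeffZ f fun n hn => by
      obtain ⟨x, hx, -⟩ := Dual.exists_hecke_coeff p n hn
      rw [hx, hf])
    (fun D f hD hf => Dual.exists_smul_eq_of_dvd_coeffZ D hD f fun n hn => by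
      obtain ⟨x, hx, -⟩ := Dual.exists_hecke_coeff p n hn
      rw [hx]
      exact hf _)
    φ
  refine ⟨(g : CuspForm (Gamma0 p) 2), fun k hk => ⟨Dual.coeffZ p k g, ?_, ?_⟩⟩
  · exact (Dual.coeffZ_spec k g).symm
  · obtain ⟨x, hx, hxE⟩ := Dual.exists_hecke_coeff p k hk
    apply h
    rw [hx, hg (rho p x)]
    have h1 := rho_sub_mem_JL p x
    rw [hxE] at h1
    have h2 := hφ (rho p x)
    have h3 := (JL p).sub_mem h1 h2
    rwa [sub_sub_sub_cancel_left, ← map_sub] at h3

end Fermat.Agent.S16
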