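import Mathlib
import Fermat.Prelude.Def_ModularCurve_PeriodHomPair

/-!
# S16, lower bound: shared definitions

Hecke operators on additive characters of a subgroup `Γ` of `SL(2, ℤ)`, as a relation:

* `matT r`, `matU q`     : the integer matrices of `T_r` and `U_q`;
* `IsDatum Γ M γ π g`    : `M i * γ = g i * M (π i)` for all `i`;
* `IsTransform Γ M φ φ'` : `φ' γ = ∑ i, φ (g i)` for every datum `(π, g)` of `γ`.
-/

set_option autoImplicit false

namespace Fermat.Agent.S16.Coh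

open CongruenceSubgroup
open scoped MatrixGroups

/-- The `r + 1` matrices of `T_r`: `(r 0; 0 1)` (index `none`) and `(1 j; 0 r)`, `j < r`. -/
def matT (r : ℕ) : Option (Fin r) → Matrix (Fin 2) (Fin 2) ℤ
  | none => !![(r : ℤ), 0; 0, 1]
  | some j => !![1, ((j : ℕ) : ℤ); 0, (r : ℤ)]

/-- The `q` matrices of `U_q`: `(1 j; 0 q)`, `j < q`. -/
def matU (q : ℕ) : Fin q → Matrix (Fin 2) (Fin 2) ℤ :=
  fun j => !![1, ((j : ℕ) : ℤ); 0, (q : ℤ)]

@[simp] theorem matT_none (r : ℕ) : matT r none = !![(r : ℤ), 0; 0, 1] := rfl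

@[simp] theorem matT_some (r : ℕ) (j : Fin r) :
    matT r (some j) = !![1, ((j : ℕ) : ℤ); 0, (r : ℤ)] := rfl

@[simp] theorem matU_apply (q : ℕ) (j : Fin q) :
    matU q j = !![1, ((j : ℕ) : ℤ); 0, (q : ℤ)] := rfl

/-- `(π, g)` is a datum for `γ ∈ Γ` with respect to the family `M`:
`M i * γ = g i * M (π i)` for all `i`. -/
def IsDatum {ι : Type*} (Γ : Subgroup SL(2, ℤ)) (M : ι → Matrix (Fin 2) (Fin 2) ℤ)
    (γ : Γ) (π : Equiv.Perm ι) (g : ι → Γ) : Prop :=
  ∀ i, M i * ((γ : SL(2, ℤ)) : Matrix (Fin 2) (Fin 2) ℤ) =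
    ((g i : SL(2, ℤ)) : Matrix (Fin 2) (Fin 2) ℤ) * M (π i)

/-- `φ'` is the transform of the additive character `φ` of `Γ` under the operator attached to
the family `M`: `φ' γ = ∑ i, φ (g i)` for every datum `(π, g)` of `γ`. -/
def IsTransform {ι : Type*} [Fintype ι] (Γ : Subgroup SL(2, ℤ))
    (M : ι → Matrix (Fin 2) (Fin 2) ℤ) {A : Type*} [AddCommGroup A]
    (φ φ' : Additive Γ →+ A) : Prop :=
  ∀ (γ : Γ) (π : Equiv.Perm ι) (g : ι → Γ), IsDatum Γ M γ π g →
    φ' (Additive.ofMul γ) = ∑ i, φ (Additive.ofMul (g i))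

section Basic

variable {ι : Type*} [Fintype ι] {Γ : Subgroup SL(2, ℤ)} {M : ι → Matrix (Fin 2) (Fin 2) ℤ}
  {A : Type*} [AddCommGroup A]

theorem IsTransform.add {φ φ' ψ ψ' : Additive Γ →+ A} (h : IsTransform Γ M φ φ')
    (h' : IsTransform Γ M ψ ψ') : IsTransform Γ M (φ + ψ) (φ' + ψ') := by
  intro γ π g hd
  simp only [AddMonoidHom.add_apply]
  rw [h γ π g hd, h' γ π g hd, Finset.sum_add_distrib]

theorem IsTransform.neg {φ φ' : Additive Γ →+ A} (h : IsTransform Γ M φ φ') :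
    IsTransform Γ M (-φ) (-φ') := by
  intro γ π g hd
  simp only [AddMonoidHom.neg_apply]
  rw [h γ π g hd, Finset.sum_neg_distrib]

theorem IsTransform.sub {φ φ' ψ ψ' : Additive Γ →+ A} (h : IsTransform Γ M φ φ')
    (h' : IsTransform Γ M ψ ψ') : IsTransform Γ M (φ - ψ) (φ' - ψ') := by
  intro γ π g hd
  simp only [AddMonoidHom.sub_apply]
  rw [h γ π g hd, h' γ π g hd, Finset.sum_sub_distrib]

/-- Transforms are compatible with homomorphisms of the coefficient group. -/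
theorem IsTransform.comp {B : Type*} [AddCommGroup B] (e : A →+ B) {φ φ' : Additive Γ →+ A}
    (h : IsTransform Γ M φ φ') : IsTransform Γ M (e.comp φ) (e.comp φ') := by
  intro γ π g hd
  simp only [AddMonoidHom.comp_apply]
  rw [h γ π g hd, map_sum]

/-- Two transforms of the same character agree as soon as every element has a datum. -/
theorem IsTransform.unique (hex : ∀ γ : Γ, ∃ (π : Equiv.Perm ι) (g : ι → Γ), IsDatum Γ M γ π g)
    {φ φ' φ'' : Additive Γ →+ A} (h : IsTransform Γ M φ φ') (h' : IsTransform Γ M φ φ'') :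
    φ' = φ'' := by
  refine AddMonoidHom.ext fun γ => ?_
  obtain ⟨π, g, hd⟩ := hex (Additive.toMul γ)
  have h1 := h _ π g hd
  have h2 := h' _ π g hd
  rw [ofMul_toMul] at h1 h2
  rw [h1, h2]

end Basic

end Fermat.Agent.S16.Coh
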