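import Mathlib
import Fermat.Agent.S16.LowDefs

/-!
# S16, lower bound: abstract existence of data and transforms
-/

set_option autoImplicit false

namespace Fermat.Agent.S16.Coh

open CongruenceSubgroup ModularCurve.Period
open scoped MatrixGroups

namespace Abs

/-- The inverse of an element of `SL(2, ℤ)` is a left inverse as a matrix. -/
theorem coe_inv_mul_coe (a : SL(2, ℤ)) :
    ((a⁻¹ : SL(2, ℤ)) : Matrix (Fin 2) (Fin 2) ℤ) * (a : Matrix (Fin 2) (Fin 2) ℤ) = 1 := by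
  rw [← Matrix.SpecialLinearGroup.coe_mul, inv_mul_cancel, Matrix.SpecialLinearGroup.coe_one]

/-- The inverse of an element of `SL(2, ℤ)` is a right inverse as a matrix. -/
theorem coe_mul_coe_inv (a : SL(2, ℤ)) :
    (a : Matrix (Fin 2) (Fin 2) ℤ) * ((a⁻¹ : SL(2, ℤ)) : Matrix (Fin 2) (Fin 2) ℤ) = 1 := by
  rw [← Matrix.SpecialLinearGroup.coe_mul, mul_inv_cancel, Matrix.SpecialLinearGroup.coe_one]

/-- Right cancellation of an element of `SL(2, ℤ)`. -/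
theorem mul_coe_right_cancel {X Y : Matrix (Fin 2) (Fin 2) ℤ} (a : SL(2, ℤ))
    (h : X * (a : Matrix (Fin 2) (Fin 2) ℤ) = Y * (a : Matrix (Fin 2) (Fin 2) ℤ)) : X = Y := by
  have h1 := congrArg (fun Z => Z * ((a⁻¹ : SL(2, ℤ)) : Matrix (Fin 2) (Fin 2) ℤ)) h
  simp only [Matrix.mul_assoc, coe_mul_coe_inv, Matrix.mul_one] at h1
  exact h1

/-- Moving an element of `SL(2, ℤ)` to the other side. -/
theorem eq_coe_inv_mul {X Y : Matrix (Fin 2) (Fin 2) ℤ} (a : SL(2, ℤ))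
    (h : (a : Matrix (Fin 2) (Fin 2) ℤ) * X = Y) :
    X = ((a⁻¹ : SL(2, ℤ)) : Matrix (Fin 2) (Fin 2) ℤ) * Y := by
  rw [← h, ← Matrix.mul_assoc, coe_inv_mul_coe, Matrix.one_mul]

/-- If `a * M k = b * M k'` with `a, b ∈ SL(2, ℤ)` then `k = k'`. -/
theorem index_eq {ι : Type*} {M : ι → Matrix (Fin 2) (Fin 2) ℤ}
    (hinj : ∀ (a : SL(2, ℤ)) (i j : ι), (a : Matrix (Fin 2) (Fin 2) ℤ) * M i = M j → i = j)
    (a b : SL(2, ℤ)) {k k' : ι}
    (h : (a : Matrix (Fin 2) (Fin 2) ℤ) * M k = (b : Matrix (Fin 2) (Fin 2) ℤ) * M k') :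
    k = k' := by
  refine hinj (b⁻¹ * a) k k' ?_
  rw [Matrix.SpecialLinearGroup.coe_mul, Matrix.mul_assoc, h, ← Matrix.mul_assoc,
    coe_inv_mul_coe, Matrix.one_mul]

/-- Right cancellation of an integer matrix of nonzero determinant. -/
theorem mul_right_cancel_of_det_ne_zero {X Y K : Matrix (Fin 2) (Fin 2) ℤ} (hK : K.det ≠ 0)
    (h : X * K = Y * K) : X = Y := by
  have h1 := congrArg (fun Z => Z * K.adjugate) h
  simp only [Matrix.mul_assoc, Matrix.mul_adjugate, Matrix.mul_smul, Matrix.mul_one] at h1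
  ext i j
  have h2 := congrFun (congrFun h1 i) j
  simp only [Matrix.smul_apply, smul_eq_mul] at h2
  exact mul_left_cancel₀ hK h2

/-- Uniqueness of data. -/
theorem isDatum_unique {ι : Type*} {Γ : Subgroup SL(2, ℤ)}
    {M : ι → Matrix (Fin 2) (Fin 2) ℤ} (hdet : ∀ i, (M i).det ≠ 0)
    (hinj : ∀ (a : SL(2, ℤ)) (i j : ι), (a : Matrix (Fin 2) (Fin 2) ℤ) * M i = M j → i = j)
    {γ : Γ} {π π' : Equiv.Perm ι} {g g' : ι → Γ}
    (h : IsDatum Γ M γ π g) (h' : IsDatum Γ M γ π' g') : π = π' ∧ g = g' := by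
  have hπ : ∀ i, π i = π' i := fun i =>
    index_eq hinj (g i : SL(2, ℤ)) (g' i : SL(2, ℤ)) ((h i).symm.trans (h' i))
  refine ⟨Equiv.ext hπ, funext fun i => ?_⟩
  have h1 : ((g i : SL(2, ℤ)) : Matrix (Fin 2) (Fin 2) ℤ) * M (π i) =
      ((g' i : SL(2, ℤ)) : Matrix (Fin 2) (Fin 2) ℤ) * M (π i) := by
    rw [← h i, h' i, hπ i]
  exact Subtype.ext (Matrix.SpecialLinearGroup.ext _ _ fun a b =>
    congrFun (congrFun (mul_right_cancel_of_det_ne_zero (hdet (π i)) h1) a) b)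

/-- Composition of data. -/
theorem isDatum_mul {ι : Type*} {Γ : Subgroup SL(2, ℤ)}
    {M : ι → Matrix (Fin 2) (Fin 2) ℤ} {γ γ' : Γ} {π π' : Equiv.Perm ι} {g g' : ι → Γ}
    (h : IsDatum Γ M γ π g) (h' : IsDatum Γ M γ' π' g') :
    IsDatum Γ M (γ * γ') (π' * π) (fun i => g i * g' (π i)) := by
  intro i
  show M i * (((γ * γ' : Γ) : SL(2, ℤ)) : Matrix (Fin 2) (Fin 2) ℤ) =
    (((g i * g' (π i) : Γ) : SL(2, ℤ)) : Matrix (Fin 2) (Fin 2) ℤ) * M (π' (π i))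
  rw [Subgroup.coe_mul, Matrix.SpecialLinearGroup.coe_mul, ← Matrix.mul_assoc, h i,
    Matrix.mul_assoc, h' (π i), ← Matrix.mul_assoc, Subgroup.coe_mul,
    Matrix.SpecialLinearGroup.coe_mul]

/-- Transport of a datum by the involution. -/
theorem isDatum_jConj {ι : Type*} {N : ℕ}
    {M : ι → Matrix (Fin 2) (Fin 2) ℤ} (ν : Equiv.Perm ι) (t : ι → ↥(Gamma0 N))
    (hM : ∀ i, jConjMat (M i) = ((t i : SL(2, ℤ)) : Matrix (Fin 2) (Fin 2) ℤ) * M (ν i))
    {γ : ↥(Gamma0 N)} {π : Equiv.Perm ι} {g : ι → ↥(Gamma0 N)}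
    (hd : IsDatum (Gamma0 N) M γ π g) :
    IsDatum (Gamma0 N) M (jConjGamma0 N γ) (ν.symm.trans (π.trans ν))
      (fun k => (t (ν.symm k))⁻¹ * jConjGamma0 N (g (ν.symm k)) * t (π (ν.symm k))) := by
  have key : ∀ i, M (ν i) * ((jConjGamma0 N γ : SL(2, ℤ)) : Matrix (Fin 2) (Fin 2) ℤ) =
      ((((t i)⁻¹ * jConjGamma0 N (g i) * t (π i) : ↥(Gamma0 N)) : SL(2, ℤ)) :
        Matrix (Fin 2) (Fin 2) ℤ) * M (ν (π i)) := by
    intro i
    have h1 := congrArg jConjMat (hd i)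
    rw [jConjMat_mul, jConjMat_mul, hM i, hM (π i), Matrix.mul_assoc] at h1
    have h2 := eq_coe_inv_mul (t i : SL(2, ℤ)) h1
    rw [jConjGamma0_coe, jConjSL_coe, h2, Subgroup.coe_mul, Subgroup.coe_mul,
      Subgroup.coe_inv, Matrix.SpecialLinearGroup.coe_mul, Matrix.SpecialLinearGroup.coe_mul,
      jConjGamma0_coe, jConjSL_coe, Matrix.mul_assoc, Matrix.mul_assoc]
  intro k
  have h3 := key (ν.symm k)
  rw [Equiv.apply_symm_apply] at h3
  exact h3

end Abs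

/-- If every `M i * γ` lies in some `Γ * M j` and the classes `SL(2, ℤ) * M i` are pairwise
distinct, then `γ` has a datum. -/
theorem exists_isDatum_of {ι : Type*} [Finite ι] {Γ : Subgroup SL(2, ℤ)}
    {M : ι → Matrix (Fin 2) (Fin 2) ℤ}
    (hinj : ∀ (a : SL(2, ℤ)) (i j : ι), (a : Matrix (Fin 2) (Fin 2) ℤ) * M i = M j → i = j)
    (γ : Γ)
    (hloc : ∀ i, ∃ (j : ι) (g : Γ), M i * ((γ : SL(2, ℤ)) : Matrix (Fin 2) (Fin 2) ℤ) =
      ((g : SL(2, ℤ)) : Matrix (Fin 2) (Fin 2) ℤ) * M j) :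
    ∃ (π : Equiv.Perm ι) (g : ι → Γ), IsDatum Γ M γ π g := by
  choose j g hjg using hloc
  have hj : Function.Injective j := by
    intro i i' hii'
    have h1 := hjg i
    have h2 := hjg i'
    rw [← hii'] at h2
    refine hinj ((g i' : SL(2, ℤ)) * (g i : SL(2, ℤ))⁻¹) i i' ?_
    refine Abs.mul_coe_right_cancel (γ : SL(2, ℤ)) ?_
    rw [Matrix.mul_assoc, h1, h2, Matrix.SpecialLinearGroup.coe_mul, Matrix.mul_assoc,
      ← Matrix.mul_assoc _ _ (M (j i)), Abs.coe_inv_mul_coe, Matrix.one_mul]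
  exact ⟨Equiv.ofBijective j (Finite.injective_iff_bijective.mp hj), g, fun i => hjg i⟩

/-- Existence of the transform of an additive character. -/
theorem exists_isTransform_of {ι : Type*} [Fintype ι] {Γ : Subgroup SL(2, ℤ)}
    {M : ι → Matrix (Fin 2) (Fin 2) ℤ} (hdet : ∀ i, (M i).det ≠ 0)
    (hinj : ∀ (a : SL(2, ℤ)) (i j : ι), (a : Matrix (Fin 2) (Fin 2) ℤ) * M i = M j → i = j)
    (hex : ∀ γ : Γ, ∃ (π : Equiv.Perm ι) (g : ι → Γ), IsDatum Γ M γ π g)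
    {A : Type*} [AddCommGroup A] (φ : Additive Γ →+ A) :
    ∃ φ' : Additive Γ →+ A, IsTransform Γ M φ φ' := by
  choose P Q hPQ using hex
  refine ⟨AddMonoidHom.mk'
    (fun x => ∑ i, φ (Additive.ofMul (Q (Additive.toMul x) i))) ?_, ?_⟩
  · intro x y
    obtain ⟨-, hQ⟩ := Abs.isDatum_unique hdet hinj
      (hPQ (Additive.toMul x * Additive.toMul y))
      (Abs.isDatum_mul (hPQ (Additive.toMul x)) (hPQ (Additive.toMul y)))
    show ∑ i, φ (Additive.ofMul (Q (Additive.toMul (x + y)) i)) =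
      ∑ i, φ (Additive.ofMul (Q (Additive.toMul x) i)) +
        ∑ i, φ (Additive.ofMul (Q (Additive.toMul y) i))
    rw [toMul_add, hQ]
    simp only [ofMul_mul, map_add, Finset.sum_add_distrib]
    congr 1
    exact Equiv.sum_comp (P (Additive.toMul x))
      (fun k => φ (Additive.ofMul (Q (Additive.toMul y) k)))
  · intro γ π g hd
    obtain ⟨-, hQ⟩ := Abs.isDatum_unique hdet hinj hd (hPQ γ)
    show ∑ i, φ (Additive.ofMul (Q (Additive.toMul (Additive.ofMul γ)) i)) =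
      ∑ i, φ (Additive.ofMul (g i))
    rw [toMul_ofMul, hQ]

/-- Transforms commute with the involution `γ ↦ J γ J` when the family `M` is stable under
it up to left multiplication by `Γ₀(N)` and a permutation. -/
theorem isTransform_jConj_of {ι : Type*} [Fintype ι] {N : ℕ}
    {M : ι → Matrix (Fin 2) (Fin 2) ℤ} (ν : Equiv.Perm ι) (t : ι → ↥(Gamma0 N))
    (hM : ∀ i, jConjMat (M i) = ((t i : SL(2, ℤ)) : Matrix (Fin 2) (Fin 2) ℤ) * M (ν i))
    {A : Type*} [AddCommGroup A] {φ φ' : Additive ↥(Gamma0 N) →+ A}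
    (h : IsTransform (Gamma0 N) M φ φ') :
    IsTransform (Gamma0 N) M (φ.comp (MonoidHom.toAdditive (jConjGamma0 N)))
      (φ'.comp (MonoidHom.toAdditive (jConjGamma0 N))) := by
  intro γ π g hd
  have h1 := h _ _ _ (Abs.isDatum_jConj ν t hM hd)
  show φ' (Additive.ofMul (jConjGamma0 N γ)) =
    ∑ i, φ (Additive.ofMul (jConjGamma0 N (g i)))
  rw [h1, ← Equiv.sum_comp ν]
  simp only [Equiv.symm_apply_apply, ofMul_mul, ofMul_inv, map_add, map_neg,
    Finset.sum_add_distrib, Finset.sum_neg_distrib]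
  rw [Equiv.sum_comp π (fun k => φ (Additive.ofMul (t k)))]
  abel

end Fermat.Agent.S16.Coh
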