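import Mathlib
import Fermat.Agent.S16.LowDefs
import Fermat.Agent.S16.HeckeCoh

/-!
# S16, lower bound: data and transforms for `T_r` on `Γ₀(N)`, `r` a prime not dividing `N`
-/

set_option autoImplicit false

namespace Fermat.Agent.S16.Coh

open CongruenceSubgroup ModularCurve.Period
open scoped MatrixGroups

namespace T

/-- An integer matrix of determinant one with lower left entry divisible by `N` is the
matrix of an element of `Γ₀(N)`. -/
theorem exists_gamma0 {N : ℕ} (B : Matrix (Fin 2) (Fin 2) ℤ) (hdet : B.det = 1)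
    (hN : (N : ℤ) ∣ B 1 0) :
    ∃ g : ↥(Gamma0 N), ((g : SL(2, ℤ)) : Matrix (Fin 2) (Fin 2) ℤ) = B := by
  have hmem : (⟨B, hdet⟩ : SL(2, ℤ)) ∈ Gamma0 N :=
    Gamma0_mem.mpr ((ZMod.intCast_zmod_eq_zero_iff_dvd _ N).mpr hN)
  exact ⟨⟨⟨B, hdet⟩, hmem⟩, rfl⟩

/-- Solving a linear congruence modulo a prime. -/
theorem exists_fin_dvd {r : ℕ} (hr : r.Prime) {x : ℤ} (hx : ¬ (r : ℤ) ∣ x) (y : ℤ) :
    ∃ (j : Fin r) (k : ℤ), y - x * ((j : ℕ) : ℤ) = (r : ℤ) * k := by
  have : Fact r.Prime := ⟨hr⟩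
  have hx' : (x : ZMod r) ≠ 0 := by
    rw [Ne, ZMod.intCast_zmod_eq_zero_iff_dvd]
    exact hx
  have hdvd : (r : ℤ) ∣ y - x * ((((y : ZMod r) * (x : ZMod r)⁻¹).val : ℕ) : ℤ) := by
    rw [← ZMod.intCast_zmod_eq_zero_iff_dvd]
    push_cast
    rw [ZMod.natCast_zmod_val]
    field_simp
    ring
  obtain ⟨k, hk⟩ := hdvd
  exact ⟨⟨((y : ZMod r) * (x : ZMod r)⁻¹).val, ZMod.val_lt _⟩, k, hk⟩

theorem det_matT {r : ℕ} (i : Option (Fin r)) : (matT r i).det = (r : ℤ) := by
  cases i with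
  | none => rw [matT_none, Matrix.det_fin_two_of]; ring
  | some j => rw [matT_some, Matrix.det_fin_two_of]; ring

/-- The classes `SL(2, ℤ) * matT r i` are pairwise distinct. -/
theorem hinj {r : ℕ} (hr : 2 ≤ r) (a : SL(2, ℤ)) (i j : Option (Fin r))
    (h : (a : Matrix (Fin 2) (Fin 2) ℤ) * matT r i = matT r j) : i = j := by
  have hr' : (2 : ℤ) ≤ (r : ℤ) := by exact_mod_cast hr
  have h00 := congrFun (congrFun h 0) 0
  have h01 := congrFun (congrFun h 0) 1
  have h10 := congrFun (congrFun h 1) 0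
  have h11 := congrFun (congrFun h 1) 1
  cases i with
  | none =>
    cases j with
    | none => rfl
    | some j₂ =>
      exfalso
      simp [Matrix.mul_apply, Fin.sum_univ_two] at h00
      have h1 : (r : ℤ) ∣ 1 := ⟨_, by rw [mul_comm]; exact h00.symm⟩
      have := Int.le_of_dvd one_pos h1
      omega
  | some j₁ =>
    cases j with
    | none =>
      exfalso
      simp [Matrix.mul_apply, Fin.sum_univ_two] at h10 h11
      rw [h10] at h11
      simp at h11
      have h1 : (r : ℤ) ∣ 1 := ⟨_, by rw [mul_comm]; exact h11.symm⟩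
      have := Int.le_of_dvd one_pos h1
      omega
    | some j₂ =>
      simp [Matrix.mul_apply, Fin.sum_univ_two] at h00 h01
      rw [h00] at h01
      congr 1
      apply Fin.ext
      have hj₁ := j₁.isLt
      have hj₂ := j₂.isLt
      have hdvd : (r : ℤ) ∣ ((j₂ : ℕ) : ℤ) - ((j₁ : ℕ) : ℤ) :=
        ⟨(a : Matrix (Fin 2) (Fin 2) ℤ) 0 1, by linear_combination -h01⟩
      obtain ⟨k, hk⟩ := hdvd
      have hk0 : k = 0 := by
        by_contra hne
        rcases lt_or_gt_of_ne hne with hlt | hgt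
        · have : (r : ℤ) * k ≤ (r : ℤ) * (-1) := by
            apply mul_le_mul_of_nonneg_left _ (by omega)
            omega
          omega
        · have : (r : ℤ) * 1 ≤ (r : ℤ) * k := by
            apply mul_le_mul_of_nonneg_left _ (by omega)
            omega
          omega
      rw [hk0] at hk
      omega

/-- The local step for `γ = (a b; c d)` in `Γ₀(N)`, in matrix form. -/
theorem hloc_mat {N r : ℕ} (hr : r.Prime) (hrN : ¬ r ∣ N) (a b c d : ℤ)
    (hdet : a * d - b * c = 1) (hN : (N : ℤ) ∣ c) (i : Option (Fin r)) :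
    ∃ (j : Option (Fin r)) (B : Matrix (Fin 2) (Fin 2) ℤ), B.det = 1 ∧ (N : ℤ) ∣ B 1 0 ∧
      matT r i * !![a, b; c, d] = B * matT r j := by
  have hcop : IsCoprime (N : ℤ) (r : ℤ) :=
    Nat.isCoprime_iff_coprime.mpr ((Nat.Prime.coprime_iff_not_dvd hr).mpr hrN).symm
  cases i with
  | none =>
    by_cases hc : (r : ℤ) ∣ c
    · obtain ⟨k, rfl⟩ := hc
      refine ⟨none, !![a, (r : ℤ) * b; k, d], ?_, ?_, ?_⟩
      · rw [Matrix.det_fin_two_of]
        linear_combination hdet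
      · exact hcop.dvd_of_dvd_mul_left hN
      · ext u v
        fin_cases u <;> fin_cases v <;> simp [Matrix.mul_apply, Fin.sum_univ_two] <;> ring
    · obtain ⟨j, k, hk⟩ := exists_fin_dvd hr hc d
      refine ⟨some j, !![(r : ℤ) * a, b - a * ((j : ℕ) : ℤ); c, k], ?_, ?_, ?_⟩
      · rw [Matrix.det_fin_two_of]
        linear_combination hdet - a * hk
      · exact hN
      · ext u v
        fin_cases u <;> fin_cases v <;> simp [Matrix.mul_apply, Fin.sum_univ_two]
        · ring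
        · linear_combination hk
  | some j₁ =>
    by_cases hc : (r : ℤ) ∣ a + ((j₁ : ℕ) : ℤ) * c
    · obtain ⟨k, hk⟩ := hc
      refine ⟨none, !![k, b + ((j₁ : ℕ) : ℤ) * d; c, (r : ℤ) * d], ?_, ?_, ?_⟩
      · rw [Matrix.det_fin_two_of]
        linear_combination hdet - d * hk
      · exact hN
      · ext u v
        fin_cases u <;> fin_cases v <;> simp [Matrix.mul_apply, Fin.sum_univ_two]
        · linear_combination hk
        · ring
    · obtain ⟨j, k, hk⟩ := exists_fin_dvd hr hc (b + ((j₁ : ℕ) : ℤ) * d)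
      refine ⟨some j, !![a + ((j₁ : ℕ) : ℤ) * c, k; (r : ℤ) * c, d - ((j : ℕ) : ℤ) * c],
        ?_, ?_, ?_⟩
      · rw [Matrix.det_fin_two_of]
        linear_combination hdet + c * hk
      · exact Dvd.dvd.mul_left hN _
      · ext u v
        fin_cases u <;> fin_cases v <;> simp [Matrix.mul_apply, Fin.sum_univ_two]
        · linear_combination hk
        · ring

/-- The local step for `γ` in `Γ₀(N)`. -/
theorem hloc {N r : ℕ} (hr : r.Prime) (hrN : ¬ r ∣ N) (γ : ↥(Gamma0 N)) (i : Option (Fin r)) :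
    ∃ (j : Option (Fin r)) (g : ↥(Gamma0 N)),
      matT r i * ((γ : SL(2, ℤ)) : Matrix (Fin 2) (Fin 2) ℤ) =
        ((g : SL(2, ℤ)) : Matrix (Fin 2) (Fin 2) ℤ) * matT r j := by
  have hdet : ((γ : SL(2, ℤ)) : Matrix (Fin 2) (Fin 2) ℤ) 0 0 *
      ((γ : SL(2, ℤ)) : Matrix (Fin 2) (Fin 2) ℤ) 1 1 -
      ((γ : SL(2, ℤ)) : Matrix (Fin 2) (Fin 2) ℤ) 0 1 *
      ((γ : SL(2, ℤ)) : Matrix (Fin 2) (Fin 2) ℤ) 1 0 = 1 := by
    rw [← Matrix.det_fin_two]
    exact (γ : SL(2, ℤ)).det_coe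
  have hN : (N : ℤ) ∣ ((γ : SL(2, ℤ)) : Matrix (Fin 2) (Fin 2) ℤ) 1 0 :=
    (ZMod.intCast_zmod_eq_zero_iff_dvd _ N).mp (Gamma0_mem.mp γ.2)
  obtain ⟨j, B, hB, hBN, hmul⟩ := hloc_mat hr hrN _ _ _ _ hdet hN i
  obtain ⟨g, hg⟩ := exists_gamma0 B hB hBN
  refine ⟨j, g, ?_⟩
  rw [hg, ← hmul, ← Matrix.eta_fin_two]

/-- The value at `-j` in `Fin r`, as an integer. -/
theorem val_neg_cast {r : ℕ} [NeZero r] (j : Fin r) :
    (((-j : Fin r) : ℕ) : ℤ) = if (j : ℕ) = 0 then 0 else (r : ℤ) - ((j : ℕ) : ℤ) := by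
  have hj := j.isLt
  rw [Fin.val_neg']
  split_ifs with h0
  · rw [h0, Nat.sub_zero, Nat.mod_self]
    rfl
  · rw [Nat.mod_eq_of_lt (by omega), Nat.cast_sub (le_of_lt hj)]

/-- The family `matT r` is stable under `jConjMat` up to `Γ₀(N)` and a permutation. -/
theorem hM (N r : ℕ) [NeZero r] :
    ∃ t : Option (Fin r) → ↥(Gamma0 N), ∀ i, jConjMat (matT r i) =
      ((t i : SL(2, ℤ)) : Matrix (Fin 2) (Fin 2) ℤ) *
        matT r (Equiv.optionCongr (Equiv.neg (Fin r)) i) := by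
  obtain ⟨τ, hτ⟩ : ∃ g : ↥(Gamma0 N),
      ((g : SL(2, ℤ)) : Matrix (Fin 2) (Fin 2) ℤ) = !![1, -1; 0, 1] :=
    exists_gamma0 _ (by rw [Matrix.det_fin_two_of]; ring) (by simp)
  refine ⟨fun i => match i with
    | none => 1
    | some j => if (j : ℕ) = 0 then 1 else τ, fun i => ?_⟩
  cases i with
  | none =>
    ext u v
    fin_cases u <;> fin_cases v <;> simp [jConjMat]
  | some j =>
    have hν : Equiv.optionCongr (Equiv.neg (Fin r)) (some j) = some (-j) := by simp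
    rw [hν, matT_some, matT_some, val_neg_cast]
    by_cases h0 : (j : ℕ) = 0
    · simp only [h0, if_true]
      ext u v
      fin_cases u <;> fin_cases v <;> simp [jConjMat]
    · simp only [h0, if_false]
      rw [hτ]
      ext u v
      fin_cases u <;> fin_cases v <;> simp [jConjMat, Matrix.mul_apply, Fin.sum_univ_two]
      ring

end T

theorem exists_isDatum_T {N r : ℕ} (hr : r.Prime) (hrN : ¬ r ∣ N) (γ : ↥(Gamma0 N)) :
    ∃ (π : Equiv.Perm (Option (Fin r))) (g : Option (Fin r) → ↥(Gamma0 N)),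
      IsDatum (Gamma0 N) (matT r) γ π g :=
  exists_isDatum_of (T.hinj hr.two_le) γ (T.hloc hr hrN γ)

theorem exists_isTransform_T {N r : ℕ} (hr : r.Prime) (hrN : ¬ r ∣ N) {A : Type*}
    [AddCommGroup A] (φ : Additive ↥(Gamma0 N) →+ A) :
    ∃ φ' : Additive ↥(Gamma0 N) →+ A, IsTransform (Gamma0 N) (matT r) φ φ' := by
  refine exists_isTransform_of (fun i => ?_) (T.hinj hr.two_le)
    (fun γ => exists_isDatum_T hr hrN γ) φ
  rw [T.det_matT]
  exact_mod_cast hr.ne_zero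

theorem isTransform_jConj_T {N r : ℕ} (hr : r.Prime) (hrN : ¬ r ∣ N) {A : Type*}
    [AddCommGroup A] {φ φ' : Additive ↥(Gamma0 N) →+ A}
    (h : IsTransform (Gamma0 N) (matT r) φ φ') :
    IsTransform (Gamma0 N) (matT r) (φ.comp (MonoidHom.toAdditive (jConjGamma0 N)))
      (φ'.comp (MonoidHom.toAdditive (jConjGamma0 N))) := by
  have _ := hrN
  have : NeZero r := ⟨hr.ne_zero⟩
  obtain ⟨t, ht⟩ := T.hM N r
  exact isTransform_jConj_of _ t ht h

end Fermat.Agent.S16.Coh
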