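import Mathlib
import Fermat.Agent.S16.LowDefs
import Fermat.Agent.S16.HeckeCoh

/-!
# S16, lower bound: data and transforms for `U_q` on `Γ₀(N)`, `q` a divisor of `N`
-/

set_option autoImplicit false

namespace Fermat.Agent.S16.Coh

open CongruenceSubgroup ModularCurve.Period
open scoped MatrixGroups

namespace U

/-- An element of `Γ₀(N)` from integer entries with determinant one and lower-left entry
divisible by `N`. -/
def mk (N : ℕ) (a b c d : ℤ) (hdet : a * d - b * c = 1) (hc : (N : ℤ) ∣ c) : ↥(Gamma0 N) :=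
  ⟨(⟨!![a, b; c, d], by rw [Matrix.det_fin_two_of]; exact hdet⟩ : SL(2, ℤ)),
    Gamma0_mem.mpr ((ZMod.intCast_zmod_eq_zero_iff_dvd c N).mpr hc)⟩

theorem coe_mk (N : ℕ) (a b c d : ℤ) (hdet : a * d - b * c = 1) (hc : (N : ℤ) ∣ c) :
    ((mk N a b c d hdet hc : SL(2, ℤ)) : Matrix (Fin 2) (Fin 2) ℤ) = !![a, b; c, d] := rfl

/-- The classes `SL(2, ℤ) * matU q j` are pairwise distinct. -/
theorem hinj {q : ℕ} (a : SL(2, ℤ)) (i j : Fin q)
    (h : (a : Matrix (Fin 2) (Fin 2) ℤ) * matU q i = matU q j) : i = j := by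
  have h00 := congrFun (congrFun h 0) 0
  have h01 := congrFun (congrFun h 0) 1
  simp only [matU_apply, Matrix.mul_apply, Fin.sum_univ_two, Matrix.of_apply, Matrix.cons_val',
    Matrix.cons_val_zero, Matrix.cons_val_one, Matrix.empty_val', Matrix.cons_val_fin_one,
    mul_one, mul_zero, add_zero] at h00 h01
  rw [h00, one_mul] at h01
  have hi : ((i : ℕ) : ℤ) < q := by exact_mod_cast i.isLt
  have hj : ((j : ℕ) : ℤ) < q := by exact_mod_cast j.isLt
  have h2 : ((j : ℕ) : ℤ) % q = ((i : ℕ) : ℤ) % q := by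
    rw [← h01]; exact Int.add_mul_emod_self_right ..
  rw [Int.emod_eq_of_lt (by positivity) hi, Int.emod_eq_of_lt (by positivity) hj] at h2
  exact Fin.ext (by exact_mod_cast h2.symm)

/-- The determinant of `matU q j`. -/
theorem det_matU (q : ℕ) (j : Fin q) : (matU q j).det = (q : ℤ) := by
  rw [matU_apply, Matrix.det_fin_two_of]; ring

/-- A residue of an integer modulo a positive natural number, as an element of `Fin q`. -/
theorem exists_residue {q : ℕ} (hq : q ≠ 0) (z : ℤ) :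
    ∃ (j : Fin q) (m : ℤ), ((j : ℕ) : ℤ) = z - (q : ℤ) * m := by
  have hq' : (q : ℤ) ≠ 0 := by exact_mod_cast hq
  have hq0 : (0 : ℤ) < q := by exact_mod_cast Nat.pos_of_ne_zero hq
  have h0 : 0 ≤ z % (q : ℤ) := Int.emod_nonneg z hq'
  have h1 : z % (q : ℤ) < q := Int.emod_lt_of_pos z hq0
  refine ⟨⟨(z % (q : ℤ)).toNat, (Int.toNat_lt h0).mpr h1⟩, z / (q : ℤ), ?_⟩
  show (((z % (q : ℤ)).toNat : ℕ) : ℤ) = z - (q : ℤ) * (z / (q : ℤ))
  rw [Int.toNat_of_nonneg h0]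
  have := Int.emod_add_mul_ediv z (q : ℤ)
  linarith

/-- The local step in coordinates: `matU q j * (a b; c d)` lies in `Γ₀(N) * matU q j'` where
`j'` is the residue of `d * (b + j * d)` modulo `q`. -/
theorem hloc_aux {N q : ℕ} (hq : q ≠ 0) (hqN : q ∣ N) (a b c d : ℤ)
    (hdet : a * d - b * c = 1) (hNc : (N : ℤ) ∣ c) (j : Fin q) :
    ∃ (j' : Fin q) (g : ↥(Gamma0 N)),
      matU q j * !![a, b; c, d] =
        ((g : SL(2, ℤ)) : Matrix (Fin 2) (Fin 2) ℤ) * matU q j' := by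
  have hqc : (q : ℤ) ∣ c := dvd_trans (Int.natCast_dvd_natCast.mpr hqN) hNc
  obtain ⟨c', hc'⟩ := hqc
  obtain ⟨j', m, hj'⟩ := exists_residue hq (d * (b + (j : ℕ) * d))
  -- `q` times the upper right entry of `g`
  have hkq : (q : ℤ) * (m * (a + (j : ℕ) * c) - c' * (b + (j : ℕ) * d) ^ 2)
      = b + (j : ℕ) * d - (a + (j : ℕ) * c) * (j' : ℕ) := by
    rw [hj']
    linear_combination (b + (j : ℕ) * d) * hdet + (b + (j : ℕ) * d) ^ 2 * hc'
  refine ⟨j', mk N (a + (j : ℕ) * c) (m * (a + (j : ℕ) * c) - c' * (b + (j : ℕ) * d) ^ 2)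
    ((q : ℤ) * c) (d - c * (j' : ℕ)) ?_ (Dvd.dvd.mul_left hNc _), ?_⟩
  · linear_combination hdet - c * hkq
  · rw [coe_mk, matU_apply, matU_apply]
    ext r s
    fin_cases r <;> fin_cases s <;>
      simp [Matrix.mul_apply, Fin.sum_univ_two]
    · linear_combination -hkq
    · ring

/-- The local step: `matU q j * γ` lies in `Γ₀(N) * matU q j'` for some `j'`. -/
theorem hloc {N q : ℕ} [NeZero N] (hqN : q ∣ N) (γ : ↥(Gamma0 N)) (j : Fin q) :
    ∃ (j' : Fin q) (g : ↥(Gamma0 N)),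
      matU q j * ((γ : SL(2, ℤ)) : Matrix (Fin 2) (Fin 2) ℤ) =
        ((g : SL(2, ℤ)) : Matrix (Fin 2) (Fin 2) ℤ) * matU q j' := by
  have hq : q ≠ 0 := by
    rintro rfl
    exact NeZero.ne N (Nat.eq_zero_of_zero_dvd hqN)
  have hdet := (γ : SL(2, ℤ)).det_coe
  rw [Matrix.det_fin_two] at hdet
  have hNc : (N : ℤ) ∣ ((γ : SL(2, ℤ)) : Matrix (Fin 2) (Fin 2) ℤ) 1 0 :=
    (ZMod.intCast_zmod_eq_zero_iff_dvd _ N).mp (Gamma0_mem.mp γ.2)
  have := hloc_aux hq hqN _ _ _ _ hdet hNc j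
  rwa [← Matrix.eta_fin_two] at this

/-- The value of `-j` in `Fin q`, as an integer. -/
theorem neg_val {q : ℕ} [NeZero q] (j : Fin q) :
    (((Equiv.neg (Fin q) j : Fin q) : ℕ) : ℤ) =
      if (j : ℕ) = 0 then 0 else (q : ℤ) - (j : ℕ) := by
  rw [Equiv.neg_apply, Fin.val_neg']
  have hj := j.isLt
  split_ifs with h
  · rw [h]; simp
  · rw [Nat.mod_eq_of_lt (by omega)]
    omega

/-- `jConjMat (matU q j)` lies in `Γ₀(N) * matU q (-j)`. -/
theorem hM (N : ℕ) {q : ℕ} [NeZero q] (j : Fin q) :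
    jConjMat (matU q j) =
      ((mk N 1 (if (j : ℕ) = 0 then 0 else -1) 0 1 (by ring) (dvd_zero _) : SL(2, ℤ)) :
        Matrix (Fin 2) (Fin 2) ℤ) * matU q (Equiv.neg (Fin q) j) := by
  rw [coe_mk, matU_apply, matU_apply, jConjMat, neg_val]
  ext r s
  fin_cases r <;> fin_cases s <;> simp [Matrix.mul_apply, Fin.sum_univ_two]
  split_ifs with h
  · simp [h]
  · ring

end U

theorem exists_isDatum_U {N q : ℕ} [NeZero N] (hqN : q ∣ N) (γ : ↥(Gamma0 N)) :
    ∃ (π : Equiv.Perm (Fin q)) (g : Fin q → ↥(Gamma0 N)),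
      IsDatum (Gamma0 N) (matU q) γ π g :=
  exists_isDatum_of U.hinj γ (U.hloc hqN γ)

theorem exists_isTransform_U {N q : ℕ} [NeZero N] (hqN : q ∣ N) {A : Type*}
    [AddCommGroup A] (φ : Additive ↥(Gamma0 N) →+ A) :
    ∃ φ' : Additive ↥(Gamma0 N) →+ A, IsTransform (Gamma0 N) (matU q) φ φ' := by
  have hq : q ≠ 0 := by
    rintro rfl
    exact NeZero.ne N (Nat.eq_zero_of_zero_dvd hqN)
  refine exists_isTransform_of (fun j => ?_) U.hinj (exists_isDatum_U hqN) φ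
  rw [U.det_matU]
  exact_mod_cast hq

theorem isTransform_jConj_U {N q : ℕ} [NeZero N] (hqN : q ∣ N) {A : Type*}
    [AddCommGroup A] {φ φ' : Additive ↥(Gamma0 N) →+ A}
    (h : IsTransform (Gamma0 N) (matU q) φ φ') :
    IsTransform (Gamma0 N) (matU q) (φ.comp (MonoidHom.toAdditive (jConjGamma0 N)))
      (φ'.comp (MonoidHom.toAdditive (jConjGamma0 N))) := by
  have hq : q ≠ 0 := by
    rintro rfl
    exact NeZero.ne N (Nat.eq_zero_of_zero_dvd hqN)
  have : NeZero q := ⟨hq⟩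
  exact isTransform_jConj_of (Equiv.neg (Fin q))
    (fun j => U.mk N 1 (if (j : ℕ) = 0 then 0 else -1) 0 1 (by ring) (dvd_zero _))
    (U.hM N) h

end Fermat.Agent.S16.Coh
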