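import Mathlib
import Fermat.Agent.S16.LowDefs
import Fermat.Agent.S21.Primitive
import Fermat.Agent.S21.Linear
import Fermat.Prelude.Def_ModularForm_HeckeOperatorForms

/-!
# S16, lower bound: the period map intertwines the Hecke operators

The period map of weight 2 cusp forms of level `Γ₀(N)` takes `T_r` (`r` prime, `r ∤ N`) and
`U_q` (`q ∣ N`) on forms to the corresponding coset operators on additive characters.
-/

set_option autoImplicit false

namespace Fermat.Agent.S16.Coh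

open CongruenceSubgroup ModularCurve ModularCurve.Period UpperHalfPlane
open scoped MatrixGroups

namespace Per

/-- Chain rule for `w ↦ F (A • w)` with `A` a real matrix of positive determinant. -/
theorem hasDerivAt_comp_gl_smul {F f : ℍ → ℂ}
    (hF : ∀ τ : ℍ, HasDerivAt (F ∘ ofComplex) (f τ) (τ : ℂ)) {A : GL (Fin 2) ℝ}
    (hA : 0 < A.val.det) (τ : ℍ) :
    HasDerivAt ((fun w : ℍ => F (A • w)) ∘ ofComplex)
      (f (A • τ) * ((A.val.det : ℂ) / denom A τ ^ 2)) (τ : ℂ) := by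
  have h1 := (hasStrictDerivAt_smul hA τ).hasDerivAt
  have hpt : ((A • τ : ℍ) : ℂ) = ((A • ofComplex (τ : ℂ) : ℍ) : ℂ) := by
    rw [ofComplex_apply]
  have h2 := (hF (A • τ)).comp_of_eq (τ : ℂ) h1 hpt
  have hfun : ((F ∘ ofComplex) ∘ fun z : ℂ => ((A • ofComplex z : ℍ) : ℂ))
      = (fun w : ℍ => F (A • w)) ∘ ofComplex := by
    funext z
    simp only [Function.comp_apply, ofComplex_apply]
  rw [hfun] at h2
  exact h2

/-- A datum gives the corresponding identity for the actions on the upper half plane. -/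
theorem smul_smul_of_isDatum {ι : Type*} {Γ : Subgroup SL(2, ℤ)}
    {M : ι → Matrix (Fin 2) (Fin 2) ℤ} {A : ι → GL (Fin 2) ℝ}
    (hA : ∀ i, ((A i : GL (Fin 2) ℝ) : Matrix (Fin 2) (Fin 2) ℝ)
      = (M i).map (Int.cast : ℤ → ℝ))
    {γ : Γ} {π : Equiv.Perm ι} {g : ι → Γ} (hd : IsDatum Γ M γ π g) (i : ι) (τ : ℍ) :
    A i • ((γ : SL(2, ℤ)) • τ) = (g i : SL(2, ℤ)) • (A (π i) • τ) := by
  have key : A i * ((γ : SL(2, ℤ)) : GL (Fin 2) ℝ)
      = ((g i : SL(2, ℤ)) : GL (Fin 2) ℝ) * A (π i) := by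
    apply Units.ext
    rw [Units.val_mul, Units.val_mul, hA, hA]
    have h1 : ∀ δ : SL(2, ℤ), (((δ : GL (Fin 2) ℝ)) : Matrix (Fin 2) (Fin 2) ℝ)
        = (δ : Matrix (Fin 2) (Fin 2) ℤ).map (Int.cast : ℤ → ℝ) := fun δ => rfl
    rw [h1, h1]
    have h2 := congrArg (fun X : Matrix (Fin 2) (Fin 2) ℤ => X.map (Int.castRingHom ℝ)) (hd i)
    simp only [Matrix.map_mul] at h2
    exact h2
  rw [ModularGroup.sl_moeb, ModularGroup.sl_moeb, ← mul_smul, ← mul_smul, key]

/-- The period map intertwines the operator of a finite family of integer matrices of positive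
determinant on forms with the coset operator on characters. -/
theorem isTransform_periodMap_of {ι : Type*} [Fintype ι] (N : ℕ) [NeZero N]
    (M : ι → Matrix (Fin 2) (Fin 2) ℤ) (A : ι → GL (Fin 2) ℝ)
    (hA : ∀ i, ((A i : GL (Fin 2) ℝ) : Matrix (Fin 2) (Fin 2) ℝ)
      = (M i).map (Int.cast : ℤ → ℝ))
    (hpos : ∀ i, 0 < (A i).val.det) (f f' : CuspForm (Gamma0 N) 2)
    (hff' : ∀ τ : ℍ, f' τ = ∑ i, f (A i • τ) * (((A i).val.det : ℂ) / denom (A i) τ ^ 2)) :
    IsTransform (Gamma0 N) M (periodMap N f) (periodMap N f') := by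
  obtain ⟨F, hF⟩ := Fermat.Agent.S21.exists_hasEquivariantPrimitive N f
  obtain ⟨F', hF'⟩ := Fermat.Agent.S21.exists_hasEquivariantPrimitive N f'
  have hG : ∀ τ : ℍ,
      HasDerivAt ((fun w : ℍ => ∑ i, F (A i • w)) ∘ ofComplex) (f' τ) (τ : ℂ) := by
    intro τ
    rw [hff' τ]
    exact HasDerivAt.fun_sum (u := Finset.univ)
      (fun i _ => hasDerivAt_comp_gl_smul hF.1 (hpos i) τ)
  obtain ⟨c, hc⟩ := Fermat.Agent.S21.eq_add_const_of_hasDerivAt hG hF'.1
  intro γ π g hd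
  rw [Fermat.Agent.S21.periodMap_eq_periodHom_of N f hF,
    Fermat.Agent.S21.periodMap_eq_periodHom_of N f' hF']
  simp only [IsEquivariantPrimitive.periodHom_apply]
  have h1 : hF'.2.2.1.period γ
      = F' ((γ : SL(2, ℤ)) • UpperHalfPlane.I) - F' UpperHalfPlane.I := rfl
  have h2 : ∑ i, F (A i • ((γ : SL(2, ℤ)) • UpperHalfPlane.I))
      = F' ((γ : SL(2, ℤ)) • UpperHalfPlane.I) + c := hc ((γ : SL(2, ℤ)) • UpperHalfPlane.I)
  have h3 : ∑ i, F (A i • UpperHalfPlane.I) = F' UpperHalfPlane.I + c := hc UpperHalfPlane.I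
  have h4 : ∀ i, F (A i • ((γ : SL(2, ℤ)) • UpperHalfPlane.I))
      = hF.2.2.1.period (g i) + F (A (π i) • UpperHalfPlane.I) := by
    intro i
    rw [smul_smul_of_isDatum hA hd i,
      ← hF.2.2.1.sub_eq_period (g i) (A (π i) • UpperHalfPlane.I)]
    ring
  have h5 : ∑ i, F (A (π i) • UpperHalfPlane.I) = ∑ i, F (A i • UpperHalfPlane.I) :=
    Equiv.sum_comp π (fun i => F (A i • UpperHalfPlane.I))
  rw [Finset.sum_congr rfl (fun i _ => h4 i), Finset.sum_add_distrib, h5] at h2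
  rw [h1]
  linear_combination h3 - h2

/-- The real matrices of `T_r`. -/
noncomputable def glT (r : ℕ) : Option (Fin r) → GL (Fin 2) ℝ
  | none => ModularForm.heckeDiagMatrix r
  | some j => ModularForm.heckeMatrix r j

/-- The real matrices of `U_q`. -/
noncomputable def glU (q : ℕ) : Fin q → GL (Fin 2) ℝ :=
  fun j => ModularForm.heckeMatrix q j

theorem val_heckeMatrix_eq_map {p : ℕ} (hp : p ≠ 0) (j : ℕ) :
    ((ModularForm.heckeMatrix p j : GL (Fin 2) ℝ) : Matrix (Fin 2) (Fin 2) ℝ)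
      = (!![1, (j : ℤ); 0, (p : ℤ)] : Matrix (Fin 2) (Fin 2) ℤ).map (Int.cast : ℤ → ℝ) := by
  rw [ModularForm.val_heckeMatrix hp]
  ext a b
  fin_cases a <;> fin_cases b <;> simp

theorem val_heckeDiagMatrix_eq_map {p : ℕ} (hp : p ≠ 0) :
    ((ModularForm.heckeDiagMatrix p : GL (Fin 2) ℝ) : Matrix (Fin 2) (Fin 2) ℝ)
      = (!![(p : ℤ), 0; 0, 1] : Matrix (Fin 2) (Fin 2) ℤ).map (Int.cast : ℤ → ℝ) := by
  rw [ModularForm.val_heckeDiagMatrix hp]
  ext a b
  fin_cases a <;> fin_cases b <;> simp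

theorem det_val_heckeMatrix {p : ℕ} (hp : p ≠ 0) (j : ℕ) :
    ((ModularForm.heckeMatrix p j : GL (Fin 2) ℝ) : Matrix (Fin 2) (Fin 2) ℝ).det = p := by
  rw [ModularForm.val_heckeMatrix hp, Matrix.det_fin_two_of]
  ring

theorem det_val_heckeDiagMatrix {p : ℕ} (hp : p ≠ 0) :
    ((ModularForm.heckeDiagMatrix p : GL (Fin 2) ℝ) : Matrix (Fin 2) (Fin 2) ℝ).det = p := by
  rw [ModularForm.val_heckeDiagMatrix hp, Matrix.det_fin_two_of]
  ring

end Per

theorem isTransform_periodMap_T (N : ℕ) [NeZero N] {r : ℕ} (hr : r.Prime) (hrN : ¬ r ∣ N)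
    (f : CuspForm (Gamma0 N) 2) :
    IsTransform (Gamma0 N) (matT r) (periodMap N f)
      (periodMap N (CuspForm.heckeTLin 2 hr hrN f)) := by
  have hr0 : r ≠ 0 := hr.ne_zero
  have hrC : (r : ℂ) ≠ 0 := by exact_mod_cast hr0
  have hrpos : (0 : ℝ) < (r : ℝ) := by exact_mod_cast hr.pos
  refine Per.isTransform_periodMap_of N (matT r) (Per.glT r) ?_ ?_ f _ ?_
  · rintro (_ | j)
    · exact Per.val_heckeDiagMatrix_eq_map hr0
    · exact Per.val_heckeMatrix_eq_map hr0 j
  · rintro (_ | j)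
    · show 0 < ((ModularForm.heckeDiagMatrix r : GL (Fin 2) ℝ) : Matrix (Fin 2) (Fin 2) ℝ).det
      rw [Per.det_val_heckeDiagMatrix hr0]
      exact hrpos
    · show 0 < ((ModularForm.heckeMatrix r j : GL (Fin 2) ℝ) : Matrix (Fin 2) (Fin 2) ℝ).det
      rw [Per.det_val_heckeMatrix hr0]
      exact hrpos
  · intro τ
    rw [CuspForm.heckeTLin_apply_apply, ModularForm.heckeT_apply 2 hr0, Fintype.sum_option,
      Finset.sum_range, Finset.mul_sum]
    simp only [Per.glT]
    rw [Per.det_val_heckeDiagMatrix hr0, ModularForm.denom_heckeDiagMatrix hr0]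
    simp only [Per.det_val_heckeMatrix hr0, ModularForm.denom_heckeMatrix hr0]
    rw [add_comm]
    congr 1
    · norm_num
      ring
    · refine Finset.sum_congr rfl fun j _ => ?_
      push_cast
      field_simp

theorem isTransform_periodMap_U (N : ℕ) [NeZero N] {q : ℕ} (hqN : q ∣ N)
    (f : CuspForm (Gamma0 N) 2) :
    IsTransform (Gamma0 N) (matU q) (periodMap N f)
      (periodMap N (CuspForm.heckeULin 2 hqN f)) := by
  have hq0 : q ≠ 0 := by
    rintro rfl
    exact NeZero.ne N (Nat.eq_zero_of_zero_dvd hqN)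
  have hqC : (q : ℂ) ≠ 0 := by exact_mod_cast hq0
  have hqpos : (0 : ℝ) < (q : ℝ) := by exact_mod_cast Nat.pos_of_ne_zero hq0
  refine Per.isTransform_periodMap_of N (matU q) (Per.glU q) ?_ ?_ f _ ?_
  · intro j
    exact Per.val_heckeMatrix_eq_map hq0 j
  · intro j
    show 0 < ((ModularForm.heckeMatrix q j : GL (Fin 2) ℝ) : Matrix (Fin 2) (Fin 2) ℝ).det
    rw [Per.det_val_heckeMatrix hq0]
    exact hqpos
  · intro τ
    rw [CuspForm.heckeULin_apply_apply, ModularForm.heckeU_apply 2 hq0,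
      Finset.sum_range, Finset.mul_sum]
    simp only [Per.glU]
    simp only [Per.det_val_heckeMatrix hq0, ModularForm.denom_heckeMatrix hq0]
    refine Finset.sum_congr rfl fun j _ => ?_
    push_cast
    field_simp

end Fermat.Agent.S16.Coh
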