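import Mathlib
import Fermat.Agent.S21.Parabolic
import Fermat.Agent.S21.CohSL2

/-!
# S16, lower bound: integral cocycles on `SL(2, ℤ) ⧸ Γ₀(p)` and parabolic elements
-/

set_option autoImplicit false

namespace Fermat.Agent.S16.Lift

open CongruenceSubgroup
open scoped MatrixGroups

namespace Par

/-! ### Formal properties of cocycles -/

section Abstract

variable {G X : Type*} [Group G] [MulAction G X] {z : G → X → ℤ}

theorem z_one (hz : ∀ g g' x, z (g * g') x = z g (g' • x) + z g' x) (x : X) : z 1 x = 0 := by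
  have h := hz 1 1 x
  rw [mul_one, one_smul] at h
  linarith

theorem z_inv (hz : ∀ g g' x, z (g * g') x = z g (g' • x) + z g' x) (g : G) (x : X) :
    z g⁻¹ x = - z g (g⁻¹ • x) := by
  have h := hz g g⁻¹ x
  rw [mul_inv_cancel, z_one hz] at h
  linarith

theorem z_pow_fixed (hz : ∀ g g' x, z (g * g') x = z g (g' • x) + z g' x) {t : G} {y : X}
    (hy : t • y = y) (m : ℕ) : z (t ^ m) y = m * z t y := by
  induction m with
  | zero => rw [pow_zero, z_one hz]; simp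
  | succ m ih =>
    rw [pow_succ, hz, hy, ih]
    push_cast
    ring

theorem pow_smul_fixed {t : G} {y : X} (hy : t • y = y) (m : ℕ) : t ^ m • y = y := by
  induction m with
  | zero => rw [pow_zero, one_smul]
  | succ m ih => rw [pow_succ, mul_smul, hy, ih]

theorem inv_smul_fixed {t : G} {y : X} (hy : t • y = y) : t⁻¹ • y = y := by
  rw [inv_smul_eq_iff, hy]

theorem z_inv_fixed (hz : ∀ g g' x, z (g * g') x = z g (g' • x) + z g' x) {t : G} {y : X}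
    (hy : t • y = y) : z t⁻¹ y = - z t y := by
  rw [z_inv hz, inv_smul_fixed hy]

theorem z_zpow_fixed (hz : ∀ g g' x, z (g * g') x = z g (g' • x) + z g' x) {t : G} {y : X}
    (hy : t • y = y) (k : ℤ) : z (t ^ k) y = k * z t y := by
  obtain ⟨m, rfl | rfl⟩ := k.eq_nat_or_neg
  · rw [zpow_natCast, z_pow_fixed hz hy]
  · rw [zpow_neg, zpow_natCast, z_inv_fixed hz (pow_smul_fixed hy m), z_pow_fixed hz hy]
    ring

theorem z_pow_sum (hz : ∀ g g' x, z (g * g') x = z g (g' • x) + z g' x) (t : G) (y : X)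
    (m : ℕ) : z (t ^ m) y = ∑ i ∈ Finset.range m, z t (t ^ i • y) := by
  induction m with
  | zero => rw [pow_zero, z_one hz, Finset.range_zero, Finset.sum_empty]
  | succ m ih =>
    rw [pow_succ', hz, ih, Finset.sum_range_succ]
    ring

theorem z_comm (hz : ∀ g g' x, z (g * g') x = z g (g' • x) + z g' x) {t h : G}
    (hc : t * h = h * t) {y : X} (hy : t • y = y) : z t (h • y) = z t y := by
  have h1 := hz t h y
  have h2 := hz h t y
  rw [hy] at h2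
  rw [hc] at h1
  linarith

/-- The total sum of a cocycle over a finite set is additive. -/
theorem sum_mul [Fintype X] (hz : ∀ g g' x, z (g * g') x = z g (g' • x) + z g' x) (g g' : G) :
    ∑ x, z (g * g') x = ∑ x, z g x + ∑ x, z g' x := by
  rw [← Equiv.sum_comp (MulAction.toPerm g') (fun x => z g x), ← Finset.sum_add_distrib]
  exact Finset.sum_congr rfl fun x _ => hz g g' x

theorem sum_one [Fintype X] (hz : ∀ g g' x, z (g * g') x = z g (g' • x) + z g' x) :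
    ∑ x, z 1 x = 0 :=
  Finset.sum_eq_zero fun x _ => z_one hz x

theorem sum_pow [Fintype X] (hz : ∀ g g' x, z (g * g') x = z g (g' • x) + z g' x) (g : G)
    (m : ℕ) : ∑ x, z (g ^ m) x = m * ∑ x, z g x := by
  induction m with
  | zero => rw [pow_zero, sum_one hz]; simp
  | succ m ih =>
    rw [pow_succ, sum_mul hz, ih]
    push_cast
    ring

theorem sum_eq_zero_of_pow [Fintype X] (hz : ∀ g g' x, z (g * g') x = z g (g' • x) + z g' x)
    {g : G} {m : ℕ} (hm : m ≠ 0) (hg : g ^ m = 1) : ∑ x, z g x = 0 := by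
  have h := sum_pow hz g m
  rw [hg, sum_one hz] at h
  have hm' : (m : ℤ) ≠ 0 := by exact_mod_cast hm
  exact (mul_eq_zero.mp h.symm).resolve_left hm'

theorem sum_inv [Fintype X] (hz : ∀ g g' x, z (g * g') x = z g (g' • x) + z g' x) (g : G) :
    ∑ x, z g⁻¹ x = - ∑ x, z g x := by
  have h := sum_mul hz g g⁻¹
  rw [mul_inv_cancel, sum_one hz] at h
  linarith

end Abstract

/-! ### The coset space `SL(2, ℤ) ⧸ Γ₀(p)` -/

section Concrete

open ModularGroup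

variable (p : ℕ)

/-- Two cosets agree iff the first columns are proportional modulo `p`. -/
theorem mk_eq_mk_iff (A g : SL(2, ℤ)) :
    ((A : SL(2, ℤ)) : SL(2, ℤ) ⧸ Gamma0 p) = (g : SL(2, ℤ) ⧸ Gamma0 p) ↔
      (p : ℤ) ∣ A 0 0 * g 1 0 - A 1 0 * g 0 0 := by
  rw [QuotientGroup.eq, Gamma0_mem, ZMod.intCast_zmod_eq_zero_iff_dvd]
  have h : (A⁻¹ * g) 1 0 = A 0 0 * g 1 0 - A 1 0 * g 0 0 := by
    rw [Matrix.SpecialLinearGroup.coe_mul, Matrix.SpecialLinearGroup.coe_inv,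
      Matrix.adjugate_fin_two]
    simp [Matrix.mul_apply, Fin.sum_univ_two]
    ring
  rw [h]

theorem T_pow_mul_S_zero (j : ℕ) : ((T ^ j * S : SL(2, ℤ))) 0 0 = (j : ℤ) := by
  have h : ((T ^ j : SL(2, ℤ)) : Matrix (Fin 2) (Fin 2) ℤ) = !![1, (j : ℤ); 0, 1] := by
    have := ModularGroup.coe_T_zpow (j : ℤ)
    rw [zpow_natCast] at this
    exact this
  rw [Matrix.SpecialLinearGroup.coe_mul, h, coe_S]
  simp [Matrix.mul_apply, Fin.sum_univ_two]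

theorem T_pow_mul_S_one (j : ℕ) : ((T ^ j * S : SL(2, ℤ))) 1 0 = 1 := by
  have h : ((T ^ j : SL(2, ℤ)) : Matrix (Fin 2) (Fin 2) ℤ) = !![1, (j : ℤ); 0, 1] := by
    have := ModularGroup.coe_T_zpow (j : ℤ)
    rw [zpow_natCast] at this
    exact this
  rw [Matrix.SpecialLinearGroup.coe_mul, h, coe_S]
  simp [Matrix.mul_apply, Fin.sum_univ_two]

theorem T_zpow_mul_S_zero (k : ℤ) : ((T ^ k * S : SL(2, ℤ))) 0 0 = k := by
  rw [Matrix.SpecialLinearGroup.coe_mul, ModularGroup.coe_T_zpow, coe_S]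
  simp [Matrix.mul_apply, Fin.sum_univ_two]

theorem T_zpow_mul_S_one (k : ℤ) : ((T ^ k * S : SL(2, ℤ))) 1 0 = 1 := by
  rw [Matrix.SpecialLinearGroup.coe_mul, ModularGroup.coe_T_zpow, coe_S]
  simp [Matrix.mul_apply, Fin.sum_univ_two]

/-- The enumeration of the cosets: the base point and the points `T ^ j • S • x₀`. -/
def e : Option (Fin p) → SL(2, ℤ) ⧸ Gamma0 p
  | none => ((1 : SL(2, ℤ)) : SL(2, ℤ) ⧸ Gamma0 p)
  | some j => ((T ^ (j : ℕ) * S : SL(2, ℤ)) : SL(2, ℤ) ⧸ Gamma0 p)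

theorem e_none : e p none = ((1 : SL(2, ℤ)) : SL(2, ℤ) ⧸ Gamma0 p) := rfl

theorem e_some (j : Fin p) :
    e p (some j) = ((T ^ (j : ℕ) * S : SL(2, ℤ)) : SL(2, ℤ) ⧸ Gamma0 p) := rfl

theorem e_injective [Fact p.Prime] : Function.Injective (e p) := by
  have hp : p.Prime := Fact.out
  have h1 : ¬ (p : ℤ) ∣ 1 := by
    intro h
    have h' : p ∣ 1 := by exact_mod_cast h
    exact hp.one_lt.ne' (Nat.dvd_one.mp h')
  have hns : ∀ j : Fin p, e p none ≠ e p (some j) := by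
    intro j h
    rw [e_none, e_some, mk_eq_mk_iff, T_pow_mul_S_one] at h
    apply h1
    simpa using h
  rintro (_ | j) (_ | k) h
  · rfl
  · exact absurd h (hns k)
  · exact absurd h.symm (hns j)
  · rw [e_some, e_some, mk_eq_mk_iff, T_pow_mul_S_one, T_pow_mul_S_one, T_pow_mul_S_zero,
      T_pow_mul_S_zero] at h
    have h2 : ((j : ℕ) : ℤ) ≡ ((k : ℕ) : ℤ) [ZMOD (p : ℤ)] := by
      apply Int.ModEq.symm
      rw [Int.modEq_iff_dvd]
      simpa using h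
    have h3 : (j : ℕ) ≡ (k : ℕ) [MOD p] := (Int.natCast_modEq_iff).mp h2
    have h4 : (j : ℕ) = (k : ℕ) := Nat.ModEq.eq_of_lt_of_lt h3 j.isLt k.isLt
    exact congrArg some (Fin.ext h4)

theorem e_surjective [Fact p.Prime] : Function.Surjective (e p) := by
  have hp : p.Prime := Fact.out
  have : NeZero p := ⟨hp.ne_zero⟩
  intro x
  induction x using QuotientGroup.induction_on with
  | H g =>
    by_cases hc : (p : ℤ) ∣ g 1 0
    · refine ⟨none, ?_⟩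
      rw [e_none, mk_eq_mk_iff]
      simpa using hc
    · have hc' : ((g 1 0 : ℤ) : ZMod p) ≠ 0 := by
        rw [Ne, ZMod.intCast_zmod_eq_zero_iff_dvd]
        exact hc
      refine ⟨some ⟨(((g 0 0 : ℤ) : ZMod p) * ((g 1 0 : ℤ) : ZMod p)⁻¹).val, ZMod.val_lt _⟩, ?_⟩
      rw [e_some, mk_eq_mk_iff, T_pow_mul_S_one, T_pow_mul_S_zero,
        ← ZMod.intCast_zmod_eq_zero_iff_dvd]
      push_cast
      rw [ZMod.natCast_zmod_val, mul_assoc, inv_mul_cancel₀ hc']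
      ring

/-- The enumeration as an equivalence. -/
noncomputable def eEquiv [Fact p.Prime] : Option (Fin p) ≃ SL(2, ℤ) ⧸ Gamma0 p :=
  Equiv.ofBijective (e p) ⟨e_injective p, e_surjective p⟩

/-- Elements of `Γ₀(p)` fix the base point. -/
theorem smul_base {g : SL(2, ℤ)} (hg : g ∈ Gamma0 p) :
    g • ((1 : SL(2, ℤ)) : SL(2, ℤ) ⧸ Gamma0 p) = ((1 : SL(2, ℤ)) : SL(2, ℤ) ⧸ Gamma0 p) := by
  rw [MulAction.Quotient.smul_mk, smul_eq_mul, mul_one]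
  exact (QuotientGroup.eq.mpr (by simpa using hg)).symm

theorem T_mem : (T : SL(2, ℤ)) ∈ Gamma0 p := by
  rw [Gamma0_mem, coe_T]
  simp

theorem neg_one_smul (x : SL(2, ℤ) ⧸ Gamma0 p) : (-1 : SL(2, ℤ)) • x = x := by
  have h := Fermat.Agent.S21.sq_smul_eq (Fermat.Agent.S21.S_sq_mem_Gamma0 p)
    Fermat.Agent.S21.S_sq_central x
  rwa [Fermat.Agent.S21.S_sq_eq_neg_one] at h

theorem T_pow_smul_S (j : ℕ) :
    (T : SL(2, ℤ)) ^ j • ((S : SL(2, ℤ)) : SL(2, ℤ) ⧸ Gamma0 p) =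
      ((T ^ j * S : SL(2, ℤ)) : SL(2, ℤ) ⧸ Gamma0 p) := by
  rw [MulAction.Quotient.smul_mk, smul_eq_mul]

theorem T_zpow_smul_S (k : ℤ) :
    (T : SL(2, ℤ)) ^ k • ((S : SL(2, ℤ)) : SL(2, ℤ) ⧸ Gamma0 p) =
      ((T ^ k * S : SL(2, ℤ)) : SL(2, ℤ) ⧸ Gamma0 p) := by
  rw [MulAction.Quotient.smul_mk, smul_eq_mul]

/-- A power of `T` fixing `S • x₀` has exponent divisible by `p`. -/
theorem dvd_of_T_zpow_smul_S {k : ℤ}
    (h : (T : SL(2, ℤ)) ^ k • ((S : SL(2, ℤ)) : SL(2, ℤ) ⧸ Gamma0 p) =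
      ((S : SL(2, ℤ)) : SL(2, ℤ) ⧸ Gamma0 p)) : (p : ℤ) ∣ k := by
  rw [T_zpow_smul_S, mk_eq_mk_iff, T_zpow_mul_S_zero, T_zpow_mul_S_one, coe_S] at h
  simpa using h

theorem T_pow_p_smul_S :
    (T : SL(2, ℤ)) ^ p • ((S : SL(2, ℤ)) : SL(2, ℤ) ⧸ Gamma0 p) =
      ((S : SL(2, ℤ)) : SL(2, ℤ) ⧸ Gamma0 p) := by
  rw [T_pow_smul_S, mk_eq_mk_iff, T_pow_mul_S_zero, T_pow_mul_S_one, coe_S]
  simp

end Concrete

/-! ### Cocycles on `SL(2, ℤ) ⧸ Γ₀(p)` -/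

section Main

open ModularGroup

variable (p : ℕ) {z : SL(2, ℤ) → (SL(2, ℤ) ⧸ Gamma0 p) → ℤ}

theorem z_neg_one (hz : ∀ g g' x, z (g * g') x = z g (g' • x) + z g' x)
    (x : SL(2, ℤ) ⧸ Gamma0 p) : z (-1) x = 0 := by
  have h := hz (-1) (-1) x
  rw [neg_one_smul] at h
  have h1 : (-1 : SL(2, ℤ)) * (-1) = 1 := by simp
  rw [h1, z_one hz] at h
  linarith

theorem z_neg (hz : ∀ g g' x, z (g * g') x = z g (g' • x) + z g' x) (g : SL(2, ℤ))
    (x : SL(2, ℤ) ⧸ Gamma0 p) : z (-g) x = z g x := by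
  have h := hz (-1) g x
  rw [z_neg_one p hz] at h
  have h1 : (-1 : SL(2, ℤ)) * g = -g := by simp
  rw [h1] at h
  linarith

/-- The total sum of `z T` vanishes. -/
theorem sum_T [Fact p.Prime] (hz : ∀ g g' x, z (g * g') x = z g (g' • x) + z g' x) :
    ∑ o : Option (Fin p), z T (e p o) = 0 := by
  have : Fintype (SL(2, ℤ) ⧸ Gamma0 p) := Fintype.ofEquiv _ (eEquiv p)
  have hS : ∑ x, z S x = 0 := sum_eq_zero_of_pow hz (by norm_num) Fermat.Agent.S21.S_pow_four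
  have hST6 : (S * T : SL(2, ℤ)) ^ 6 = 1 := by
    have h : (S * T : SL(2, ℤ)) ^ 6 = ((S * T) ^ 3) ^ 2 := by rw [← pow_mul]
    rw [h, Fermat.Agent.S21.ST_cube_eq_neg_one]
    simp
  have hST : ∑ x, z (S * T) x = 0 := sum_eq_zero_of_pow hz (by norm_num) hST6
  have hT : ∑ x, z T x = 0 := by
    have h := sum_mul hz S⁻¹ (S * T)
    rw [Fermat.Agent.S21.S_inv_mul_ST, sum_inv hz, hS, hST] at h
    simpa using h
  rw [← hT]
  exact Equiv.sum_comp (eEquiv p) (fun x => z T x)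

/-- The value at `T ^ p` and `S • x₀` vanishes. -/
theorem z_T_pow_p [Fact p.Prime] (hz : ∀ g g' x, z (g * g') x = z g (g' • x) + z g' x)
    (hT : z T ((1 : SL(2, ℤ)) : SL(2, ℤ) ⧸ Gamma0 p) = 0) :
    z (T ^ p) ((S : SL(2, ℤ)) : SL(2, ℤ) ⧸ Gamma0 p) = 0 := by
  have h := sum_T p hz
  rw [Fintype.sum_option, e_none, hT, zero_add] at h
  rw [z_pow_sum hz, ← Fin.sum_univ_eq_sum_range (fun i => z T (T ^ i • ((S : SL(2, ℤ)) :
    SL(2, ℤ) ⧸ Gamma0 p))) p, ← h]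
  exact Finset.sum_congr rfl fun j _ => by rw [e_some, T_pow_smul_S]

/-- The cocycle vanishes on powers of `T` at their fixed points. -/
theorem z_T_zpow_fixed [Fact p.Prime] (hz : ∀ g g' x, z (g * g') x = z g (g' • x) + z g' x)
    (hT : z T ((1 : SL(2, ℤ)) : SL(2, ℤ) ⧸ Gamma0 p) = 0) (k : ℤ) (y : SL(2, ℤ) ⧸ Gamma0 p)
    (hy : (T : SL(2, ℤ)) ^ k • y = y) : z (T ^ k) y = 0 := by
  obtain ⟨o, rfl⟩ := e_surjective p y
  rcases o with _ | j
  · rw [e_none, z_zpow_fixed hz (smul_base p (T_mem p)), hT, mul_zero]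
  · rw [e_some, ← T_pow_smul_S] at hy ⊢
    have hcomm : ∀ m : ℤ, (T : SL(2, ℤ)) ^ m * T ^ (j : ℕ) = T ^ (j : ℕ) * T ^ m := by
      intro m
      rw [← zpow_natCast, ← zpow_add, ← zpow_add, add_comm]
    have hk : (T : SL(2, ℤ)) ^ k • ((S : SL(2, ℤ)) : SL(2, ℤ) ⧸ Gamma0 p) =
        ((S : SL(2, ℤ)) : SL(2, ℤ) ⧸ Gamma0 p) := by
      rw [← mul_smul, hcomm k, mul_smul] at hy
      exact smul_left_cancel _ hy
    obtain ⟨q, rfl⟩ := dvd_of_T_zpow_smul_S p hk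
    have hp' : (T : SL(2, ℤ)) ^ ((p : ℤ) * q) = (T ^ p) ^ q := by
      rw [zpow_mul, zpow_natCast]
    have hfix : (T : SL(2, ℤ)) ^ p • (T ^ (j : ℕ) • ((S : SL(2, ℤ)) : SL(2, ℤ) ⧸ Gamma0 p)) =
        T ^ (j : ℕ) • ((S : SL(2, ℤ)) : SL(2, ℤ) ⧸ Gamma0 p) := by
      have h := hcomm (p : ℤ)
      rw [zpow_natCast] at h
      rw [← mul_smul, h, mul_smul, T_pow_p_smul_S]
    have hcomm' : (T : SL(2, ℤ)) ^ p * T ^ (j : ℕ) = T ^ (j : ℕ) * T ^ p := by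
      have h := hcomm (p : ℤ)
      rwa [zpow_natCast] at h
    rw [hp', z_zpow_fixed hz hfix, z_comm hz hcomm' (T_pow_p_smul_S p), z_T_pow_p p hz hT,
      mul_zero]

end Main

end Par

/-- An integer valued cocycle on `SL(2, ℤ) ⧸ Γ₀(p)` whose value at `T` vanishes at the base
point vanishes at the base point on every element of `Γ₀(p)` with `tr² = 4`. -/
theorem parabolic_of_cocycle (p : ℕ) [Fact p.Prime]
    (z : SL(2, ℤ) → (SL(2, ℤ) ⧸ Gamma0 p) → ℤ)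
    (hz : ∀ g g' x, z (g * g') x = z g (g' • x) + z g' x)
    (hT : z ModularGroup.T ((1 : SL(2, ℤ)) : SL(2, ℤ) ⧸ Gamma0 p) = 0)
    (γ : ↥(Gamma0 p))
    (hγ : ((γ : SL(2, ℤ)) : Matrix (Fin 2) (Fin 2) ℤ).trace ^ 2 = 4) :
    z (γ : SL(2, ℤ)) ((1 : SL(2, ℤ)) : SL(2, ℤ) ⧸ Gamma0 p) = 0 := by
  obtain ⟨δ, k, hδ⟩ := Fermat.Agent.S21.exists_conj_T_zpow (γ : SL(2, ℤ)) hγ
  have hγfix := Par.smul_base p γ.2
  -- the conjugate of `T ^ k` fixes the base point and has the same value as `γ`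
  have key : z (γ : SL(2, ℤ)) ((1 : SL(2, ℤ)) : SL(2, ℤ) ⧸ Gamma0 p) =
      z (δ * ModularGroup.T ^ k * δ⁻¹) ((1 : SL(2, ℤ)) : SL(2, ℤ) ⧸ Gamma0 p) ∧
      (δ * ModularGroup.T ^ k * δ⁻¹) • ((1 : SL(2, ℤ)) : SL(2, ℤ) ⧸ Gamma0 p) =
        ((1 : SL(2, ℤ)) : SL(2, ℤ) ⧸ Gamma0 p) := by
    rcases hδ with h | h
    · rw [← h]
      exact ⟨rfl, hγfix⟩
    · have h' : δ * ModularGroup.T ^ k * δ⁻¹ = -(γ : SL(2, ℤ)) := by rw [h, neg_neg]
      rw [h', Par.z_neg p hz]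
      refine ⟨rfl, ?_⟩
      have h1 : -(γ : SL(2, ℤ)) = (-1) * (γ : SL(2, ℤ)) := by simp
      rw [h1, mul_smul, hγfix, Par.neg_one_smul]
  obtain ⟨hval, hfix⟩ := key
  rw [hval]
  have hy : (ModularGroup.T : SL(2, ℤ)) ^ k • (δ⁻¹ • ((1 : SL(2, ℤ)) : SL(2, ℤ) ⧸ Gamma0 p)) =
      δ⁻¹ • ((1 : SL(2, ℤ)) : SL(2, ℤ) ⧸ Gamma0 p) := by
    rw [mul_smul, mul_smul] at hfix
    rw [eq_inv_smul_iff]
    exact hfix
  have h0 := Par.z_T_zpow_fixed p hz hT k _ hy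
  have h1 := hz (δ * ModularGroup.T ^ k) δ⁻¹ ((1 : SL(2, ℤ)) : SL(2, ℤ) ⧸ Gamma0 p)
  have h2 := hz δ (ModularGroup.T ^ k) (δ⁻¹ • ((1 : SL(2, ℤ)) : SL(2, ℤ) ⧸ Gamma0 p))
  have h3 := Par.z_inv hz δ ((1 : SL(2, ℤ)) : SL(2, ℤ) ⧸ Gamma0 p)
  rw [hy] at h2
  rw [h1, h2, h3, h0]
  ring

end Fermat.Agent.S16.Lift
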