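import Mathlib

/-!
# S16, lower bound: `PSL(2, ℤ)` is the free product of `⟨S⟩` and `⟨S T⟩`
-/

set_option autoImplicit false

namespace Fermat.Agent.S16.Pres

open scoped MatrixGroups

namespace Hom

open ModularGroup UpperHalfPlane

/-! ### Cyclic groups -/

/-- The homomorphism from the cyclic group of order `n` sending the generator to `x`. -/
noncomputable def cyc {G : Type*} [Group G] (n : ℕ) (x : G) (hx : x ^ n = 1) :
    Multiplicative (ZMod n) →* G :=
  AddMonoidHom.toMultiplicativeLeft (ZMod.lift n
    ⟨zmultiplesHom (Additive G) (Additive.ofMul x), by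
      simp [← ofMul_pow, hx]⟩)

theorem cyc_natCast {G : Type*} [Group G] (n : ℕ) (x : G) (hx : x ^ n = 1) (m : ℕ) :
    cyc n x hx (Multiplicative.ofAdd ((m : ℕ) : ZMod n)) = x ^ m := by
  have h : ((m : ℕ) : ZMod n) = ((m : ℤ) : ZMod n) := by simp
  rw [h]
  change Additive.toMul (ZMod.lift n _ ((m : ℤ) : ZMod n)) = x ^ m
  rw [ZMod.lift_coe]
  simp

theorem cyc_one {G : Type*} [Group G] (n : ℕ) (x : G) (hx : x ^ n = 1) :
    cyc n x hx (Multiplicative.ofAdd (1 : ZMod n)) = x := by
  simpa using cyc_natCast n x hx 1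

theorem cyc_two {G : Type*} [Group G] (n : ℕ) (x : G) (hx : x ^ n = 1) :
    cyc n x hx (Multiplicative.ofAdd (2 : ZMod n)) = x ^ 2 := by
  simpa using cyc_natCast n x hx 2

theorem eq_of_ne_one_two (h : Multiplicative (ZMod 2)) (hh : h ≠ 1) :
    h = Multiplicative.ofAdd (1 : ZMod 2) := by
  revert h
  decide

theorem eq_of_ne_one_three (h : Multiplicative (ZMod 3)) (hh : h ≠ 1) :
    h = Multiplicative.ofAdd (1 : ZMod 3) ∨ h = Multiplicative.ofAdd (2 : ZMod 3) := by
  revert h
  decide

/-- The orders of the two free factors. -/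
def ord : Bool → ℕ := fun b => cond b 3 2

/-- The two free factors: cyclic groups of order two and three. -/
abbrev H (b : Bool) : Type := Multiplicative (ZMod (ord b))

/-- The generator of each free factor. -/
def gen (b : Bool) : H b := Multiplicative.ofAdd (1 : ZMod (ord b))

/-- The family of homomorphisms out of the free factors given by elements of the right orders. -/
noncomputable def fam {G : Type*} [Group G] (x : Bool → G) (hx : ∀ b, x b ^ ord b = 1) :
    ∀ b, H b →* G := fun b => cyc (ord b) (x b) (hx b)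

theorem fam_gen {G : Type*} [Group G] (x : Bool → G) (hx : ∀ b, x b ^ ord b = 1) (b : Bool) :
    fam x hx b (gen b) = x b :=
  cyc_one (ord b) (x b) (hx b)

theorem fam_false {G : Type*} [Group G] (x : Bool → G) (hx : ∀ b, x b ^ ord b = 1)
    (h : H false) (hh : h ≠ 1) : fam x hx false h = x false := by
  rw [eq_of_ne_one_two h hh]
  exact cyc_one 2 (x false) (hx false)

theorem fam_true {G : Type*} [Group G] (x : Bool → G) (hx : ∀ b, x b ^ ord b = 1)
    (h : H true) (hh : h ≠ 1) : fam x hx true h = x true ∨ fam x hx true h = x true ^ 2 := by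
  rcases eq_of_ne_one_three h hh with h1 | h1
  · left
    rw [h1]
    exact cyc_one 3 (x true) (hx true)
  · right
    rw [h1]
    exact cyc_two 3 (x true) (hx true)

/-! ### The modular group acting on the upper half plane -/

theorem S_sq : (S : SL(2, ℤ)) ^ 2 = -1 := by
  ext i j
  fin_cases i <;> fin_cases j <;>
    simp [pow_two, coe_S, Matrix.mul_apply, Fin.sum_univ_two]

theorem ST_cube : ((S * T : SL(2, ℤ))) ^ 3 = -1 := by
  ext i j
  fin_cases i <;> fin_cases j <;>
    simp [pow_succ, coe_S, coe_T, Matrix.mul_apply, Fin.sum_univ_two]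

theorem closure_S_ST : Subgroup.closure ({S, S * T} : Set SL(2, ℤ)) = ⊤ := by
  rw [eq_top_iff, ← SpecialLinearGroup.SL2Z_generators, Subgroup.closure_le]
  rintro g (rfl | rfl)
  · exact Subgroup.subset_closure (Set.mem_insert _ _)
  · have h1 : (S : SL(2, ℤ)) ∈ Subgroup.closure ({S, S * T} : Set SL(2, ℤ)) :=
      Subgroup.subset_closure (Set.mem_insert _ _)
    have h2 : (S * T : SL(2, ℤ)) ∈ Subgroup.closure ({S, S * T} : Set SL(2, ℤ)) :=
      Subgroup.subset_closure (Set.mem_insert_of_mem _ rfl)
    have h3 : (S : SL(2, ℤ))⁻¹ * (S * T) = T := inv_mul_cancel_left _ _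
    have h4 := Subgroup.mul_mem _ (Subgroup.inv_mem _ h1) h2
    rwa [h3] at h4

/-- The action of `SL(2, ℤ)` on the upper half plane, as a homomorphism to permutations. -/
noncomputable def act : SL(2, ℤ) →* Equiv.Perm ℍ := MulAction.toPermHom SL(2, ℤ) ℍ

theorem act_apply (g : SL(2, ℤ)) (z : ℍ) : act g z = g • z := rfl

theorem act_neg_one : act (-1) = 1 := by
  ext z
  simp [act_apply]

theorem act_S_sq : act S ^ 2 = 1 := by
  rw [← map_pow, S_sq, act_neg_one]

theorem act_ST_cube : act (S * T) ^ 3 = 1 := by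
  rw [← map_pow, ST_cube, act_neg_one]

theorem re_S_smul (z : ℍ) : (S • z).re = -z.re / Complex.normSq (z : ℂ) := by
  rw [modular_S_smul]
  change ((-(z : ℂ))⁻¹).re = _
  rw [Complex.inv_re, Complex.neg_re, Complex.normSq_neg]
  rfl

theorem re_ST_smul (z : ℍ) :
    ((S * T) • z).re = -(z.re + 1) / Complex.normSq ((T • z : ℍ) : ℂ) := by
  rw [mul_smul, re_S_smul, ModularGroup.re_T_smul]

theorem S_smul_re_pos {z : ℍ} (hz : z.re < 0) : 0 < (S • z).re := by
  rw [re_S_smul]
  have h : 0 < Complex.normSq (z : ℂ) := Complex.normSq_pos.mpr z.ne_zero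
  exact div_pos (by linarith) h

theorem ST_smul_re_neg {z : ℍ} (hz : -1 < z.re) : ((S * T) • z).re < 0 := by
  rw [re_ST_smul]
  have h : 0 < Complex.normSq ((T • z : ℍ) : ℂ) := Complex.normSq_pos.mpr (T • z).ne_zero
  exact div_neg_of_neg_of_pos (by linarith) h

theorem ST_smul_re_gt {z : ℍ} (hz : 0 < z.re) : -1 < ((S * T) • z).re := by
  rw [re_ST_smul]
  have h : 0 < Complex.normSq ((T • z : ℍ) : ℂ) := Complex.normSq_pos.mpr (T • z).ne_zero
  have h2 : z.re + 1 < Complex.normSq ((T • z : ℍ) : ℂ) := by
    rw [Complex.normSq_apply, UpperHalfPlane.coe_re, UpperHalfPlane.coe_im,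
      ModularGroup.re_T_smul, ModularGroup.im_T_smul]
    nlinarith [mul_pos z.im_pos z.im_pos]
  rw [neg_div, neg_lt_neg_iff, div_lt_one h]
  exact h2

/-! ### Ping-pong -/

/-- The images of `S` and `S * T` in the permutations of the upper half plane. -/
noncomputable def actGen : Bool → Equiv.Perm ℍ := fun b => act (cond b (S * T) S)

theorem actGen_pow : ∀ b, actGen b ^ ord b = 1
  | false => act_S_sq
  | true => act_ST_cube

/-- The ping-pong sets: the right and the left half of the upper half plane. -/
def X : Bool → Set ℍ := fun b => cond b {z | z.re < 0} {z | 0 < z.re}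

/-- The free product of the cyclic groups of order two and three acting on `ℍ`. -/
noncomputable def L : Monoid.CoprodI H →* Equiv.Perm ℍ :=
  Monoid.CoprodI.lift (fam actGen actGen_pow)

open scoped Pointwise in
theorem L_injective : Function.Injective L := by
  refine Monoid.CoprodI.lift_injective_of_ping_pong (fam actGen actGen_pow)
    (Or.inr ⟨true, ?_⟩) X ?_ ?_ ?_
  · change (3 : Cardinal) ≤ Cardinal.mk (Multiplicative (ZMod 3))
    rw [Cardinal.mk_fintype, Fintype.card_multiplicative, ZMod.card]
    exact le_refl _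
  · intro b
    cases b
    · exact ⟨UpperHalfPlane.mk (1 + Complex.I) (by simp), by simp [X]⟩
    · exact ⟨UpperHalfPlane.mk (-1 + Complex.I) (by simp), by simp [X]⟩
  · intro i j hij
    rw [Function.onFun, Set.disjoint_left]
    cases i <;> cases j
    · exact absurd rfl hij
    · intro z (h1 : 0 < z.re) (h2 : z.re < 0)
      exact lt_asymm h1 h2
    · intro z (h1 : z.re < 0) (h2 : 0 < z.re)
      exact lt_asymm h1 h2
    · exact absurd rfl hij
  · intro i j hij h hh
    cases i <;> cases j
    · exact absurd rfl hij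
    · rw [fam_false actGen actGen_pow h hh]
      rintro _ ⟨z, hz, rfl⟩
      exact S_smul_re_pos hz
    · rcases fam_true actGen actGen_pow h hh with h1 | h1
      · rw [h1]
        rintro _ ⟨z, hz, rfl⟩
        exact ST_smul_re_neg (lt_trans (by norm_num) hz)
      · rw [h1]
        rintro _ ⟨z, hz, rfl⟩
        have h2 : (actGen true ^ 2) • z = (S * T) • ((S * T) • z) := rfl
        change ((actGen true ^ 2) • z).re < 0
        rw [h2]
        exact ST_smul_re_neg (ST_smul_re_gt hz)
    · exact absurd rfl hij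

theorem L_of_gen (b : Bool) : L (Monoid.CoprodI.of (gen b)) = actGen b := by
  rw [L, Monoid.CoprodI.lift_of, fam_gen]

theorem act_mem_range (g : SL(2, ℤ)) : act g ∈ L.range := by
  have h : (⊤ : Subgroup SL(2, ℤ)) ≤ L.range.comap act := by
    rw [← closure_S_ST, Subgroup.closure_le]
    rintro g (rfl | rfl)
    · exact ⟨Monoid.CoprodI.of (gen false), L_of_gen false⟩
    · exact ⟨Monoid.CoprodI.of (gen true), L_of_gen true⟩
  exact h (Subgroup.mem_top g)

/-- The modular group maps onto the free product (this is `PSL(2, ℤ) ≃ C₂ * C₃`). -/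
noncomputable def w : SL(2, ℤ) →* Monoid.CoprodI H :=
  (MonoidHom.ofInjective L_injective).symm.toMonoidHom.comp
    (act.codRestrict L.range act_mem_range)

theorem L_w (g : SL(2, ℤ)) : L (w g) = act g :=
  MonoidHom.apply_ofInjective_symm L_injective ⟨act g, act_mem_range g⟩

theorem w_S : w S = Monoid.CoprodI.of (gen false) :=
  L_injective ((L_w S).trans (L_of_gen false).symm)

theorem w_ST : w (S * T) = Monoid.CoprodI.of (gen true) :=
  L_injective ((L_w (S * T)).trans (L_of_gen true).symm)

end Hom

/-- Homomorphisms out of `SL(2, ℤ)` killing `-1` are freely determined by an element of order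
dividing `2` (the image of `S`) and an element of order dividing `3` (the image of `S * T`). -/
theorem exists_hom_of_relations {K : Type*} [Group K] (s u : K) (hs : s ^ 2 = 1)
    (hu : u ^ 3 = 1) :
    ∃ φ : SL(2, ℤ) →* K, φ ModularGroup.S = s ∧ φ (ModularGroup.S * ModularGroup.T) = u := by
  have hx : ∀ b, (fun b => cond b u s : Bool → K) b ^ Hom.ord b = 1 := by
    intro b
    cases b
    · exact hs
    · exact hu
  refine ⟨(Monoid.CoprodI.lift (Hom.fam (fun b => cond b u s) hx)).comp Hom.w, ?_, ?_⟩
  · rw [MonoidHom.comp_apply, Hom.w_S, Monoid.CoprodI.lift_of, Hom.fam_gen]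
    rfl
  · rw [MonoidHom.comp_apply, Hom.w_ST, Monoid.CoprodI.lift_of, Hom.fam_gen]
    rfl

end Fermat.Agent.S16.Pres
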