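import Mathlib
import Fermat.Agent.S16.PresHom
import Fermat.Agent.S21.CohSL2

/-!
# S16, lower bound: cocycles of `SL(2, ℤ)` with prescribed values at `S` and `S * T`
-/

set_option autoImplicit false

namespace Fermat.Agent.S16.Pres

open scoped MatrixGroups

namespace Coc

variable {X : Type*} [MulAction SL(2, ℤ) X] {A : Type*} [AddCommGroup A]

/-- The affine self-map `v ↦ v (g • ·) + c` of the function space. -/
def aff (g : SL(2, ℤ)) (c : X → A) (v : X → A) : X → A := fun x => v (g • x) + c x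

theorem aff_apply (g : SL(2, ℤ)) (c v : X → A) (x : X) : aff g c v x = v (g • x) + c x := rfl

theorem S_smul_S_smul (hneg : ∀ x : X, (-1 : SL(2, ℤ)) • x = x) (x : X) :
    ModularGroup.S • ModularGroup.S • x = x := by
  rw [smul_smul, ← pow_two, Fermat.Agent.S21.S_sq_eq_neg_one, hneg]

theorem U_smul_U_smul_U_smul (hneg : ∀ x : X, (-1 : SL(2, ℤ)) • x = x) (x : X) :
    (ModularGroup.S * ModularGroup.T) • (ModularGroup.S * ModularGroup.T) •
      (ModularGroup.S * ModularGroup.T) • x = x := by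
  have h : (ModularGroup.S * ModularGroup.T) * (ModularGroup.S * ModularGroup.T) *
      (ModularGroup.S * ModularGroup.T) = (-1 : SL(2, ℤ)) := by
    rw [← Fermat.Agent.S21.ST_cube_eq_neg_one, pow_succ, pow_two]
  rw [smul_smul, smul_smul, h, hneg]

theorem aff_S_involutive (hneg : ∀ x : X, (-1 : SL(2, ℤ)) • x = x) (a : X → A)
    (ha : ∀ x, a (ModularGroup.S • x) + a x = 0) :
    Function.Involutive (aff ModularGroup.S a) := by
  intro v
  funext x
  rw [aff_apply, aff_apply, S_smul_S_smul hneg, add_assoc, ha, add_zero]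

theorem aff_U_cube (hneg : ∀ x : X, (-1 : SL(2, ℤ)) • x = x) (b : X → A)
    (hb : ∀ x, b x + b ((ModularGroup.S * ModularGroup.T) • x) +
      b ((ModularGroup.S * ModularGroup.T) • (ModularGroup.S * ModularGroup.T) • x) = 0)
    (v : X → A) :
    aff (ModularGroup.S * ModularGroup.T) b (aff (ModularGroup.S * ModularGroup.T) b
      (aff (ModularGroup.S * ModularGroup.T) b v)) = v := by
  funext x
  rw [aff_apply, aff_apply, aff_apply, U_smul_U_smul_U_smul hneg]
  have h := hb x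
  rw [add_assoc, add_assoc, add_comm (b _) (b x), add_comm (b _) (b x + _), h, add_zero]

/-- The permutation of the function space given by `S`. -/
def pS (hneg : ∀ x : X, (-1 : SL(2, ℤ)) • x = x) (a : X → A)
    (ha : ∀ x, a (ModularGroup.S • x) + a x = 0) : Equiv.Perm (X → A) :=
  Function.Involutive.toPerm _ (aff_S_involutive hneg a ha)

/-- The permutation of the function space given by `S * T`. -/
def pU (hneg : ∀ x : X, (-1 : SL(2, ℤ)) • x = x) (b : X → A)
    (hb : ∀ x, b x + b ((ModularGroup.S * ModularGroup.T) • x) +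
      b ((ModularGroup.S * ModularGroup.T) • (ModularGroup.S * ModularGroup.T) • x) = 0) :
    Equiv.Perm (X → A) where
  toFun := aff (ModularGroup.S * ModularGroup.T) b
  invFun := fun v => aff (ModularGroup.S * ModularGroup.T) b
    (aff (ModularGroup.S * ModularGroup.T) b v)
  left_inv := fun v => aff_U_cube hneg b hb v
  right_inv := fun v => aff_U_cube hneg b hb v

theorem pS_apply (hneg : ∀ x : X, (-1 : SL(2, ℤ)) • x = x) (a : X → A)
    (ha : ∀ x, a (ModularGroup.S • x) + a x = 0) (v : X → A) :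
    pS hneg a ha v = aff ModularGroup.S a v := rfl

theorem pU_apply (hneg : ∀ x : X, (-1 : SL(2, ℤ)) • x = x) (b : X → A)
    (hb : ∀ x, b x + b ((ModularGroup.S * ModularGroup.T) • x) +
      b ((ModularGroup.S * ModularGroup.T) • (ModularGroup.S * ModularGroup.T) • x) = 0)
    (v : X → A) :
    pU hneg b hb v = aff (ModularGroup.S * ModularGroup.T) b v := rfl

theorem pS_sq (hneg : ∀ x : X, (-1 : SL(2, ℤ)) • x = x) (a : X → A)
    (ha : ∀ x, a (ModularGroup.S • x) + a x = 0) : pS hneg a ha ^ 2 = 1 := by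
  ext1 v
  rw [pow_two, Equiv.Perm.mul_apply, Equiv.Perm.one_apply, pS_apply, pS_apply]
  exact aff_S_involutive hneg a ha v

theorem pS_inv (hneg : ∀ x : X, (-1 : SL(2, ℤ)) • x = x) (a : X → A)
    (ha : ∀ x, a (ModularGroup.S • x) + a x = 0) : (pS hneg a ha)⁻¹ = pS hneg a ha := by
  rw [inv_eq_iff_mul_eq_one, ← pow_two, pS_sq]

theorem pU_cube (hneg : ∀ x : X, (-1 : SL(2, ℤ)) • x = x) (b : X → A)
    (hb : ∀ x, b x + b ((ModularGroup.S * ModularGroup.T) • x) +
      b ((ModularGroup.S * ModularGroup.T) • (ModularGroup.S * ModularGroup.T) • x) = 0) :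
    pU hneg b hb ^ 3 = 1 := by
  ext1 v
  rw [pow_succ, pow_two, Equiv.Perm.mul_apply, Equiv.Perm.mul_apply, Equiv.Perm.one_apply,
    pU_apply, pU_apply, pU_apply]
  exact aff_U_cube hneg b hb v

theorem pU_inv_cube (hneg : ∀ x : X, (-1 : SL(2, ℤ)) • x = x) (b : X → A)
    (hb : ∀ x, b x + b ((ModularGroup.S * ModularGroup.T) • x) +
      b ((ModularGroup.S * ModularGroup.T) • (ModularGroup.S * ModularGroup.T) • x) = 0) :
    (pU hneg b hb)⁻¹ ^ 3 = 1 := by
  rw [inv_pow, pU_cube, inv_one]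

/-- Every value of the anti-homomorphism `g ↦ Φ g⁻¹` is an affine map over `g`. -/
theorem exists_const (Φ : SL(2, ℤ) →* Equiv.Perm (X → A)) (a b : X → A)
    (hS : ∀ v, Φ ModularGroup.S⁻¹ v = aff ModularGroup.S a v)
    (hU : ∀ v, Φ (ModularGroup.S * ModularGroup.T)⁻¹ v =
      aff (ModularGroup.S * ModularGroup.T) b v) (g : SL(2, ℤ)) :
    ∃ c : X → A, ∀ v : X → A, Φ g⁻¹ v = aff g c v := by
  have hg : g ∈ Subgroup.closure
      ({ModularGroup.S, ModularGroup.S * ModularGroup.T} : Set SL(2, ℤ)) := by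
    rw [Fermat.Agent.S21.closure_S_ST]
    exact Subgroup.mem_top g
  induction hg using Subgroup.closure_induction with
  | mem g hg =>
    rcases hg with rfl | rfl
    · exact ⟨a, hS⟩
    · exact ⟨b, hU⟩
  | one =>
    refine ⟨0, fun v => ?_⟩
    funext x
    rw [inv_one, map_one, Equiv.Perm.one_apply, aff_apply, one_smul, Pi.zero_apply, add_zero]
  | mul g g' _ _ ih ih' =>
    obtain ⟨c, hc⟩ := ih
    obtain ⟨c', hc'⟩ := ih'
    refine ⟨fun x => c (g' • x) + c' x, fun v => ?_⟩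
    funext x
    rw [mul_inv_rev, map_mul, Equiv.Perm.mul_apply, hc, hc', aff_apply, aff_apply, aff_apply,
      mul_smul, add_assoc]
  | inv g _ ih =>
    obtain ⟨c, hc⟩ := ih
    refine ⟨fun x => - c (g⁻¹ • x), fun w => ?_⟩
    have h : Φ g⁻¹ (fun x => w (g⁻¹ • x) - c (g⁻¹ • x)) = w := by
      rw [hc]
      funext x
      rw [aff_apply, inv_smul_smul, sub_add_cancel]
    rw [inv_inv]
    have h2 : Φ g (Φ g⁻¹ (fun x => w (g⁻¹ • x) - c (g⁻¹ • x))) =
        (fun x => w (g⁻¹ • x) - c (g⁻¹ • x)) := by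
      rw [← Equiv.Perm.mul_apply, ← map_mul, mul_inv_cancel, map_one, Equiv.Perm.one_apply]
    rw [h] at h2
    rw [h2]
    funext x
    rw [aff_apply, sub_eq_add_neg]

end Coc

theorem exists_cocycle {X : Type*} [MulAction SL(2, ℤ) X] {A : Type*} [AddCommGroup A]
    (hneg : ∀ x : X, (-1 : SL(2, ℤ)) • x = x) (a b : X → A)
    (ha : ∀ x, a (ModularGroup.S • x) + a x = 0)
    (hb : ∀ x, b x + b ((ModularGroup.S * ModularGroup.T) • x) +
      b ((ModularGroup.S * ModularGroup.T) • (ModularGroup.S * ModularGroup.T) • x) = 0) :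
    ∃ z : SL(2, ℤ) → X → A, (∀ g g' x, z (g * g') x = z g (g' • x) + z g' x) ∧
      z ModularGroup.S = a ∧ z (ModularGroup.S * ModularGroup.T) = b := by
  obtain ⟨Φ, hΦS, hΦU⟩ := exists_hom_of_relations (Coc.pS hneg a ha) (Coc.pU hneg b hb)⁻¹
    (Coc.pS_sq hneg a ha) (Coc.pU_inv_cube hneg b hb)
  have hS : ∀ v, Φ ModularGroup.S⁻¹ v = Coc.aff ModularGroup.S a v := by
    intro v
    rw [map_inv, hΦS, Coc.pS_inv, Coc.pS_apply]
  have hU : ∀ v, Φ (ModularGroup.S * ModularGroup.T)⁻¹ v =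
      Coc.aff (ModularGroup.S * ModularGroup.T) b v := by
    intro v
    rw [map_inv, hΦU, inv_inv, Coc.pU_apply]
  have key : ∀ (g : SL(2, ℤ)) (v : X → A) (x : X),
      Φ g⁻¹ v x = v (g • x) + Φ g⁻¹ 0 x := by
    intro g v x
    obtain ⟨c, hc⟩ := Coc.exists_const Φ a b hS hU g
    rw [hc v, hc 0, Coc.aff_apply, Coc.aff_apply, Pi.zero_apply, zero_add]
  refine ⟨fun g => Φ g⁻¹ 0, ?_, ?_, ?_⟩
  · intro g g' x
    show Φ (g * g')⁻¹ 0 x = Φ g⁻¹ 0 (g' • x) + Φ g'⁻¹ 0 x
    rw [mul_inv_rev, map_mul, Equiv.Perm.mul_apply, key g' (Φ g⁻¹ 0) x]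
  · funext x
    show Φ ModularGroup.S⁻¹ 0 x = a x
    rw [hS, Coc.aff_apply, Pi.zero_apply, zero_add]
  · funext x
    show Φ (ModularGroup.S * ModularGroup.T)⁻¹ 0 x = b x
    rw [hU, Coc.aff_apply, Pi.zero_apply, zero_add]

end Fermat.Agent.S16.Pres
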