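import Mathlib
import Fermat.Agent.S16.Pres
import Fermat.Agent.S16.LiftPar
import Fermat.Prelude.Def_ModularCurve_PeriodMap
import Fermat.Agent.S21.CohSL2

/-!
# S16, lower bound: characters of `Γ₀(p)` modulo `n` killing parabolic and torsion elements lift
to integral parabolic characters
-/

set_option autoImplicit false

namespace Fermat.Agent.S16.Lift

open CongruenceSubgroup ModularCurve.Period
open scoped MatrixGroups

namespace AsmB

/-! ### Orbitwise lifting -/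

/-- A section of the reduction map `ℤ → ZMod n`. -/
noncomputable def lift (n : ℕ) : ZMod n → ℤ :=
  Function.surjInv (ZMod.intCast_surjective (n := n))

theorem lift_spec (n : ℕ) (c : ZMod n) : ((lift n c : ℤ) : ZMod n) = c :=
  Function.surjInv_eq (ZMod.intCast_surjective (n := n)) c

/-- Lifting of an anti-invariant function under an involution. -/
theorem exists_lift_two {X : Type*} (n : ℕ) (τ : X → X) (hτ : ∀ x, τ (τ x) = x)
    (a' : X → ZMod n) (ha : ∀ x, a' (τ x) + a' x = 0) (hfix : ∀ x, τ x = x → a' x = 0) :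
    ∃ a : X → ℤ, (∀ x, ((a x : ℤ) : ZMod n) = a' x) ∧ ∀ x, a (τ x) + a x = 0 := by
  classical
  let _ : LinearOrder X := IsWellOrder.linearOrder WellOrderingRel
  refine ⟨fun x => if x < τ x then lift n (a' x) else if τ x < x then - lift n (a' (τ x)) else 0,
    fun x => ?_, fun x => ?_⟩
  · rcases lt_trichotomy x (τ x) with h | h | h
    · simp only [if_pos h, lift_spec]
    · have h0 := hfix x h.symm
      simp only [← h, lt_irrefl, if_false, Int.cast_zero, h0]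
    · have h0 := ha x
      simp only [if_neg (lt_asymm h), if_pos h, Int.cast_neg, lift_spec]
      exact (eq_neg_of_add_eq_zero_right h0).symm
  · simp only [hτ]
    rcases lt_trichotomy x (τ x) with h | h | h
    · simp only [if_pos h, if_neg (lt_asymm h)]
      ring
    · simp only [← h, lt_irrefl, if_false, add_zero]
    · simp only [if_pos h, if_neg (lt_asymm h)]
      ring

/-- Lifting of a function whose sums over the orbits of a map of order three vanish. -/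
theorem exists_lift_three {X : Type*} (n : ℕ) (υ : X → X) (hυ : ∀ x, υ (υ (υ x)) = x)
    (b' : X → ZMod n) (hb : ∀ x, b' x + b' (υ x) + b' (υ (υ x)) = 0)
    (hfix : ∀ x, υ x = x → b' x = 0) :
    ∃ b : X → ℤ, (∀ x, ((b x : ℤ) : ZMod n) = b' x) ∧ ∀ x, b x + b (υ x) + b (υ (υ x)) = 0 := by
  classical
  let _ : LinearOrder X := IsWellOrder.linearOrder WellOrderingRel
  refine ⟨fun x => if υ x = x then 0 else
      if x < υ x ∧ x < υ (υ x) then - lift n (b' (υ x)) - lift n (b' (υ (υ x)))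
      else lift n (b' x), fun x => ?_, fun x => ?_⟩
  · by_cases h : υ x = x
    · simp only [if_pos h, Int.cast_zero, hfix x h]
    · by_cases h2 : x < υ x ∧ x < υ (υ x)
      · simp only [if_neg h, if_pos h2, Int.cast_sub, Int.cast_neg, lift_spec]
        have h0 := hb x
        linear_combination -h0
      · simp only [if_neg h, if_neg h2, lift_spec]
  · simp only [hυ]
    by_cases h : υ x = x
    · simp only [h, if_true, add_zero]
    · have h1 : υ (υ x) ≠ υ x := by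
        intro h'
        apply h
        have := hυ x
        rw [h', h'] at this
        exact this
      have h2 : x ≠ υ (υ x) := by
        intro h'
        apply h
        have := hυ x
        rw [← h'] at this
        exact this
      simp only [if_neg h, if_neg h1, if_neg h2]
      rcases lt_trichotomy x (υ x) with h3 | h3 | h3
      · rcases lt_trichotomy x (υ (υ x)) with h4 | h4 | h4
        · rw [if_pos ⟨h3, h4⟩, if_neg (fun h' => lt_asymm h3 h'.2),
            if_neg (fun h' => lt_asymm h4 h'.1)]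
          ring
        · exact absurd h4 h2
        · rw [if_neg (fun h' => lt_asymm h4 h'.2), if_neg (fun h' => lt_asymm h3 h'.2),
            if_pos ⟨h4, lt_trans h4 h3⟩]
          ring
      · exact absurd h3.symm h
      · rcases lt_trichotomy (υ x) (υ (υ x)) with h4 | h4 | h4
        · rw [if_neg (fun h' => lt_asymm h3 h'.1), if_pos ⟨h4, h3⟩,
            if_neg (fun h' => lt_asymm h4 h'.2)]
          ring
        · exact absurd h4.symm h1
        · rw [if_neg (fun h' => lt_asymm h3 h'.1), if_neg (fun h' => lt_asymm h4 h'.1),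
            if_pos ⟨lt_trans h4 h3, h4⟩]
          ring

/-! ### The Shapiro cocycle with general coefficients -/

section Shapiro

variable {G : Type*} [Group G] (Γ : Subgroup G) {A : Type*} [AddCommGroup A]

/-- The Shapiro cocycle of an additive character of `Γ` with values in `A`. -/
noncomputable def sh (φ : Additive Γ →+ A) (g : G) (x : G ⧸ Γ) : A :=
  φ (Additive.ofMul ⟨(Quotient.out (g • x))⁻¹ * g * Quotient.out x,
    Fermat.Agent.S21.shapiro_mem Γ g x⟩)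

theorem sh_mul (φ : Additive Γ →+ A) (g g' : G) (x : G ⧸ Γ) :
    sh Γ φ (g * g') x = sh Γ φ g (g' • x) + sh Γ φ g' x := by
  unfold sh
  rw [← map_add, ← ofMul_mul]
  congr 2
  apply Subtype.ext
  simp only [Subgroup.coe_mul, mul_smul]
  group

theorem fixed_mem {g : G} {x : G ⧸ Γ} (hx : g • x = x) :
    (Quotient.out x)⁻¹ * g * Quotient.out x ∈ Γ := by
  have h := Fermat.Agent.S21.shapiro_mem Γ g x
  rwa [hx] at h

theorem sh_fixed (φ : Additive Γ →+ A) {g : G} {x : G ⧸ Γ} (hx : g • x = x) :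
    sh Γ φ g x =
      φ (Additive.ofMul ⟨(Quotient.out x)⁻¹ * g * Quotient.out x, fixed_mem Γ hx⟩) := by
  unfold sh
  congr 2
  apply Subtype.ext
  simp only [hx]

/-- The Shapiro cocycle of a character killing `k`-torsion vanishes on `k`-torsion elements at
their fixed points. -/
theorem sh_eq_zero_of_pow (φ : Additive Γ →+ A) {k : ℕ}
    (hφ : ∀ γ : Γ, γ ^ k = 1 → φ (Additive.ofMul γ) = 0) {g : G} {x : G ⧸ Γ}
    (hx : g • x = x) (hg : g ^ k = 1) : sh Γ φ g x = 0 := by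
  rw [sh_fixed Γ φ hx]
  apply hφ
  apply Subtype.ext
  rw [Subgroup.coe_pow, Subgroup.coe_one]
  show ((Quotient.out x)⁻¹ * g * Quotient.out x) ^ k = 1
  have h : (Quotient.out x)⁻¹ * g * Quotient.out x =
      (Quotient.out x)⁻¹ * g * (Quotient.out x)⁻¹⁻¹ := by rw [inv_inv]
  rw [h, conj_pow, hg, mul_one, mul_inv_cancel]

theorem base_fixed (γ : Γ) : (γ : G) • ((1 : G) : G ⧸ Γ) = ((1 : G) : G ⧸ Γ) := by
  rw [MulAction.Quotient.smul_mk, smul_eq_mul, mul_one]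
  exact QuotientGroup.eq.mpr (by simp)

/-- The character is recovered from its Shapiro cocycle at the base point. -/
theorem sh_base (φ : Additive Γ →+ A) (γ : Γ) :
    sh Γ φ (γ : G) ((1 : G) : G ⧸ Γ) = φ (Additive.ofMul γ) := by
  have hout : (Quotient.out (((1 : G) : G ⧸ Γ))) ∈ Γ := by
    have h := QuotientGroup.out_eq' (((1 : G) : G ⧸ Γ))
    have h2 := QuotientGroup.eq.mp h
    simpa using h2
  rw [sh_fixed Γ φ (base_fixed Γ γ)]
  have hel : (⟨(Quotient.out (((1 : G) : G ⧸ Γ)))⁻¹ * (γ : G) *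
      Quotient.out (((1 : G) : G ⧸ Γ)), fixed_mem Γ (base_fixed Γ γ)⟩ : Γ) =
      (⟨_, hout⟩ : Γ)⁻¹ * γ * ⟨_, hout⟩ := by
    apply Subtype.ext
    simp only [Subgroup.coe_mul, Subgroup.coe_inv]
  rw [hel, ofMul_mul, ofMul_mul, map_add, map_add, ofMul_inv, map_neg]
  abel

end Shapiro

/-! ### Formal properties of cocycles -/

section Cocycle

variable {G X : Type*} [Group G] [MulAction G X] {A : Type*} [AddCommGroup A]

theorem coc_one {w : G → X → A} (hw : ∀ g g' x, w (g * g') x = w g (g' • x) + w g' x)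
    (x : X) : w 1 x = 0 := by
  have h := hw 1 1 x
  rw [mul_one, one_smul] at h
  simpa using h

theorem coc_inv {w : G → X → A} (hw : ∀ g g' x, w (g * g') x = w g (g' • x) + w g' x)
    (g : G) (x : X) : w g⁻¹ x = - w g (g⁻¹ • x) := by
  have h := hw g g⁻¹ x
  rw [mul_inv_cancel, coc_one hw] at h
  exact eq_neg_of_add_eq_zero_right h.symm

/-- Two cocycles agreeing on a generating set are equal. -/
theorem coc_ext {S : Set G} (hS : Subgroup.closure S = ⊤) {w w' : G → X → A}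
    (hw : ∀ g g' x, w (g * g') x = w g (g' • x) + w g' x)
    (hw' : ∀ g g' x, w' (g * g') x = w' g (g' • x) + w' g' x)
    (h : ∀ g ∈ S, ∀ x, w g x = w' g x) (g : G) (x : X) : w g x = w' g x := by
  have hg : g ∈ Subgroup.closure S := hS ▸ Subgroup.mem_top g
  induction hg using Subgroup.closure_induction generalizing x with
  | mem g hg => exact h g hg x
  | one => rw [coc_one hw, coc_one hw']
  | mul g g' _ _ ihg ihg' => rw [hw, hw', ihg, ihg']
  | inv g _ ih => rw [coc_inv hw, coc_inv hw', ih]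

end Cocycle

/-! ### The modular group acting on `SL(2, ℤ) ⧸ Γ₀(p)` -/

section Main

open ModularGroup

theorem S_pow_twelve : (S : SL(2, ℤ)) ^ 12 = 1 := by
  have h : (S : SL(2, ℤ)) ^ 12 = (S ^ 4) ^ 3 := by rw [← pow_mul]
  rw [h, Fermat.Agent.S21.S_pow_four, one_pow]

theorem neg_one_pow_twelve : (-1 : SL(2, ℤ)) ^ 12 = 1 := by
  have h : (S : SL(2, ℤ)) ^ (2 * 12) = (S ^ 4) ^ 6 := by rw [← pow_mul]
  rw [← Fermat.Agent.S21.S_sq_eq_neg_one, ← pow_mul, h, Fermat.Agent.S21.S_pow_four, one_pow]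

theorem U_pow_twelve : (S * T : SL(2, ℤ)) ^ 12 = 1 := by
  have h : (S * T : SL(2, ℤ)) ^ 12 = ((S * T) ^ 3) ^ 4 := by rw [← pow_mul]
  have h' : (S : SL(2, ℤ)) ^ (2 * 4) = (S ^ 4) ^ 2 := by rw [← pow_mul]
  rw [h, Fermat.Agent.S21.ST_cube_eq_neg_one, ← Fermat.Agent.S21.S_sq_eq_neg_one, ← pow_mul, h',
    Fermat.Agent.S21.S_pow_four, one_pow]

theorem U_cube' : (S * T : SL(2, ℤ)) * ((S * T) * (S * T)) = -1 := by
  rw [← Fermat.Agent.S21.ST_cube_eq_neg_one, pow_succ', pow_two]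

theorem U_cube'' : (S * T : SL(2, ℤ)) * (S * T) * (S * T) = -1 := by
  rw [← Fermat.Agent.S21.ST_cube_eq_neg_one, pow_succ, pow_two]

variable (p : ℕ)

theorem S_smul_S_smul (x : SL(2, ℤ) ⧸ Gamma0 p) : (S : SL(2, ℤ)) • (S : SL(2, ℤ)) • x = x := by
  rw [← mul_smul, ← pow_two, Fermat.Agent.S21.S_sq_eq_neg_one, Par.neg_one_smul]

theorem U_smul_U_smul_U_smul (x : SL(2, ℤ) ⧸ Gamma0 p) :
    (S * T : SL(2, ℤ)) • (S * T : SL(2, ℤ)) • (S * T : SL(2, ℤ)) • x = x := by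
  rw [← mul_smul, ← mul_smul, U_cube'', Par.neg_one_smul]

theorem S_smul_base_ne [Fact p.Prime] :
    (S : SL(2, ℤ)) • ((1 : SL(2, ℤ)) : SL(2, ℤ) ⧸ Gamma0 p) ≠
      ((1 : SL(2, ℤ)) : SL(2, ℤ) ⧸ Gamma0 p) := by
  intro h
  have hp : p.Prime := Fact.out
  rw [MulAction.Quotient.smul_mk, smul_eq_mul, mul_one, Par.mk_eq_mk_iff, coe_S] at h
  have h' : (p : ℤ) ∣ 1 := by simpa using h
  have h'' : p ∣ 1 := by exact_mod_cast h'
  exact hp.one_lt.ne' (Nat.dvd_one.mp h'')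

variable {p} {n : ℕ} (σ : Additive ↥(Gamma0 p) →+ ZMod n)
  (htor : ∀ γ : ↥(Gamma0 p), γ ^ 12 = 1 → σ (Additive.ofMul γ) = 0)

include htor

theorem sh_neg_one (x : SL(2, ℤ) ⧸ Gamma0 p) : sh (Gamma0 p) σ (-1) x = 0 :=
  sh_eq_zero_of_pow (Gamma0 p) σ htor (Par.neg_one_smul p x) neg_one_pow_twelve

theorem sh_S_rel (x : SL(2, ℤ) ⧸ Gamma0 p) :
    sh (Gamma0 p) σ S (S • x) + sh (Gamma0 p) σ S x = 0 := by
  rw [← sh_mul, ← pow_two, Fermat.Agent.S21.S_sq_eq_neg_one, sh_neg_one σ htor]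

theorem sh_U_rel (x : SL(2, ℤ) ⧸ Gamma0 p) :
    sh (Gamma0 p) σ (S * T) x + sh (Gamma0 p) σ (S * T) ((S * T) • x) +
      sh (Gamma0 p) σ (S * T) ((S * T) • (S * T) • x) = 0 := by
  have h1 := sh_mul (Gamma0 p) σ (S * T) ((S * T) * (S * T)) x
  have h2 := sh_mul (Gamma0 p) σ (S * T) (S * T) x
  rw [U_cube', sh_neg_one σ htor, mul_smul, h2] at h1
  linear_combination -h1

omit htor

/-- The correction cocycle: an integral cocycle with value `-1` at `T` and the base point. -/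
theorem exists_correction (p : ℕ) [Fact p.Prime] :
    ∃ z' : SL(2, ℤ) → (SL(2, ℤ) ⧸ Gamma0 p) → ℤ,
      (∀ g g' x, z' (g * g') x = z' g (g' • x) + z' g' x) ∧
      z' T ((1 : SL(2, ℤ)) : SL(2, ℤ) ⧸ Gamma0 p) = -1 := by
  classical
  have hS0 := S_smul_base_ne p
  have hSS := S_smul_S_smul p
  obtain ⟨x₀, hx₀⟩ : ∃ x₀ : SL(2, ℤ) ⧸ Gamma0 p, x₀ = ((1 : SL(2, ℤ)) : SL(2, ℤ) ⧸ Gamma0 p) :=
    ⟨_, rfl⟩
  rw [← hx₀] at hS0 ⊢
  have ha' : ∀ x, (fun y : SL(2, ℤ) ⧸ Gamma0 p =>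
      if y = x₀ then (1 : ℤ) else if y = (S : SL(2, ℤ)) • x₀ then -1 else 0) ((S : SL(2, ℤ)) • x) +
      (fun y : SL(2, ℤ) ⧸ Gamma0 p =>
      if y = x₀ then (1 : ℤ) else if y = (S : SL(2, ℤ)) • x₀ then -1 else 0) x = 0 := by
    intro x
    show (if (S : SL(2, ℤ)) • x = x₀ then (1 : ℤ) else
        if (S : SL(2, ℤ)) • x = (S : SL(2, ℤ)) • x₀ then -1 else 0) +
      (if x = x₀ then (1 : ℤ) else if x = (S : SL(2, ℤ)) • x₀ then -1 else 0) = 0
    by_cases h1 : x = x₀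
    · rw [h1, if_neg hS0, if_pos rfl, if_pos rfl]
      norm_num
    · by_cases h2 : x = (S : SL(2, ℤ)) • x₀
      · rw [h2, hSS, if_pos rfl, if_neg hS0, if_pos rfl]
        norm_num
      · have h3 : (S : SL(2, ℤ)) • x ≠ x₀ := by
          intro h
          apply h2
          rw [← h, hSS]
        have h4 : (S : SL(2, ℤ)) • x ≠ (S : SL(2, ℤ)) • x₀ := by
          intro h
          exact h1 (smul_left_cancel _ h)
        rw [if_neg h3, if_neg h4, if_neg h1, if_neg h2]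
        norm_num
  obtain ⟨z', hz', hz'S, hz'U⟩ := Fermat.Agent.S16.Pres.exists_cocycle (Par.neg_one_smul p)
    (fun y : SL(2, ℤ) ⧸ Gamma0 p =>
      if y = x₀ then (1 : ℤ) else if y = (S : SL(2, ℤ)) • x₀ then -1 else 0)
    (fun _ => (0 : ℤ)) ha' (by intro x; simp)
  refine ⟨z', hz', ?_⟩
  have h1 := hz' S⁻¹ (S * T) x₀
  rw [Fermat.Agent.S21.S_inv_mul_ST, hz'U, coc_inv hz', hz'S, ← mul_smul,
    Fermat.Agent.S21.S_inv_mul_ST] at h1
  have hT : (T : SL(2, ℤ)) • x₀ = x₀ := by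
    rw [hx₀]
    exact Par.smul_base p (Par.T_mem p)
  rw [h1, hT]
  simp

end Main

end AsmB

theorem exists_parabolic_lift (p : ℕ) [Fact p.Prime] (n : ℕ)
    (σ : Additive ↥(Gamma0 p) →+ ZMod n)
    (hpar : ∀ γ : ↥(Gamma0 p),
      ((γ : SL(2, ℤ)) : Matrix (Fin 2) (Fin 2) ℤ).trace ^ 2 = 4 → σ (Additive.ofMul γ) = 0)
    (htor : ∀ γ : ↥(Gamma0 p), γ ^ 12 = 1 → σ (Additive.ofMul γ) = 0) :
    ∃ ψ : Additive ↥(Gamma0 p) →+ ℤ, IsParabolicHom (Gamma0 p) ψ ∧
      ∀ γ : ↥(Gamma0 p), ((ψ (Additive.ofMul γ) : ℤ) : ZMod n) = σ (Additive.ofMul γ) := by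
  -- integral lifts of the values of the Shapiro cocycle at `S` and `S * T`
  obtain ⟨a, ha1, ha2⟩ := AsmB.exists_lift_two n
    (fun x : SL(2, ℤ) ⧸ Gamma0 p => (ModularGroup.S : SL(2, ℤ)) • x)
    (AsmB.S_smul_S_smul p) (AsmB.sh (Gamma0 p) σ ModularGroup.S) (AsmB.sh_S_rel σ htor)
    (fun x hx => AsmB.sh_eq_zero_of_pow (Gamma0 p) σ htor hx AsmB.S_pow_twelve)
  obtain ⟨b, hb1, hb2⟩ := AsmB.exists_lift_three n
    (fun x : SL(2, ℤ) ⧸ Gamma0 p => (ModularGroup.S * ModularGroup.T : SL(2, ℤ)) • x)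
    (AsmB.U_smul_U_smul_U_smul p) (AsmB.sh (Gamma0 p) σ (ModularGroup.S * ModularGroup.T))
    (AsmB.sh_U_rel σ htor)
    (fun x hx => AsmB.sh_eq_zero_of_pow (Gamma0 p) σ htor hx AsmB.U_pow_twelve)
  -- the integral cocycle with these values
  obtain ⟨z, hz, hzS, hzU⟩ :=
    Fermat.Agent.S16.Pres.exists_cocycle (Par.neg_one_smul p) a b ha2 hb2
  have hcmp : ∀ g x, ((z g x : ℤ) : ZMod n) = AsmB.sh (Gamma0 p) σ g x := by
    refine AsmB.coc_ext Fermat.Agent.S21.closure_S_ST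
      (w := fun g x => ((z g x : ℤ) : ZMod n)) (w' := AsmB.sh (Gamma0 p) σ) ?_
      (AsmB.sh_mul (Gamma0 p) σ) ?_
    · intro g g' x
      show ((z (g * g') x : ℤ) : ZMod n) = ((z g (g' • x) : ℤ) : ZMod n) + ((z g' x : ℤ) : ZMod n)
      rw [hz, Int.cast_add]
    · rintro g (rfl | rfl) x
      · show ((z ModularGroup.S x : ℤ) : ZMod n) = _
        rw [hzS, ha1]
      · show ((z (ModularGroup.S * ModularGroup.T) x : ℤ) : ZMod n) = _
        rw [hzU, hb1]
  -- the correction cocycle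
  obtain ⟨z', hz', hz'T⟩ := AsmB.exists_correction p
  have hw : ∀ (g g' : SL(2, ℤ)) (x : SL(2, ℤ) ⧸ Gamma0 p),
      z (g * g') x + z ModularGroup.T ((1 : SL(2, ℤ)) : SL(2, ℤ) ⧸ Gamma0 p) * z' (g * g') x =
      (z g (g' • x) + z ModularGroup.T ((1 : SL(2, ℤ)) : SL(2, ℤ) ⧸ Gamma0 p) * z' g (g' • x)) +
      (z g' x + z ModularGroup.T ((1 : SL(2, ℤ)) : SL(2, ℤ) ⧸ Gamma0 p) * z' g' x) := by
    intro g g' x
    rw [hz, hz']
    ring
  have hwT : z ModularGroup.T ((1 : SL(2, ℤ)) : SL(2, ℤ) ⧸ Gamma0 p) +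
      z ModularGroup.T ((1 : SL(2, ℤ)) : SL(2, ℤ) ⧸ Gamma0 p) *
        z' ModularGroup.T ((1 : SL(2, ℤ)) : SL(2, ℤ) ⧸ Gamma0 p) = 0 := by
    rw [hz'T]
    ring
  have hmn : ((z ModularGroup.T ((1 : SL(2, ℤ)) : SL(2, ℤ) ⧸ Gamma0 p) : ℤ) : ZMod n) = 0 := by
    rw [hcmp]
    refine (AsmB.sh_base (Gamma0 p) σ ⟨ModularGroup.T, Par.T_mem p⟩).trans (hpar _ ?_)
    show ((ModularGroup.T : SL(2, ℤ)) : Matrix (Fin 2) (Fin 2) ℤ).trace ^ 2 = 4
    rw [ModularGroup.coe_T, Matrix.trace_fin_two_of]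
    norm_num
  refine ⟨AddMonoidHom.mk' (fun γ =>
    z ((Additive.toMul γ : ↥(Gamma0 p)) : SL(2, ℤ)) ((1 : SL(2, ℤ)) : SL(2, ℤ) ⧸ Gamma0 p) +
      z ModularGroup.T ((1 : SL(2, ℤ)) : SL(2, ℤ) ⧸ Gamma0 p) *
        z' ((Additive.toMul γ : ↥(Gamma0 p)) : SL(2, ℤ))
          ((1 : SL(2, ℤ)) : SL(2, ℤ) ⧸ Gamma0 p)) ?_, ?_, ?_⟩
  · intro γ γ'
    show z ((Additive.toMul (γ + γ') : ↥(Gamma0 p)) : SL(2, ℤ)) _ + _ * z' _ _ = _
    rw [toMul_add, Subgroup.coe_mul, hw, Par.smul_base p (Additive.toMul γ').2]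
  · intro γ hγ
    exact parabolic_of_cocycle p
      (fun g x => z g x + z ModularGroup.T ((1 : SL(2, ℤ)) : SL(2, ℤ) ⧸ Gamma0 p) * z' g x)
      hw hwT γ hγ
  · intro γ
    show ((z (γ : SL(2, ℤ)) ((1 : SL(2, ℤ)) : SL(2, ℤ) ⧸ Gamma0 p) +
      z ModularGroup.T ((1 : SL(2, ℤ)) : SL(2, ℤ) ⧸ Gamma0 p) *
        z' (γ : SL(2, ℤ)) ((1 : SL(2, ℤ)) : SL(2, ℤ) ⧸ Gamma0 p) : ℤ) : ZMod n) = _
    rw [Int.cast_add, Int.cast_mul, hmn, zero_mul, add_zero, hcmp, AsmB.sh_base]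

end Fermat.Agent.S16.Lift
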