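import Mathlib
import Fermat.Agent.S16.LowDefs
import Fermat.Prelude.Def_ModularCurve_ModularUnit

/-!
# S16, lower bound: the Shimura character of `Γ₀(p)` modulo the Eisenstein numerator

* `shimChar p`  : a surjective character of `(ℤ / p)ˣ` with values in `ℤ / n`, `n` the
  Eisenstein numerator; it kills every unit of order dividing `12`;
* `entryChar p` : the upper left entry character `Γ₀(p) → (ℤ / p)ˣ`;
* `sigma p`     : their composite, as an additive character of `Γ₀(p)`.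
-/

set_option autoImplicit false

namespace Fermat.Agent.S16.Shim

open CongruenceSubgroup ModularCurve Fermat.Agent.S16.Coh
open scoped MatrixGroups

theorem eisensteinNumerator_mul_gcd (p : ℕ) :
    eisensteinNumerator p * Nat.gcd (p - 1) 12 = p - 1 :=
  Nat.div_mul_cancel (Nat.gcd_dvd_left _ _)

theorem eisensteinNumerator_pos (p : ℕ) [Fact p.Prime] : 0 < eisensteinNumerator p := by
  have hp : 2 ≤ p := (Fact.out : p.Prime).two_le
  have h := eisensteinNumerator_mul_gcd p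
  rcases Nat.eq_zero_or_pos (eisensteinNumerator p) with h0 | h0
  · rw [h0, zero_mul] at h
    omega
  · exact h0

theorem eisensteinNumerator_neZero (p : ℕ) [Fact p.Prime] : NeZero (eisensteinNumerator p) :=
  ⟨(eisensteinNumerator_pos p).ne'⟩

theorem natCard_units (p : ℕ) [Fact p.Prime] : Nat.card (ZMod p)ˣ = p - 1 := by
  rw [Nat.card_eq_fintype_card, ZMod.card_units_eq_totient, Nat.totient_prime Fact.out]

theorem exists_shimChar (p : ℕ) [Fact p.Prime] :
    ∃ f : (ZMod p)ˣ →* Multiplicative (ZMod (eisensteinNumerator p)),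
      Function.Surjective f := by
  have hcyc : IsCyclic (ZMod p)ˣ := inferInstance
  have hdvd : eisensteinNumerator p ∣ Nat.card (ZMod p)ˣ := by
    rw [natCard_units]; exact eisensteinNumerator_dvd p
  refine ⟨(AddMonoidHom.toMultiplicative
    (ZMod.castHom hdvd (ZMod (eisensteinNumerator p))).toAddMonoidHom).comp
      (zmodCyclicMulEquiv hcyc).symm.toMonoidHom, ?_⟩
  intro y
  obtain ⟨x, hx⟩ := ZMod.castHom_surjective hdvd (Multiplicative.toAdd y)
  refine ⟨zmodCyclicMulEquiv hcyc (Multiplicative.ofAdd x), ?_⟩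
  simp only [MonoidHom.coe_comp, MulEquiv.coe_toMonoidHom, Function.comp_apply,
    MulEquiv.symm_apply_apply]
  exact congrArg Multiplicative.ofAdd hx

/-- A surjective character of `(ℤ / p)ˣ` with values in `ℤ / n`. -/
noncomputable def shimChar (p : ℕ) [Fact p.Prime] :
    (ZMod p)ˣ →* Multiplicative (ZMod (eisensteinNumerator p)) :=
  Classical.choose (exists_shimChar p)

theorem shimChar_surjective (p : ℕ) [Fact p.Prime] : Function.Surjective (shimChar p) :=
  Classical.choose_spec (exists_shimChar p)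

theorem shimChar_eq_one_of_pow (p : ℕ) [Fact p.Prime] (u : (ZMod p)ˣ) (h : u ^ 12 = 1) :
    shimChar p u = 1 := by
  have h1 : u ^ (p - 1) = 1 := ZMod.units_pow_card_sub_one_eq_one p u
  have h2 : u ^ Nat.gcd (p - 1) 12 = 1 := pow_gcd_eq_one.mpr ⟨h1, h⟩
  obtain ⟨ζ, hζ⟩ := IsCyclic.exists_generator (α := (ZMod p)ˣ)
  have hord : orderOf ζ = eisensteinNumerator p * Nat.gcd (p - 1) 12 := by
    rw [orderOf_eq_card_of_forall_mem_zpowers hζ, natCard_units, eisensteinNumerator_mul_gcd]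
  obtain ⟨k, hk⟩ := Subgroup.mem_zpowers_iff.mp (hζ u)
  have hg : 0 < Nat.gcd (p - 1) 12 := Nat.gcd_pos_of_pos_right _ (by norm_num)
  have h3 : ζ ^ (k * (Nat.gcd (p - 1) 12 : ℤ)) = 1 := by
    rw [zpow_mul, hk, zpow_natCast, h2]
  have h4 : ((eisensteinNumerator p * Nat.gcd (p - 1) 12 : ℕ) : ℤ) ∣
      k * (Nat.gcd (p - 1) 12 : ℤ) := by
    rw [← hord]
    exact orderOf_dvd_iff_zpow_eq_one.mpr h3
  have h5 : (eisensteinNumerator p : ℤ) ∣ k := by
    rw [Nat.cast_mul] at h4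
    exact Int.dvd_of_mul_dvd_mul_right (by exact_mod_cast hg.ne') h4
  obtain ⟨m, rfl⟩ := h5
  have h6 : u = (ζ ^ m) ^ (eisensteinNumerator p) := by
    rw [← hk, ← zpow_natCast, ← zpow_mul, mul_comm]
  rw [h6, map_pow]
  apply Multiplicative.toAdd.injective
  rw [toAdd_pow, toAdd_one, nsmul_eq_mul, ZMod.natCast_self, zero_mul]

/-- The lower left entry of an element of `Γ₀(p)` vanishes modulo `p`. -/
theorem lowerLeft_eq_zero (p : ℕ) (γ : ↥(Gamma0 p)) :
    ((((γ : SL(2, ℤ)) 1 0 : ℤ)) : ZMod p) = 0 :=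
  Gamma0_mem.mp γ.2

/-- The upper left entry modulo `p`, as a monoid homomorphism on `Γ₀(p)`. -/
def entryHom (p : ℕ) : ↥(Gamma0 p) →* ZMod p where
  toFun γ := ((((γ : SL(2, ℤ)) 0 0 : ℤ)) : ZMod p)
  map_one' := by simp
  map_mul' γ γ' := by
    have h := lowerLeft_eq_zero p γ'
    simp only [Subgroup.coe_mul, Matrix.SpecialLinearGroup.coe_mul, Matrix.mul_apply,
      Fin.sum_univ_two, Int.cast_add, Int.cast_mul, h, mul_zero, add_zero]

theorem entryHom_apply (p : ℕ) (γ : ↥(Gamma0 p)) :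
    entryHom p γ = ((((γ : SL(2, ℤ)) 0 0 : ℤ)) : ZMod p) := rfl

/-- The upper left entry character `Γ₀(p) → (ℤ / p)ˣ`. -/
def entryChar (p : ℕ) : ↥(Gamma0 p) →* (ZMod p)ˣ := (entryHom p).toHomUnits

theorem coe_entryChar (p : ℕ) (γ : ↥(Gamma0 p)) :
    ((entryChar p γ : (ZMod p)ˣ) : ZMod p) = ((((γ : SL(2, ℤ)) 0 0 : ℤ)) : ZMod p) := rfl

theorem entryChar_surjective (p : ℕ) [Fact p.Prime] : Function.Surjective (entryChar p) := by
  intro u
  have hp : p ≠ 0 := (Fact.out : p.Prime).ne_zero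
  have : NeZero p := ⟨hp⟩
  set a : ℤ := (((u : ZMod p)).val : ℤ) with ha
  set d : ℤ := ((((u⁻¹ : (ZMod p)ˣ) : ZMod p)).val : ℤ) with hd
  have hac : ((a : ℤ) : ZMod p) = (u : ZMod p) := by
    rw [ha, Int.cast_natCast, ZMod.natCast_zmod_val]
  have hdc : ((d : ℤ) : ZMod p) = ((u⁻¹ : (ZMod p)ˣ) : ZMod p) := by
    rw [hd, Int.cast_natCast, ZMod.natCast_zmod_val]
  have h1 : (((a * d - 1 : ℤ)) : ZMod p) = 0 := by
    rw [Int.cast_sub, Int.cast_mul, hac, hdc, Units.mul_inv, Int.cast_one, sub_self]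
  obtain ⟨k, hk⟩ := (ZMod.intCast_zmod_eq_zero_iff_dvd _ p).mp h1
  let A : SL(2, ℤ) := ⟨!![a, k; (p : ℤ), d], by
    rw [Matrix.det_fin_two_of]; linarith⟩
  have hA : A ∈ Gamma0 p := by
    rw [Gamma0_mem]
    show (((p : ℤ)) : ZMod p) = 0
    simp
  refine ⟨⟨A, hA⟩, ?_⟩
  apply Units.ext
  rw [coe_entryChar]
  exact hac

/-- The Shimura character `Γ₀(p) → ℤ / n`, `n` the Eisenstein numerator: a surjective character
of `(ℤ / p)ˣ` applied to the upper left entry. -/
noncomputable def sigma (p : ℕ) [Fact p.Prime] :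
    Additive ↥(Gamma0 p) →+ ZMod (eisensteinNumerator p) :=
  MonoidHom.toAdditiveLeft ((shimChar p).comp (entryChar p))

theorem sigma_apply (p : ℕ) [Fact p.Prime] (γ : ↥(Gamma0 p)) :
    sigma p (Additive.ofMul γ) = Multiplicative.toAdd (shimChar p (entryChar p γ)) := rfl

theorem sigma_surjective (p : ℕ) [Fact p.Prime] : Function.Surjective (sigma p) := by
  intro y
  obtain ⟨u, hu⟩ := shimChar_surjective p (Multiplicative.ofAdd y)
  obtain ⟨γ, hγ⟩ := entryChar_surjective p u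
  refine ⟨Additive.ofMul γ, ?_⟩
  rw [sigma_apply, hγ, hu, toAdd_ofAdd]

theorem sigma_eq_zero_of_entryChar_pow (p : ℕ) [Fact p.Prime] (γ : ↥(Gamma0 p))
    (h : entryChar p γ ^ 12 = 1) : sigma p (Additive.ofMul γ) = 0 := by
  rw [sigma_apply, shimChar_eq_one_of_pow p _ h, toAdd_one]

theorem sigma_eq_zero_of_pow (p : ℕ) [Fact p.Prime] (γ : ↥(Gamma0 p)) (h : γ ^ 12 = 1) :
    sigma p (Additive.ofMul γ) = 0 := by
  apply sigma_eq_zero_of_entryChar_pow
  rw [← map_pow, h, map_one]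

theorem sigma_eq_zero_of_trace (p : ℕ) [Fact p.Prime] (γ : ↥(Gamma0 p))
    (h : ((γ : SL(2, ℤ)) : Matrix (Fin 2) (Fin 2) ℤ).trace ^ 2 = 4) :
    sigma p (Additive.ofMul γ) = 0 := by
  apply sigma_eq_zero_of_entryChar_pow
  have hdet := (γ : SL(2, ℤ)).det_coe
  rw [Matrix.det_fin_two] at hdet
  rw [Matrix.trace_fin_two] at h
  have hc := lowerLeft_eq_zero p γ
  set a : ℤ := (γ : SL(2, ℤ)) 0 0 with ha
  set b : ℤ := (γ : SL(2, ℤ)) 0 1 with hb
  set c : ℤ := (γ : SL(2, ℤ)) 1 0 with hc'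
  set d : ℤ := (γ : SL(2, ℤ)) 1 1 with hd
  -- modulo `p`: `a * d = 1` and `(a + d) ^ 2 = 4` give `(a ^ 2 - 1) ^ 2 = 0`
  have key : (((a : ℤ)) : ZMod p) ^ 2 = 1 := by
    have h1 : ((a : ℤ) : ZMod p) * (d : ZMod p) = 1 := by
      have := congrArg (Int.cast : ℤ → ZMod p) hdet
      rw [Int.cast_sub, Int.cast_mul, Int.cast_mul, hc, mul_zero, sub_zero, Int.cast_one] at this
      exact this
    have h2 : (((a : ℤ) : ZMod p) + (d : ZMod p)) ^ 2 = 4 := by
      have := congrArg (Int.cast : ℤ → ZMod p) h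
      push_cast at this
      exact this
    have h3 : (((a : ℤ) : ZMod p) ^ 2 - 1) ^ 2 = 0 := by
      linear_combination ((a : ZMod p)) ^ 2 * h2 +
        (-2 * (a : ZMod p) ^ 2 - (a : ZMod p) * (d : ZMod p) - 1) * h1
    have h4 := pow_eq_zero_iff (two_ne_zero) |>.mp h3
    exact sub_eq_zero.mp h4
  have key2 : entryChar p γ ^ 2 = 1 := by
    apply Units.ext
    rw [Units.val_pow_eq_pow_val, coe_entryChar, Units.val_one]
    exact key
  calc entryChar p γ ^ 12 = (entryChar p γ ^ 2) ^ 6 := by rw [← pow_mul]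
    _ = 1 := by rw [key2, one_pow]

/-- The common computation behind `sigma_sum_T` and `sigma_sum_U`. -/
theorem sigma_sum_aux (p : ℕ) [Fact p.Prime] {ι : Type*} [Fintype ι]
    (M : ι → Matrix (Fin 2) (Fin 2) ℤ) (hM : ∀ i, M i 1 0 = 0)
    (μ : ι → (ZMod p)ˣ) (hμ : ∀ i, ((M i 0 0 : ℤ) : ZMod p) = (μ i : ZMod p))
    (γ : ↥(Gamma0 p)) (π : Equiv.Perm ι) (g : ι → ↥(Gamma0 p))
    (h : IsDatum (Gamma0 p) M γ π g) :
    ∑ i, sigma p (Additive.ofMul (g i)) = Fintype.card ι • sigma p (Additive.ofMul γ) := by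
  have key : ∀ i, entryChar p (g i) = μ i * entryChar p γ * (μ (π i))⁻¹ := by
    intro i
    have h1 := congrFun (congrFun (h i) 0) 0
    rw [Matrix.mul_apply, Matrix.mul_apply, Fin.sum_univ_two, Fin.sum_univ_two, hM (π i),
      mul_zero, add_zero] at h1
    have h2 := congrArg (Int.cast : ℤ → ZMod p) h1
    rw [Int.cast_add, Int.cast_mul, Int.cast_mul, Int.cast_mul, lowerLeft_eq_zero p γ,
      mul_zero, add_zero, hμ i, hμ (π i)] at h2
    rw [eq_mul_inv_iff_mul_eq]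
    apply Units.ext
    rw [Units.val_mul, Units.val_mul, coe_entryChar, coe_entryChar]
    exact h2.symm
  have key2 : ∀ i, sigma p (Additive.ofMul (g i)) =
      Multiplicative.toAdd (shimChar p (μ i)) + sigma p (Additive.ofMul γ) -
        Multiplicative.toAdd (shimChar p (μ (π i))) := by
    intro i
    rw [sigma_apply, sigma_apply, key i, (shimChar p).map_mul, (shimChar p).map_mul,
      (shimChar p).map_inv, toAdd_mul, toAdd_mul, toAdd_inv]
    abel
  simp_rw [key2]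
  rw [Finset.sum_sub_distrib, Finset.sum_add_distrib,
    Equiv.sum_comp π (fun i => Multiplicative.toAdd (shimChar p (μ i))), Finset.sum_const,
    Finset.card_univ]
  abel

theorem natCast_prime_ne_zero (p : ℕ) [Fact p.Prime] {r : ℕ} (hr : r.Prime) (hrp : ¬ r ∣ p) :
    ((r : ℕ) : ZMod p) ≠ 0 := by
  intro h0
  rw [ZMod.natCast_eq_zero_iff] at h0
  have h1 : p = r := (Nat.prime_dvd_prime_iff_eq Fact.out hr).mp h0
  exact hrp (h1 ▸ dvd_rfl)

theorem sigma_sum_T (p : ℕ) [Fact p.Prime] {r : ℕ} (hr : r.Prime) (hrp : ¬ r ∣ p)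
    (γ : ↥(Gamma0 p)) (π : Equiv.Perm (Option (Fin r))) (g : Option (Fin r) → ↥(Gamma0 p))
    (h : IsDatum (Gamma0 p) (matT r) γ π g) :
    ∑ i, sigma p (Additive.ofMul (g i)) =
      ((1 + (r : ℤ) : ℤ) : ZMod (eisensteinNumerator p)) * sigma p (Additive.ofMul γ) := by
  have hr0 := natCast_prime_ne_zero p hr hrp
  have hM : ∀ i, matT r i 1 0 = 0 := by
    intro i
    cases i <;> simp
  have hμ : ∀ i, ((matT r i 0 0 : ℤ) : ZMod p) =
      ((Option.casesOn i (Units.mk0 ((r : ℕ) : ZMod p) hr0) (fun _ => 1) : (ZMod p)ˣ) :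
        ZMod p) := by
    intro i
    cases i <;> simp
  rw [sigma_sum_aux p (matT r) hM _ hμ γ π g h, Fintype.card_option, Fintype.card_fin,
    nsmul_eq_mul]
  push_cast
  ring

theorem natCast_self_eq_one (p : ℕ) [Fact p.Prime] :
    ((p : ℕ) : ZMod (eisensteinNumerator p)) = 1 := by
  have hp : 1 ≤ p := (Fact.out : p.Prime).one_le
  have h0 : (((p - 1 : ℕ)) : ZMod (eisensteinNumerator p)) = 0 :=
    (ZMod.natCast_eq_zero_iff _ _).mpr (eisensteinNumerator_dvd p)
  rw [Nat.cast_sub hp, Nat.cast_one] at h0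
  exact sub_eq_zero.mp h0

theorem sigma_sum_U (p : ℕ) [Fact p.Prime]
    (γ : ↥(Gamma0 p)) (π : Equiv.Perm (Fin p)) (g : Fin p → ↥(Gamma0 p))
    (h : IsDatum (Gamma0 p) (matU p) γ π g) :
    ∑ i, sigma p (Additive.ofMul (g i)) = sigma p (Additive.ofMul γ) := by
  have hM : ∀ i, matU p i 1 0 = 0 := by
    intro i
    simp
  have hμ : ∀ i, ((matU p i 0 0 : ℤ) : ZMod p) = (((1 : (ZMod p)ˣ)) : ZMod p) := by
    intro i
    simp
  rw [sigma_sum_aux p (matU p) hM _ hμ γ π g h, Fintype.card_fin, nsmul_eq_mul,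
    natCast_self_eq_one, one_mul]

end Fermat.Agent.S16.Shim
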