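import Mathlib
import Fermat.Agent.S16.Defs
import Fermat.Agent.S16.LowDefs
import Fermat.Agent.S16.HeckeCohT
import Fermat.Agent.S16.HeckeCohU
import Fermat.Agent.S16.HeckePeriod
import Fermat.Agent.S16.Shimura
import Fermat.Agent.S16.Lift
import Fermat.Agent.S21
import Fermat.Agent.S23

/-!
# S16: the lower bound

If an integer `k` lies in the image of the Eisenstein ideal in the lattice Hecke algebra of
level `p`, then the Eisenstein numerator divides `k`.
-/

set_option autoImplicit false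

namespace Fermat.Agent.S16.Coh.Low

open ModularCurve CuspForm CongruenceSubgroup ModularCurve.Period Fermat.Agent.S16.Coh
open scoped MatrixGroups

section PeriodPair

variable (N : ℕ) [NeZero N]

theorem existsPeriodMapLinear : ExistsPeriodMapLinear N :=
  Fermat.Agent.S21.existsPeriodMapLinear_of_exists N
    (fun f => Fermat.Agent.S21.exists_hasEquivariantPrimitive N f)

/-- Composition with the involution `γ ↦ J γ J`. -/
noncomputable def jc (φ : Additive ↥(Gamma0 N) →+ ℂ) : Additive ↥(Gamma0 N) →+ ℂ :=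
  φ.comp (MonoidHom.toAdditive (jConjGamma0 N))

theorem periodHomPair_eq (f g : CuspForm (Gamma0 N) 2) :
    periodHomPair N (f, g) =
      (periodMap N f + jc N (periodMap N f)) + (periodMap N g - jc N (periodMap N g)) := by
  obtain ⟨pml, hpml, heq⟩ := periodHomPair_def N (existsPeriodMapLinear N)
  rw [heq, LinearMap.coprod_apply]
  simp only [LinearMap.comp_apply, LinearMap.add_apply, LinearMap.sub_apply, LinearMap.id_apply,
    hpml]
  rfl

theorem isTransform_periodHomPair_T {r : ℕ} (hr : r.Prime) (hrN : ¬ r ∣ N)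
    (f g : CuspForm (Gamma0 N) 2) :
    IsTransform (Gamma0 N) (matT r) (periodHomPair N (f, g))
      (periodHomPair N (heckeTLin 2 hr hrN f, heckeTLin 2 hr hrN g)) := by
  rw [periodHomPair_eq, periodHomPair_eq]
  have hf := isTransform_periodMap_T N hr hrN f
  have hg := isTransform_periodMap_T N hr hrN g
  exact (hf.add (isTransform_jConj_T hr hrN hf)).add (hg.sub (isTransform_jConj_T hr hrN hg))

theorem isTransform_periodHomPair_U {q : ℕ} (hqN : q ∣ N)
    (f g : CuspForm (Gamma0 N) 2) :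
    IsTransform (Gamma0 N) (matU q) (periodHomPair N (f, g))
      (periodHomPair N (heckeULin 2 hqN f, heckeULin 2 hqN g)) := by
  rw [periodHomPair_eq, periodHomPair_eq]
  have hf := isTransform_periodMap_U N hqN f
  have hg := isTransform_periodMap_U N hqN g
  exact (hf.add (isTransform_jConj_U hqN hf)).add (hg.sub (isTransform_jConj_U hqN hg))

end PeriodPair

section Step

variable (p : ℕ) [Fact p.Prime]

local notation "nn" => eisensteinNumerator p

/-- The operator on cusp forms attached to an element of the formal Hecke algebra. -/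
noncomputable def opE (x : HeckeAlg) : Module.End ℂ (CuspForm (Gamma0 p) 2) :=
  ((heckeEvalForms p 2 x : ↥(heckeAlgebra p 2 ∅)) : Module.End ℂ (CuspForm (Gamma0 p) 2))

theorem opE_C (a : ℤ) (f : CuspForm (Gamma0 p) 2) : opE p (MvPolynomial.C a) f = a • f := by
  unfold opE
  rw [heckeEvalForms_C, Subalgebra.coe_algebraMap, Module.algebraMap_end_apply]

theorem opE_add (x y : HeckeAlg) (f : CuspForm (Gamma0 p) 2) :
    opE p (x + y) f = opE p x f + opE p y f := by
  unfold opE
  rw [map_add, Subalgebra.coe_add, LinearMap.add_apply]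

theorem opE_mul (x y : HeckeAlg) (f : CuspForm (Gamma0 p) 2) :
    opE p (x * y) f = opE p x (opE p y f) := by
  unfold opE
  rw [map_mul, Subalgebra.coe_mul, Module.End.mul_apply]

theorem opE_X_of_dvd {ℓ : Nat.Primes} (h : (ℓ : ℕ) ∣ p) (f : CuspForm (Gamma0 p) 2) :
    opE p (MvPolynomial.X ℓ) f = heckeULin 2 h f := by
  unfold opE
  have := heckeEvalForms_heckeGen_of_dvd (N := p) (k := 2) h
  rw [heckeGen] at this
  rw [this, heckeAlgebra.coe_U]

theorem opE_X_of_not_dvd {ℓ : Nat.Primes} (h : ¬ (ℓ : ℕ) ∣ p) (f : CuspForm (Gamma0 p) 2) :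
    opE p (MvPolynomial.X ℓ) f = heckeTLin 2 ℓ.2 h f := by
  unfold opE
  have := heckeEvalForms_heckeGen_of_not_dvd (N := p) (k := 2) h
  rw [heckeGen] at this
  rw [this, heckeAlgebra.coe_T]

/-- The inductive statement: the operator attached to `x` preserves integral characters in
the range of the period pairing, and acts on multiples of the Shimura character modulo `n`
through the Eisenstein eigenvalue of `x`. -/
def StepP (x : HeckeAlg) : Prop :=
  ∀ (χ : Additive ↥(Gamma0 p) →+ ℤ) (f g : CuspForm (Gamma0 p) 2),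
    (Int.castAddHom ℂ).comp χ = periodHomPair p (f, g) →
    ∃ χ' : Additive ↥(Gamma0 p) →+ ℤ,
      (Int.castAddHom ℂ).comp χ' = periodHomPair p (opE p x f, opE p x g) ∧
      ∀ c : ZMod nn,
        (∀ γ : ↥(Gamma0 p), ((χ (Additive.ofMul γ) : ℤ) : ZMod nn) =
          c * Shim.sigma p (Additive.ofMul γ)) →
        ∀ γ : ↥(Gamma0 p), ((χ' (Additive.ofMul γ) : ℤ) : ZMod nn) =
          ((MvPolynomial.aeval (eisensteinSystem p) x : ℤ) : ZMod nn) * c *
            Shim.sigma p (Additive.ofMul γ)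

theorem stepP_C (a : ℤ) : StepP p (MvPolynomial.C a) := by
  intro χ f g h
  refine ⟨a • χ, ?_, ?_⟩
  · have h1 : (opE p (MvPolynomial.C a) f, opE p (MvPolynomial.C a) g) = a • (f, g) := by
      rw [opE_C, opE_C]; rfl
    rw [h1, map_zsmul, ← h]
    refine AddMonoidHom.ext fun γ => ?_
    simp
  · intro c hc γ
    rw [MvPolynomial.aeval_C]
    simp only [AddMonoidHom.smul_apply, smul_eq_mul, Int.cast_mul, hc γ, eq_intCast, Int.cast_id]
    ring

theorem stepP_add (x y : HeckeAlg) (hx : StepP p x) (hy : StepP p y) : StepP p (x + y) := by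
  intro χ f g h
  obtain ⟨χ₁, h₁, h₁'⟩ := hx χ f g h
  obtain ⟨χ₂, h₂, h₂'⟩ := hy χ f g h
  refine ⟨χ₁ + χ₂, ?_, ?_⟩
  · have h1 : (opE p (x + y) f, opE p (x + y) g) =
        (opE p x f, opE p x g) + (opE p y f, opE p y g) := by
      rw [opE_add, opE_add]; rfl
    rw [h1, map_add, ← h₁, ← h₂]
    refine AddMonoidHom.ext fun γ => ?_
    simp
  · intro c hc γ
    rw [map_add]
    simp only [AddMonoidHom.add_apply, Int.cast_add, h₁' c hc γ, h₂' c hc γ]
    ring

/-- One Hecke step. -/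
theorem step_X (ℓ : Nat.Primes) (χ : Additive ↥(Gamma0 p) →+ ℤ) (f g : CuspForm (Gamma0 p) 2)
    (h : (Int.castAddHom ℂ).comp χ = periodHomPair p (f, g)) :
    ∃ χ' : Additive ↥(Gamma0 p) →+ ℤ,
      (Int.castAddHom ℂ).comp χ' =
        periodHomPair p (opE p (MvPolynomial.X ℓ) f, opE p (MvPolynomial.X ℓ) g) ∧
      ∀ c : ZMod nn,
        (∀ γ : ↥(Gamma0 p), ((χ (Additive.ofMul γ) : ℤ) : ZMod nn) =
          c * Shim.sigma p (Additive.ofMul γ)) →
        ∀ γ : ↥(Gamma0 p), ((χ' (Additive.ofMul γ) : ℤ) : ZMod nn) =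
          ((eisensteinSystem p ℓ : ℤ) : ZMod nn) * c * Shim.sigma p (Additive.ofMul γ) := by
  by_cases hℓ : (ℓ : ℕ) ∣ p
  · -- the operator `U_p`
    have hℓp : (ℓ : ℕ) = p := ((Nat.prime_dvd_prime_iff_eq ℓ.2 (Fact.out : p.Prime)).mp hℓ)
    obtain ⟨χ', hχ'⟩ := exists_isTransform_U (N := p) hℓ χ
    refine ⟨χ', ?_, ?_⟩
    · rw [opE_X_of_dvd p hℓ, opE_X_of_dvd p hℓ]
      have h1 := hχ'.comp (Int.castAddHom ℂ)
      rw [h] at h1
      exact IsTransform.unique (fun γ => exists_isDatum_U hℓ γ) h1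
        (isTransform_periodHomPair_U p hℓ f g)
    · intro c hc γ
      obtain ⟨π, gg, hd⟩ := exists_isDatum_U (N := p) hℓ γ
      rw [hχ' γ π gg hd, Int.cast_sum]
      simp only [hc]
      rw [← Finset.mul_sum, eisensteinSystem_of_dvd hℓ]
      have hsum : ∑ i, Shim.sigma p (Additive.ofMul (gg i)) = Shim.sigma p (Additive.ofMul γ) := by
        subst hℓp
        exact Shim.sigma_sum_U _ γ π gg hd
      rw [hsum]
      simp
  · -- the operator `T_ℓ`
    obtain ⟨χ', hχ'⟩ := exists_isTransform_T (N := p) ℓ.2 hℓ χ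
    refine ⟨χ', ?_, ?_⟩
    · rw [opE_X_of_not_dvd p hℓ, opE_X_of_not_dvd p hℓ]
      have h1 := hχ'.comp (Int.castAddHom ℂ)
      rw [h] at h1
      exact IsTransform.unique (fun γ => exists_isDatum_T ℓ.2 hℓ γ) h1
        (isTransform_periodHomPair_T p ℓ.2 hℓ f g)
    · intro c hc γ
      obtain ⟨π, gg, hd⟩ := exists_isDatum_T (N := p) ℓ.2 hℓ γ
      rw [hχ' γ π gg hd, Int.cast_sum]
      simp only [hc]
      rw [← Finset.mul_sum, eisensteinSystem_of_not_dvd hℓ, Shim.sigma_sum_T p ℓ.2 hℓ γ π gg hd]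
      push_cast
      ring

theorem stepP_mul_X (x : HeckeAlg) (ℓ : Nat.Primes) (hx : StepP p x) :
    StepP p (x * MvPolynomial.X ℓ) := by
  intro χ f g h
  obtain ⟨χ₁, h₁, h₁'⟩ := step_X p ℓ χ f g h
  obtain ⟨χ₂, h₂, h₂'⟩ := hx χ₁ _ _ h₁
  refine ⟨χ₂, ?_, ?_⟩
  · rw [opE_mul, opE_mul]
    exact h₂
  · intro c hc γ
    have h3 := h₂' (((eisensteinSystem p ℓ : ℤ) : ZMod nn) * c) (h₁' c hc) γ
    rw [h3, map_mul, MvPolynomial.aeval_X]
    push_cast
    ring

theorem stepP (x : HeckeAlg) : StepP p x :=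
  MvPolynomial.induction_on x (stepP_C p) (stepP_add p) (stepP_mul_X p)

end Step

section Surj

variable (p : ℕ) [Fact p.Prime]

theorem heckeEvalForms_surjective : Function.Surjective (heckeEvalForms p 2) := by
  have hrange : (MvPolynomial.aeval (R := ℤ) (heckeFormsGen p 2)).range = ⊤ := by
    rw [← Algebra.adjoin_range_eq_range_aeval]
    refine eq_top_iff.mpr ?_
    rintro ⟨t, ht⟩ -
    induction ht using Algebra.adjoin_induction with
    | mem t ht =>
      rcases ht with ⟨ℓ, hℓ, hℓN, -, rfl⟩ | ⟨q, hqN, hq, -, rfl⟩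
      · refine Algebra.subset_adjoin ⟨⟨ℓ, hℓ⟩, ?_⟩
        rw [heckeFormsGen_of_not_dvd (ℓ := ⟨ℓ, hℓ⟩) hℓN]
        rfl
      · refine Algebra.subset_adjoin ⟨⟨q, hq⟩, ?_⟩
        rw [heckeFormsGen_of_dvd (q := ⟨q, hq⟩) hqN]
        rfl
    | algebraMap r =>
      exact Subalgebra.algebraMap_mem _ r
    | add x y hx hy hx' hy' =>
      exact Subalgebra.add_mem _ hx' hy'
    | mul x y hx hy hx' hy' =>
      exact Subalgebra.mul_mem _ hx' hy'
  intro t
  have ht : t ∈ (MvPolynomial.aeval (R := ℤ) (heckeFormsGen p 2)).range := by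
    rw [hrange]; exact Algebra.mem_top
  obtain ⟨x, hx⟩ := ht
  exact ⟨x, hx⟩

theorem rho_surjective : Function.Surjective (rho p) := by
  intro t
  obtain ⟨u, hu⟩ := latticeRestrictHom_surjective p ∅ t
  obtain ⟨x, hx⟩ := heckeEvalForms_surjective p u
  exact ⟨x, by rw [rho, RingHom.comp_apply, hx]; exact hu⟩

theorem heckeEvalForms_eq_zero_of_rho {x : HeckeAlg} (h : rho p x = 0) :
    heckeEvalForms p 2 x = 0 := by
  have hbij := latticeRestrictHom_bijective p ∅ (Fermat.Agent.S23.result p)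
  apply hbij.1
  rw [map_zero]
  exact h

end Surj

end Fermat.Agent.S16.Coh.Low

namespace Fermat.Agent.S16

open ModularCurve CuspForm CongruenceSubgroup ModularCurve.Period Fermat.Agent.S16.Coh
  Fermat.Agent.S16.Coh.Low
open scoped MatrixGroups

/-- The lower bound: an integer in the image of the Eisenstein ideal is divisible by the
Eisenstein numerator. -/
theorem lower_bound (p : ℕ) [Fact p.Prime] (k : ℤ)
    (hk : algebraMap ℤ ↥(CuspForm.heckeLatticeAlgebra p ∅) k ∈ JL p) :
    (ModularCurve.eisensteinNumerator p : ℤ) ∣ k := by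
  obtain ⟨y, hy, hyk⟩ := (Ideal.mem_map_iff_of_surjective (rho p) (rho_surjective p)).mp hk
  have hrhoC : rho p (MvPolynomial.C k) = algebraMap ℤ ↥(CuspForm.heckeLatticeAlgebra p ∅) k := by
    rw [rho, RingHom.comp_apply, heckeEvalForms_C]
    exact (latticeRestrictHom p ∅).commutes k
  have hx0 : heckeEvalForms p 2 (MvPolynomial.C k - y) = 0 := by
    apply heckeEvalForms_eq_zero_of_rho
    rw [map_sub, hrhoC, hyk, sub_self]
  have hE : opE p (MvPolynomial.C k - y) = 0 := by
    unfold opE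
    rw [hx0]
    rfl
  have hev : MvPolynomial.aeval (eisensteinSystem p) (MvPolynomial.C k - y) = k := by
    have hy0 : MvPolynomial.aeval (eisensteinSystem p) y = 0 :=
      (mem_eigenIdeal_iff _ _).mp hy
    rw [map_sub, hy0, sub_zero, MvPolynomial.aeval_C]
    rfl
  obtain ⟨ψ, hψpar, hψσ⟩ := Lift.exists_parabolic_lift p (eisensteinNumerator p) (Shim.sigma p)
    (Shim.sigma_eq_zero_of_trace p) (Shim.sigma_eq_zero_of_pow p)
  have hmem : (Int.castAddHom ℂ).comp ψ ∈ parabolicHoms ℂ (Gamma0 p) ℂ := by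
    intro γ hγ
    rw [AddMonoidHom.comp_apply, hψpar γ hγ, map_zero]
  rw [← (Fermat.Agent.S21.result p).2] at hmem
  obtain ⟨⟨f, g⟩, hfg⟩ := hmem
  obtain ⟨χ', hχ', hmod⟩ := stepP p (MvPolynomial.C k - y) ψ f g hfg.symm
  have hχ0 : ∀ γ : ↥(Gamma0 p), χ' (Additive.ofMul γ) = 0 := by
    intro γ
    have h1 := DFunLike.congr_fun hχ' (Additive.ofMul γ)
    rw [hE] at h1
    simp only [LinearMap.zero_apply] at h1
    rw [show ((0 : CuspForm (Gamma0 p) 2), (0 : CuspForm (Gamma0 p) 2)) = 0 from rfl, map_zero]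
      at h1
    simpa using h1
  obtain ⟨γ, hγ⟩ := Shim.sigma_surjective p 1
  have h2 := hmod 1 (fun δ => by rw [one_mul]; exact hψσ δ) (Additive.toMul γ)
  rw [hχ0, hev] at h2
  rw [ofMul_toMul, hγ] at h2
  simp only [Int.cast_zero, mul_one] at h2
  exact (ZMod.intCast_zmod_eq_zero_iff_dvd k _).mp h2.symm

end Fermat.Agent.S16
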