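import Mathlib
import Fermat.Agent.S16.Defs

/-!
# S16: the coset representatives of `Γ₀(p)` in `SL(2, ℤ)`

`cosetRep p none = 1`, `cosetRep p (some i) = S * T ^ i` form a system of representatives of
`Γ₀(p) \ SL(2, ℤ)`; the translates of a level `p` modular form by them form an equivariant
family of holomorphic functions, bounded at `i∞`.
-/

set_option autoImplicit false

namespace Fermat.Agent.S16

open ModularCurve CuspForm UpperHalfPlane CongruenceSubgroup
open scoped MatrixGroups ModularForm Manifold Real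

namespace Cosets

/-- The matrix of `(S * T ^ i)⁻¹`. -/
theorem coe_cosetRep_some_inv (p : ℕ) (i : Fin p) :
    (((cosetRep p (some i))⁻¹ : SL(2, ℤ)) : Matrix (Fin 2) (Fin 2) ℤ) =
      !![((i : ℕ) : ℤ), 1; -1, 0] := by
  rw [cosetRep_some, mul_inv_rev, ← zpow_natCast, ← zpow_neg, Matrix.SpecialLinearGroup.coe_mul,
    ModularGroup.coe_T_zpow, Matrix.SpecialLinearGroup.coe_inv, ModularGroup.coe_S,
    Matrix.adjugate_fin_two_of]
  simp

/-- The lower left entry of `g * (S * T ^ i)⁻¹`. -/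
theorem mul_cosetRep_some_inv_one_zero (p : ℕ) (g : SL(2, ℤ)) (i : Fin p) :
    (g * (cosetRep p (some i))⁻¹) 1 0 = g 1 0 * ((i : ℕ) : ℤ) - g 1 1 := by
  rw [Matrix.SpecialLinearGroup.coe_mul, coe_cosetRep_some_inv, Matrix.mul_apply]
  simp [Fin.sum_univ_two]
  ring

theorem mem_none_iff (p : ℕ) (g : SL(2, ℤ)) :
    g * (cosetRep p none)⁻¹ ∈ Gamma0 p ↔ ((g 1 0 : ℤ) : ZMod p) = 0 := by
  rw [cosetRep_none, inv_one, mul_one, Gamma0_mem]

theorem mem_some_iff (p : ℕ) (g : SL(2, ℤ)) (i : Fin p) :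
    g * (cosetRep p (some i))⁻¹ ∈ Gamma0 p ↔
      ((g 1 0 : ℤ) : ZMod p) * (((i : ℕ) : ZMod p)) = ((g 1 1 : ℤ) : ZMod p) := by
  rw [Gamma0_mem, mul_cosetRep_some_inv_one_zero]
  push_cast
  rw [sub_eq_zero]

/-- The determinant relation modulo `p`. -/
theorem det_zmod (p : ℕ) (g : SL(2, ℤ)) :
    ((g 0 0 : ℤ) : ZMod p) * ((g 1 1 : ℤ) : ZMod p) -
      ((g 0 1 : ℤ) : ZMod p) * ((g 1 0 : ℤ) : ZMod p) = 1 := by
  have h := g.det_coe
  rw [Matrix.det_fin_two] at h
  have h2 := congrArg (Int.cast : ℤ → ZMod p) h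
  push_cast at h2
  exact h2

end Cosets

open Cosets

theorem existsUnique_cosetRep (p : ℕ) [Fact p.Prime] (g : SL(2, ℤ)) :
    ∃! x : Option (Fin p), g * (cosetRep p x)⁻¹ ∈ Gamma0 p := by
  have hp : p.Prime := Fact.out
  have : NeZero p := ⟨hp.ne_zero⟩
  by_cases hc : ((g 1 0 : ℤ) : ZMod p) = 0
  · refine ⟨none, (mem_none_iff p g).2 hc, ?_⟩
    rintro (_ | i) hi
    · rfl
    · exfalso
      rw [mem_some_iff, hc, zero_mul] at hi
      have hdet := det_zmod p g
      rw [← hi, hc, mul_zero, mul_zero, sub_zero] at hdet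
      exact zero_ne_one hdet
  · set t : ZMod p := ((g 1 1 : ℤ) : ZMod p) / ((g 1 0 : ℤ) : ZMod p) with ht
    refine ⟨some ⟨t.val, ZMod.val_lt t⟩, ?_, ?_⟩
    · show g * (cosetRep p (some ⟨t.val, ZMod.val_lt t⟩))⁻¹ ∈ Gamma0 p
      rw [mem_some_iff]
      show _ * ((t.val : ℕ) : ZMod p) = _
      rw [ZMod.natCast_zmod_val, ht, mul_div_cancel₀ _ hc]
    · rintro (_ | i) hi
      · exact absurd ((mem_none_iff p g).1 hi) hc
      · rw [mem_some_iff] at hi
        have h1 : ((i : ℕ) : ZMod p) = t := by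
          rw [ht, eq_div_iff hc, mul_comm]
          exact hi
        congr 1
        apply Fin.ext
        show (i : ℕ) = t.val
        rw [← h1, ZMod.val_natCast, Nat.mod_eq_of_lt i.isLt]

theorem exists_cosetPerm (p : ℕ) [Fact p.Prime] (g : SL(2, ℤ)) :
    ∃ σ : Equiv.Perm (Option (Fin p)), ∀ x, cosetRep p x * g * (cosetRep p (σ x))⁻¹ ∈ Gamma0 p := by
  choose s hs hs' using fun x : Option (Fin p) => existsUnique_cosetRep p (cosetRep p x * g)
  have hinj : Function.Injective s := by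
    intro x x' hxx'
    have h1 := hs x
    have h2 := hs x'
    rw [← hxx'] at h2
    have h3 : cosetRep p x * (cosetRep p x')⁻¹ ∈ Gamma0 p := by
      have := (Gamma0 p).mul_mem h1 ((Gamma0 p).inv_mem h2)
      convert this using 1
      group
    obtain ⟨y, -, hy⟩ := existsUnique_cosetRep p (cosetRep p x)
    have e1 : x = y := hy x (by
      show cosetRep p x * (cosetRep p x)⁻¹ ∈ Gamma0 p
      rw [mul_inv_cancel]; exact (Gamma0 p).one_mem)
    have e2 : x' = y := hy x' h3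
    rw [e1, e2]
  exact ⟨Equiv.ofBijective s (Finite.injective_iff_bijective.1 hinj), hs⟩

/-- The translates of a level `p` form by the coset representatives form an equivariant family. -/
theorem family_perm (p : ℕ) [Fact p.Prime] (k : ℤ) (f : ModularForm (Gamma0 p) k) (g : SL(2, ℤ)) :
    ∃ σ : Equiv.Perm (Option (Fin p)), ∀ x,
      ((f : ℍ → ℂ) ∣[k] cosetRep p x) ∣[k] g = (f : ℍ → ℂ) ∣[k] cosetRep p (σ x) := by
  obtain ⟨σ, hσ⟩ := exists_cosetPerm p g
  refine ⟨σ, fun x => ?_⟩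
  have h1 : cosetRep p x * g =
      (cosetRep p x * g * (cosetRep p (σ x))⁻¹) * cosetRep p (σ x) := by group
  rw [← SlashAction.slash_mul, h1, SlashAction.slash_mul]
  congr 1
  rw [ModularForm.SL_slash]
  exact SlashInvariantForm.slash_action_eqn f _ (Subgroup.mem_map_of_mem _ (hσ x))

theorem family_mdiff (p : ℕ) [Fact p.Prime] (k : ℤ) (f : ModularForm (Gamma0 p) k)
    (x : Option (Fin p)) : MDifferentiable 𝓘(ℂ) 𝓘(ℂ) ((f : ℍ → ℂ) ∣[k] cosetRep p x) :=
  (ModularFormClass.holo f).slash k _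

theorem family_bdd (p : ℕ) [Fact p.Prime] (k : ℤ) (f : ModularForm (Gamma0 p) k)
    (x : Option (Fin p)) : IsBoundedAtImInfty ((f : ℍ → ℂ) ∣[k] cosetRep p x) := by
  have hp : p.Prime := Fact.out
  have : NeZero p := ⟨hp.ne_zero⟩
  exact ModularFormClass.bdd_at_infty_slash f (cosetRep p x)

end Fermat.Agent.S16
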