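import Mathlib
import Fermat.Agent.S16.Defs
import Fermat.Agent.S16.SigmaP
import Fermat.Agent.S23.DeltaN
import Fermat.Agent.S24.Ramanujan
import Fermat.Prelude.Thm_ModularFormClass_qCoeff_heckeU
import Fermat.Prelude.Thm_UpperHalfPlane_eq_of_forall_qCoeff_eq
import Fermat.Prelude.Thm_CongruenceSubgroup_one_mem_strictPeriods_Gamma0

/-!
# S16: the weight two Eisenstein series of prime level

`eisP p` is the function `z ↦ (p E₂(p z) - E₂(z)) / 24`, packaged as a modular form of weight two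
on `Γ₀(p)`.  Its `q`-expansion is `(p - 1) / 24 + ∑_{k ≥ 1} sigmaP p k q ^ k`, and it is fixed by
the Hecke operator `U_p`.

Construction: `eisFun p = 24⁻¹ • (E₂ ∣[2] diag(p, 1) - E₂)`.
* Invariance under `Γ₀(p)`: for `γ ∈ Γ₀(p)` one has `diag(p, 1) γ = γ' diag(p, 1)` with
  `γ' ∈ SL(2, ℤ)`, and the correction terms `D₂` of the quasi-modular form `E₂` cancel.
* Boundedness at the cusps: `E₂` is bounded at every rational cusp (`E₂ ∣[2] g = E₂ - κ D₂ g` with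
  `D₂ g` bounded at `i∞`), and `diag(p, 1)` maps rational cusps to rational cusps.

All auxiliary declarations live in the namespace `Fermat.Agent.S16.Eis`.
-/

set_option autoImplicit false

namespace Fermat.Agent.S16

open ModularCurve CuspForm UpperHalfPlane CongruenceSubgroup
open scoped MatrixGroups ModularForm Manifold Real

namespace Eis

open EisensteinSeries ModularForm Matrix.SpecialLinearGroup

/-- The function `(p E₂(p z) - E₂(z)) / 24`. -/
noncomputable def eisFun (p : ℕ) : ℍ → ℂ :=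
  (24 : ℂ)⁻¹ • (E2 ∣[(2 : ℤ)] heckeDiagMatrix p - E2)

theorem eisFun_apply (p : ℕ) (hp : p ≠ 0) (τ : ℍ) :
    eisFun p τ = (24 : ℂ)⁻¹ * ((p : ℂ) * E2 (heckeDiagMatrix p • τ) - E2 τ) := by
  simp [eisFun, slash_heckeDiagMatrix_apply 2 hp]

theorem D2_slash_diag (p : ℕ) (hp : p ≠ 0) (g g' : SL(2, ℤ))
    (h : heckeDiagMatrix p * (mapGL ℝ g) = mapGL ℝ g' * heckeDiagMatrix p) :
    D2 g' ∣[(2 : ℤ)] heckeDiagMatrix p = D2 g := by
  have hv := congrArg (fun M : GL (Fin 2) ℝ => (M : Matrix (Fin 2) (Fin 2) ℝ)) h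
  simp only [Units.val_mul, val_heckeDiagMatrix hp] at hv
  have h10 := congrFun (congrFun hv 1) 0
  have h11 := congrFun (congrFun hv 1) 1
  simp [Matrix.mul_apply, Fin.sum_univ_two] at h10 h11
  have h10' : ((g 1 0 : ℤ) : ℂ) = ((g' 1 0 : ℤ) : ℂ) * (p : ℂ) := by
    have := congrArg (fun x : ℝ => (x : ℂ)) h10
    push_cast at this
    exact this
  ext z
  rw [slash_heckeDiagMatrix_apply 2 hp, show (2 : ℤ) - 1 = 1 by norm_num, zpow_one]
  simp only [D2]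
  rw [ModularGroup.denom_apply, ModularGroup.denom_apply, coe_heckeDiagMatrix_smul hp, h10', h11]
  have hd : ((g' 1 0 : ℤ) : ℂ) * ((p : ℂ) * (z : ℂ)) + ((g' 1 1 : ℤ) : ℂ) ≠ 0 := by
    have := denom_ne_zero (g' : GL (Fin 2) ℝ) (heckeDiagMatrix p • z)
    rwa [ModularGroup.denom_apply, coe_heckeDiagMatrix_smul hp] at this
  have hd' : ((g' 1 0 : ℤ) : ℂ) * (p : ℂ) * (z : ℂ) + ((g' 1 1 : ℤ) : ℂ) ≠ 0 := by
    rwa [mul_assoc]
  field_simp

/-- `eisFun p` is invariant under the weight two action of `Γ₀(p)`. -/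
theorem eisFun_slash (p : ℕ) [NeZero p] (γ : GL (Fin 2) ℝ)
    (hγ : γ ∈ (Gamma0 p : Subgroup (GL (Fin 2) ℝ))) :
    eisFun p ∣[(2 : ℤ)] γ = eisFun p := by
  obtain ⟨g', hg'⟩ := S23.exists_conj_of_mem_Γ0 p hγ
  obtain ⟨g, hg, rfl⟩ := Subgroup.mem_map.mp hγ
  have h1 : (E2 ∣[(2 : ℤ)] heckeDiagMatrix p) ∣[(2 : ℤ)] g =
      E2 ∣[(2 : ℤ)] heckeDiagMatrix p - (1 / (2 * riemannZeta 2)) • D2 g := by
    show (E2 ∣[(2 : ℤ)] heckeDiagMatrix p) ∣[(2 : ℤ)] (mapGL ℝ g) = _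
    rw [← SlashAction.slash_mul, hg', SlashAction.slash_mul]
    have h3 : E2 ∣[(2 : ℤ)] (mapGL ℝ g') = E2 - (1 / (2 * riemannZeta 2)) • D2 g' :=
      E2_slash_action g'
    rw [h3, sub_eq_add_neg, SlashAction.add_slash, SlashAction.neg_slash, ModularForm.smul_slash,
      σ_heckeDiagMatrix, D2_slash_diag p (NeZero.ne p) g g' hg', ← sub_eq_add_neg]
    rfl
  show eisFun p ∣[(2 : ℤ)] g = eisFun p
  rw [eisFun, SL_smul_slash, sub_eq_add_neg, SlashAction.add_slash, SlashAction.neg_slash, h1,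
    E2_slash_action]
  congr 1
  abel

theorem eisFun_mdiff (p : ℕ) : MDiff (eisFun p) := by
  have h1 : MDiff (E2 ∣[(2 : ℤ)] heckeDiagMatrix p) := E2_mdifferentiable.slash 2 _
  have h2 : MDiff (E2 ∣[(2 : ℤ)] heckeDiagMatrix p - E2) := h1.sub E2_mdifferentiable
  exact h2.const_smul _

theorem isBoundedAtImInfty_D2 (g : SL(2, ℤ)) : IsBoundedAtImInfty (D2 g) := by
  rw [UpperHalfPlane.isBoundedAtImInfty_iff]
  refine ⟨2 * π, 1, fun z hz => ?_⟩
  simp only [D2]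
  by_cases hc : g 1 0 = 0
  · simp [hc]; positivity
  · rw [ModularGroup.denom_apply]
    have h1 : (1 : ℝ) ≤ |((g 1 0 : ℤ) : ℝ)| := by
      rw [← Int.cast_abs]; exact_mod_cast Int.one_le_abs hc
    have h2 : |((g 1 0 : ℤ) : ℝ)| * z.im ≤ ‖((g 1 0 : ℤ) : ℂ) * (z : ℂ) + ((g 1 1 : ℤ) : ℂ)‖ := by
      have := Complex.abs_im_le_norm (((g 1 0 : ℤ) : ℂ) * (z : ℂ) + ((g 1 1 : ℤ) : ℂ))
      simpa [abs_mul, abs_of_pos z.im_pos] using this
    have h3 : 0 < ‖((g 1 0 : ℤ) : ℂ) * (z : ℂ) + ((g 1 1 : ℤ) : ℂ)‖ := by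
      have : 0 < |((g 1 0 : ℤ) : ℝ)| * z.im := by positivity
      linarith
    rw [norm_div, div_le_iff₀ h3]
    have h4 : ‖2 * (π : ℂ) * Complex.I * ((g 1 0 : ℤ) : ℂ)‖ = 2 * π * |((g 1 0 : ℤ) : ℝ)| := by
      simp [abs_of_pos Real.pi_pos]
    rw [h4]
    have h5 : |((g 1 0 : ℤ) : ℝ)| ≤ |((g 1 0 : ℤ) : ℝ)| * z.im := by
      nlinarith [abs_nonneg ((g 1 0 : ℤ) : ℝ)]
    have := Real.pi_pos
    nlinarith

theorem isBoundedAt_E2 {c : OnePoint ℝ} (hc : IsCusp c 𝒮ℒ) : c.IsBoundedAt E2 2 := by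
  rw [OnePoint.isBoundedAt_iff_forall_SL2Z hc]
  intro γ _
  rw [E2_slash_action]
  exact isBoundedAtImInfty_E2.sub (Filter.BoundedAtFilter.smul _ (isBoundedAtImInfty_D2 γ))

theorem exists_heckeDiagMatrix_eq_map (p : ℕ) :
    ∃ g : GL (Fin 2) ℚ, heckeDiagMatrix p = Matrix.GeneralLinearGroup.map (Rat.castHom ℝ) g := by
  rcases eq_or_ne p 0 with rfl | hp
  · exact ⟨1, by rw [heckeDiagMatrix_zero, map_one]⟩
  · refine ⟨Matrix.GeneralLinearGroup.mkOfDetNeZero !![(p : ℚ), 0; 0, 1]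
      (by rw [Matrix.det_fin_two_of]; simpa using hp), ?_⟩
    ext i j
    fin_cases i <;> fin_cases j <;>
      simp [heckeDiagMatrix, hp, upperTriangularGL, Matrix.GeneralLinearGroup.mkOfDetNeZero]

theorem isCusp_ratCast_smul {c : OnePoint ℝ} (hc : IsCusp c 𝒮ℒ) (g : GL (Fin 2) ℚ) :
    IsCusp (Matrix.GeneralLinearGroup.map (Rat.castHom ℝ) g • c) 𝒮ℒ := by
  rw [isCusp_SL2Z_iff] at hc ⊢
  obtain ⟨c, rfl⟩ := hc
  exact ⟨g • c, by rw [← Rat.coe_castHom, OnePoint.map_smul]⟩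

theorem isBoundedAt_eisFun (p : ℕ) {c : OnePoint ℝ} (hc : IsCusp c 𝒮ℒ) :
    c.IsBoundedAt (eisFun p) 2 := by
  have h1 : c.IsBoundedAt (E2 ∣[(2 : ℤ)] heckeDiagMatrix p) 2 := by
    obtain ⟨g, hg⟩ := exists_heckeDiagMatrix_eq_map p
    rw [hg]
    exact OnePoint.IsBoundedAt.smul_iff.mp (isBoundedAt_E2 (isCusp_ratCast_smul hc g))
  have h2 := isBoundedAt_E2 hc
  intro g hg
  have h3 : IsBoundedAtImInfty
      ((E2 ∣[(2 : ℤ)] heckeDiagMatrix p) ∣[(2 : ℤ)] g - E2 ∣[(2 : ℤ)] g) :=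
    (h1 g hg).sub (h2 g hg)
  rw [eisFun, ModularForm.smul_slash, sub_eq_add_neg, SlashAction.add_slash,
    SlashAction.neg_slash, ← sub_eq_add_neg]
  exact Filter.BoundedAtFilter.smul _ h3

/-- The `q`-expansion coefficients of `E₂`. -/
noncomputable def e2Coeff (m : ℕ) : ℂ :=
  if m = 0 then 1 else -24 * (ArithmeticFunction.sigma 1 m : ℂ)

/-- The `q`-expansion coefficients of `eisFun p`. -/
noncomputable def eisCoeff (p n : ℕ) : ℂ :=
  (24 : ℂ)⁻¹ * ((p : ℂ) * (if p ∣ n then e2Coeff (n / p) else 0) - e2Coeff n)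

theorem hasSum_dilate {c : ℕ → ℂ} {q a : ℂ} (p : ℕ) (hp : 0 < p)
    (h : HasSum (fun m : ℕ => c m • (q ^ p) ^ m) a) :
    HasSum (fun n : ℕ => (if p ∣ n then c (n / p) else 0) • q ^ n) a := by
  have hinj : Function.Injective (fun m : ℕ => p * m) := fun a b hab =>
    Nat.eq_of_mul_eq_mul_left hp hab
  refine (Function.Injective.hasSum_iff hinj ?_).mp ?_
  · intro n hn
    have hnd : ¬ p ∣ n := fun ⟨m, hm⟩ => hn ⟨m, hm.symm⟩
    simp [hnd]
  · have h2 : (fun n : ℕ => (if p ∣ n then c (n / p) else 0) • q ^ n) ∘ (fun m : ℕ => p * m) =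
        fun m : ℕ => c m • (q ^ p) ^ m := by
      funext m
      simp only [Function.comp_apply, dvd_mul_right, if_true, Nat.mul_div_cancel_left _ hp,
        pow_mul]
    rw [h2]
    exact h

theorem hasSum_eisFun (p : ℕ) (hp : p ≠ 0) (τ : ℍ) :
    HasSum (fun n : ℕ => eisCoeff p n • Function.Periodic.qParam 1 τ ^ n) (eisFun p τ) := by
  have h1 := S24.Ramanujan.hasSum_E2 (heckeDiagMatrix p • τ)
  rw [coe_heckeDiagMatrix_smul hp, S23.qParam_nat_mul] at h1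
  have h2 := hasSum_dilate (c := e2Coeff) p (Nat.pos_of_ne_zero hp) h1
  have h3 : HasSum (fun m : ℕ => e2Coeff m • Function.Periodic.qParam 1 τ ^ m) (E2 τ) :=
    S24.Ramanujan.hasSum_E2 τ
  have h4 := ((h2.mul_left (p : ℂ)).sub h3).mul_left (24 : ℂ)⁻¹
  rw [eisFun_apply p hp]
  have h5 : (fun n : ℕ => eisCoeff p n • Function.Periodic.qParam 1 τ ^ n) =
      fun i : ℕ => (24 : ℂ)⁻¹ *
        ((p : ℂ) * (if p ∣ i then e2Coeff (i / p) else 0) • Function.Periodic.qParam 1 τ ^ i -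
          e2Coeff i • Function.Periodic.qParam 1 τ ^ i) := by
    funext n
    simp only [eisCoeff, smul_eq_mul]
    ring
  rw [h5]
  exact h4

theorem eisCoeff_zero (p : ℕ) : eisCoeff p 0 = ((p : ℂ) - 1) / 24 := by
  simp [eisCoeff, e2Coeff]
  ring

theorem eisCoeff_pos (p k : ℕ) (hp : p.Prime) (hk : 1 ≤ k) : eisCoeff p k = (sigmaP p k : ℂ) := by
  have h := sigmaP_eq_sigma p k hp hk
  have h' : (sigmaP p k : ℂ) = (ArithmeticFunction.sigma 1 k : ℂ) -
      (if p ∣ k then (p : ℂ) * (ArithmeticFunction.sigma 1 (k / p) : ℂ) else 0) := by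
    have := congrArg (fun x : ℤ => (x : ℂ)) h
    push_cast at this
    exact this
  rw [h']
  have hk0 : k ≠ 0 := by omega
  by_cases hd : p ∣ k
  · have hkp : k / p ≠ 0 := by
      obtain ⟨m, rfl⟩ := hd
      rw [Nat.mul_div_cancel_left _ hp.pos]
      rintro rfl
      simp at hk0
    simp only [eisCoeff, e2Coeff, if_pos hd, if_neg hk0, if_neg hkp]
    ring
  · simp only [eisCoeff, e2Coeff, if_neg hd, if_neg hk0]
    ring

end Eis

/-- The weight two Eisenstein series `(p E₂(p z) - E₂(z)) / 24` of level `p`. -/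
noncomputable def eisP (p : ℕ) [Fact p.Prime] : ModularForm (Gamma0 p) 2 where
  toFun := Eis.eisFun p
  slash_action_eq' γ hγ := Eis.eisFun_slash p γ hγ
  holo' := Eis.eisFun_mdiff p
  bdd_at_cusps' hc := by
    rw [Subgroup.IsArithmetic.isCusp_iff_isCusp_SL2Z] at hc
    exact Eis.isBoundedAt_eisFun p hc

namespace Eis

theorem coe_eisP (p : ℕ) [Fact p.Prime] : ⇑(eisP p) = eisFun p := rfl

/-- The defining formula: `eisP p z = (p E₂(p z) - E₂(z)) / 24`. -/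
theorem eisP_apply (p : ℕ) [Fact p.Prime] (τ : ℍ) :
    eisP p τ = (24 : ℂ)⁻¹ *
      ((p : ℂ) * EisensteinSeries.E2 (ModularForm.heckeDiagMatrix p • τ) -
        EisensteinSeries.E2 τ) :=
  eisFun_apply p (Fact.out : p.Prime).ne_zero τ

theorem qCoeff_eisP_eq (p : ℕ) [Fact p.Prime] (n : ℕ) :
    ModularFormClass.qCoeff (eisP p) n = eisCoeff p n := by
  have hp : p.Prime := Fact.out
  have h := ModularFormClass.qExpansion_coeff_unique (h := 1) (f := eisP p)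
    (c := eisCoeff p) one_pos (CongruenceSubgroup.one_mem_strictPeriods_Gamma0 p)
    (fun τ => hasSum_eisFun p hp.ne_zero τ) n
  exact h.symm

end Eis

theorem qCoeff_eisP_zero (p : ℕ) [Fact p.Prime] :
    ModularFormClass.qCoeff (eisP p) 0 = ((p : ℂ) - 1) / 24 := by
  rw [Eis.qCoeff_eisP_eq, Eis.eisCoeff_zero]

theorem qCoeff_eisP (p : ℕ) [Fact p.Prime] (k : ℕ) (hk : 1 ≤ k) :
    ModularFormClass.qCoeff (eisP p) k = (sigmaP p k : ℂ) := by
  rw [Eis.qCoeff_eisP_eq, Eis.eisCoeff_pos p k Fact.out hk]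

theorem heckeULin_eisP (p : ℕ) [Fact p.Prime] :
    ModularForm.heckeULin 2 (dvd_refl p) (eisP p) = eisP p := by
  have hp : p.Prime := Fact.out
  have hΓ := CongruenceSubgroup.one_mem_strictPeriods_Gamma0 p
  apply DFunLike.coe_injective
  have hU := S23.isQF_of_Γ0 (ModularForm.heckeULin 2 (dvd_refl p) (eisP p))
  have hE := S23.isQF_of_Γ0 (eisP p)
  refine UpperHalfPlane.eq_of_forall_qCoeff_eq hU.per hU.holo hU.bdd hE.per hE.holo hE.bdd ?_
  intro n
  rw [ModularForm.coe_heckeULin_apply, ModularFormClass.qCoeff_heckeU (eisP p) hΓ hp.ne_zero n,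
    ModularForm.coeffHeckeU_apply]
  rcases Nat.eq_zero_or_pos n with rfl | hn
  · simp
  · rw [qCoeff_eisP p _ (Nat.mul_pos hn hp.pos), qCoeff_eisP p n hn, sigmaP_mul_self p n hp hn]

end Fermat.Agent.S16
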