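import Mathlib
import Fermat.Agent.S16.Defs

/-!
# S16: level one forms from `SL(2, ℤ)`-stable finite families

A finite family of holomorphic functions on the upper half plane, each bounded at `i∞`, which is
permuted by the weight `k` slash action of every element of `SL(2, ℤ)`, has a product which is a
modular form of level one and weight `k * card`, and a sum which is a modular form of level one
and weight `k`.
-/

set_option autoImplicit false

namespace Fermat.Agent.S16

open ModularCurve CuspForm UpperHalfPlane CongruenceSubgroup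
open scoped MatrixGroups ModularForm Manifold Real

namespace NormFam

/-- A holomorphic function which is bounded at `i∞` and invariant under the weight `k` slash
action of `SL(2, ℤ)` is a modular form of level one and weight `k`. -/
theorem exists_levelOne_of_slash_SL (k : ℤ) (f : ℍ → ℂ)
    (hhol : MDifferentiable 𝓘(ℂ) 𝓘(ℂ) f)
    (hbdd : IsBoundedAtImInfty f)
    (hinv : ∀ g : SL(2, ℤ), f ∣[k] g = f) :
    ∃ N : ModularForm 𝒮ℒ k, ∀ z, N z = f z := by
  refine ⟨{ toFun := f, slash_action_eq' := ?_, holo' := hhol, bdd_at_cusps' := ?_ },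
    fun z => rfl⟩
  · rintro γ ⟨g, rfl⟩
    exact hinv g
  · intro c hc
    rw [OnePoint.isBoundedAt_iff_forall_SL2Z hc]
    intro γ _
    rw [hinv γ]
    exact hbdd

/-- The slash action of `SL(2, ℤ)` on a finite product of functions of the same weight. -/
theorem prod_slash_SL {ι : Type*} [Fintype ι] (k : ℤ) (F : ι → ℍ → ℂ) (g : SL(2, ℤ)) :
    (∏ i, F i) ∣[k * (Fintype.card ι : ℤ)] g = ∏ i, F i ∣[k] g := by
  rw [ModularForm.SL_slash, ← Finset.card_univ, ModularForm.prod_slash]
  simp [ModularForm.SL_slash]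

/-- A finite product of functions bounded at `i∞` is bounded at `i∞`. -/
theorem isBoundedAtImInfty_prod {ι : Type*} (s : Finset ι) (F : ι → ℍ → ℂ)
    (hbdd : ∀ i ∈ s, IsBoundedAtImInfty (F i)) : IsBoundedAtImInfty (∏ i ∈ s, F i) := by
  classical
  induction s using Finset.induction_on with
  | empty =>
    rw [Finset.prod_empty]
    exact Filter.const_boundedAtFilter _ (1 : ℂ)
  | insert a s ha ih =>
    rw [Finset.prod_insert ha]
    exact Filter.BoundedAtFilter.mul (hbdd a (Finset.mem_insert_self a s))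
      (ih fun i hi => hbdd i (Finset.mem_insert_of_mem hi))

/-- A finite sum of functions bounded at `i∞` is bounded at `i∞`. -/
theorem isBoundedAtImInfty_sum {ι : Type*} (s : Finset ι) (F : ι → ℍ → ℂ)
    (hbdd : ∀ i ∈ s, IsBoundedAtImInfty (F i)) : IsBoundedAtImInfty (∑ i ∈ s, F i) := by
  classical
  induction s using Finset.induction_on with
  | empty =>
    rw [Finset.sum_empty]
    exact Filter.const_boundedAtFilter _ (0 : ℂ)
  | insert a s ha ih =>
    rw [Finset.sum_insert ha]
    exact Filter.BoundedAtFilter.add (hbdd a (Finset.mem_insert_self a s))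
      (ih fun i hi => hbdd i (Finset.mem_insert_of_mem hi))

/-- A finite product of holomorphic functions is holomorphic (any universe for the index). -/
theorem mdifferentiable_prod {ι : Type*} (s : Finset ι) (F : ι → ℍ → ℂ)
    (hhol : ∀ i ∈ s, MDifferentiable 𝓘(ℂ) 𝓘(ℂ) (F i)) :
    MDifferentiable 𝓘(ℂ) 𝓘(ℂ) (∏ i ∈ s, F i) := by
  classical
  induction s using Finset.induction_on with
  | empty =>
    rw [Finset.prod_empty]
    exact mdifferentiable_const
  | insert a s ha ih =>
    rw [Finset.prod_insert ha]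
    exact (hhol a (Finset.mem_insert_self a s)).mul
      (ih fun i hi => hhol i (Finset.mem_insert_of_mem hi))

/-- A finite sum of holomorphic functions is holomorphic (any universe for the index). -/
theorem mdifferentiable_sum {ι : Type*} (s : Finset ι) (F : ι → ℍ → ℂ)
    (hhol : ∀ i ∈ s, MDifferentiable 𝓘(ℂ) 𝓘(ℂ) (F i)) :
    MDifferentiable 𝓘(ℂ) 𝓘(ℂ) (∑ i ∈ s, F i) := by
  classical
  induction s using Finset.induction_on with
  | empty =>
    rw [Finset.sum_empty]
    exact mdifferentiable_const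
  | insert a s ha ih =>
    rw [Finset.sum_insert ha]
    exact (hhol a (Finset.mem_insert_self a s)).add
      (ih fun i hi => hhol i (Finset.mem_insert_of_mem hi))

end NormFam

theorem exists_levelOne_prod {ι : Type*} [Fintype ι] (k : ℤ) (F : ι → ℍ → ℂ)
    (hhol : ∀ i, MDifferentiable 𝓘(ℂ) 𝓘(ℂ) (F i))
    (hbdd : ∀ i, IsBoundedAtImInfty (F i))
    (hperm : ∀ g : SL(2, ℤ), ∃ σ : Equiv.Perm ι, ∀ i, F i ∣[k] g = F (σ i)) :
    ∃ N : ModularForm 𝒮ℒ (k * (Fintype.card ι : ℤ)), ∀ z, N z = ∏ i, F i z := by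
  obtain ⟨N, hN⟩ := NormFam.exists_levelOne_of_slash_SL (k * (Fintype.card ι : ℤ)) (∏ i, F i)
    (NormFam.mdifferentiable_prod Finset.univ F fun i _ => hhol i)
    (NormFam.isBoundedAtImInfty_prod Finset.univ F fun i _ => hbdd i)
    (fun g => by
      obtain ⟨σ, hσ⟩ := hperm g
      rw [NormFam.prod_slash_SL]
      simp_rw [hσ]
      exact Equiv.prod_comp σ F)
  exact ⟨N, fun z => by rw [hN z, Finset.prod_apply]⟩

theorem exists_levelOne_sum {ι : Type*} [Fintype ι] (k : ℤ) (F : ι → ℍ → ℂ)
    (hhol : ∀ i, MDifferentiable 𝓘(ℂ) 𝓘(ℂ) (F i))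
    (hbdd : ∀ i, IsBoundedAtImInfty (F i))
    (hperm : ∀ g : SL(2, ℤ), ∃ σ : Equiv.Perm ι, ∀ i, F i ∣[k] g = F (σ i)) :
    ∃ N : ModularForm 𝒮ℒ k, ∀ z, N z = ∑ i, F i z := by
  obtain ⟨N, hN⟩ := NormFam.exists_levelOne_of_slash_SL k (∑ i, F i)
    (NormFam.mdifferentiable_sum Finset.univ F fun i _ => hhol i)
    (NormFam.isBoundedAtImInfty_sum Finset.univ F fun i _ => hbdd i)
    (fun g => by
      obtain ⟨σ, hσ⟩ := hperm g
      rw [SlashAction.sum_slash]
      simp_rw [hσ]
      exact Equiv.sum_comp σ F)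
  exact ⟨N, fun z => by rw [hN z, Finset.sum_apply]⟩

end Fermat.Agent.S16
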