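import Mathlib
import Fermat.Agent.S16.Defs
import Fermat.Prelude.Thm_CongruenceSubgroup_one_mem_strictPeriods_Gamma0

/-!
# S16: the calculus of `q^{1/h}`-expansions

`HasQExp h F P` says that the function `F` on the upper half plane is the sum of the series
`∑ₙ Pₙ exp(2πi n z / h)`.  We prove the basic calculus (sums, products, scalar multiples,
change of the period, translates by `z ↦ (z + i)/p`), the uniqueness of such expansions, and
that modular forms of level `Γ₀(N)` have their usual `q`-expansion in this sense.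
-/

set_option autoImplicit false

namespace Fermat.Agent.S16

open ModularCurve CuspForm UpperHalfPlane CongruenceSubgroup
open scoped MatrixGroups ModularForm Manifold Real

/-- `F` has the `q^{1/h}`-expansion `P`: `F z = ∑ₙ Pₙ exp(2πi n z / h)` for every `z`. -/
def HasQExp (h : ℕ) (F : ℍ → ℂ) (P : PowerSeries ℂ) : Prop :=
  ∀ z : ℍ, HasSum (fun n : ℕ => PowerSeries.coeff n P * Complex.exp (2 * π * Complex.I * n * z / h))
    (F z)

/-- `P(x^d)`. -/
noncomputable def expandPS (d : ℕ) (P : PowerSeries ℂ) : PowerSeries ℂ :=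
  PowerSeries.mk fun n => if d ∣ n then PowerSeries.coeff (n / d) P else 0

namespace QX

/-- the exponential `exp(2πi n z / h)` is the `n`-th power of the parameter `q^{1/h}` -/
theorem exp_eq_qParam_pow (h : ℕ) (n : ℕ) (z : ℂ) :
    Complex.exp (2 * π * Complex.I * n * z / h) = Function.Periodic.qParam (h : ℝ) z ^ n := by
  rw [Function.Periodic.qParam, ← Complex.exp_nat_mul]
  congr 1
  push_cast
  ring

/-- `HasQExp` in terms of Mathlib's parameter `𝕢 h z = exp(2πi z / h)`. -/
theorem hasSum_iff (h : ℕ) (c : ℕ → ℂ) (z : ℂ) (a : ℂ) :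
    HasSum (fun n : ℕ => c n * Complex.exp (2 * π * Complex.I * n * z / h)) a ↔
      HasSum (fun n : ℕ => c n • Function.Periodic.qParam (h : ℝ) z ^ n) a := by
  simp only [exp_eq_qParam_pow, smul_eq_mul]

/-- A power series in `q = exp(2πi z / h)` which sums to zero everywhere on the upper half plane
has vanishing coefficients. -/
theorem coeff_eq_zero_of_hasSum_zero (h : ℝ) (hh : 0 < h) (c : ℕ → ℂ)
    (hc : ∀ τ : ℍ, HasSum (fun m : ℕ => c m • Function.Periodic.qParam h τ ^ m) 0) (m : ℕ) :
    c m = 0 := by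
  have hz : cuspFunction h (0 : ℍ → ℂ) = 0 := by
    simpa [cuspFunction, Function.Periodic.cuspFunction]
      using! (tendsto_const_nhds.mono_left nhdsWithin_le_nhds).limUnder_eq
  have han : AnalyticAt ℂ (cuspFunction h ((0 : C(ℍ, ℂ)) : ℍ → ℂ)) 0 := by
    rw [ContinuousMap.coe_zero, hz]; exact analyticAt_const
  have := UpperHalfPlane.qExpansion_coeff_unique (0 : C(ℍ, ℂ)) hh han (c := c)
    (by simpa using hc) m
  rw [ContinuousMap.coe_zero, qExpansion_zero] at this
  simpa using this

end QX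

theorem HasQExp.expand {h : ℕ} {F : ℍ → ℂ} {P : PowerSeries ℂ} (hF : HasQExp h F P) (d : ℕ)
    (hd : 0 < d) : HasQExp (h * d) F (expandPS d P) := by
  intro z
  have hinj : Function.Injective (fun n : ℕ => d * n) := fun a b hab =>
    Nat.eq_of_mul_eq_mul_left hd hab
  have hd' : (d : ℂ) ≠ 0 := Nat.cast_ne_zero.mpr hd.ne'
  rw [← hinj.hasSum_iff]
  · have heq : ((fun n : ℕ => PowerSeries.coeff n (expandPS d P) *
        Complex.exp (2 * π * Complex.I * n * z / (h * d : ℕ))) ∘ fun n : ℕ => d * n) =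
        fun n : ℕ => PowerSeries.coeff n P * Complex.exp (2 * π * Complex.I * n * z / h) := by
      funext n
      simp only [Function.comp_apply, expandPS, PowerSeries.coeff_mk, dvd_mul_right, if_true,
        Nat.mul_div_cancel_left n hd]
      congr 2
      push_cast
      rw [show 2 * (π : ℂ) * Complex.I * ((d : ℂ) * n) * z = (2 * π * Complex.I * n * z) * d by
        ring, mul_div_mul_right _ _ hd']
    rw [heq]
    exact hF z
  · intro n hn
    have hdn : ¬ d ∣ n := fun ⟨c, hc⟩ => hn ⟨c, hc.symm⟩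
    simp [expandPS, hdn]

theorem HasQExp.add {h : ℕ} {F G : ℍ → ℂ} {P Q : PowerSeries ℂ} (hF : HasQExp h F P)
    (hG : HasQExp h G Q) : HasQExp h (F + G) (P + Q) := by
  intro z
  simpa [add_mul] using (hF z).add (hG z)

theorem HasQExp.mul {h : ℕ} {F G : ℍ → ℂ} {P Q : PowerSeries ℂ} (hF : HasQExp h F P)
    (hG : HasQExp h G Q) : HasQExp h (F * G) (P * Q) := by
  intro z
  have hf := (hF z).summable.norm
  have hg := (hG z).summable.norm
  have hterm : ∀ n : ℕ, ∑ kl ∈ Finset.HasAntidiagonal.antidiagonal n,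
      (PowerSeries.coeff kl.1 P * Complex.exp (2 * π * Complex.I * kl.1 * z / h)) *
        (PowerSeries.coeff kl.2 Q * Complex.exp (2 * π * Complex.I * kl.2 * z / h)) =
      PowerSeries.coeff n (P * Q) * Complex.exp (2 * π * Complex.I * n * z / h) := by
    intro n
    rw [PowerSeries.coeff_mul, Finset.sum_mul]
    refine Finset.sum_congr rfl fun kl hkl => ?_
    have hn : (n : ℂ) = (kl.1 : ℂ) + kl.2 := by
      rw [← Finset.HasAntidiagonal.mem_antidiagonal.mp hkl]; push_cast; rfl
    rw [hn, show 2 * (π : ℂ) * Complex.I * ((kl.1 : ℂ) + kl.2) * z / h =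
      2 * π * Complex.I * kl.1 * z / h + 2 * π * Complex.I * kl.2 * z / h by ring, Complex.exp_add]
    ring
  have hsum : Summable fun n : ℕ =>
      PowerSeries.coeff n (P * Q) * Complex.exp (2 * π * Complex.I * n * z / h) := by
    have := summable_norm_sum_mul_antidiagonal_of_summable_norm hf hg
    simp only [hterm] at this
    exact this.of_norm
  have htsum := tsum_mul_tsum_eq_tsum_sum_antidiagonal_of_summable_norm hf hg
  simp only [hterm] at htsum
  rw [(hF z).tsum_eq, (hG z).tsum_eq] at htsum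
  rw [Pi.mul_apply, htsum]
  exact hsum.hasSum

theorem HasQExp.smul {h : ℕ} {F : ℍ → ℂ} {P : PowerSeries ℂ} (hF : HasQExp h F P) (c : ℂ) :
    HasQExp h (c • F) (c • P) := by
  intro z
  simpa [mul_assoc] using (hF z).mul_left c

/-- uniqueness of `q^{1/h}`-expansions -/
theorem HasQExp.unique {h : ℕ} (hh : 0 < h) {F : ℍ → ℂ} {P Q : PowerSeries ℂ} (hP : HasQExp h F P)
    (hQ : HasQExp h F Q) : P = Q := by
  have hh' : (0 : ℝ) < (h : ℝ) := Nat.cast_pos.mpr hh
  have hc : ∀ τ : ℍ, HasSum (fun m : ℕ => (PowerSeries.coeff m P - PowerSeries.coeff m Q) •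
      Function.Periodic.qParam (h : ℝ) τ ^ m) 0 := by
    intro τ
    have := (hP τ).sub (hQ τ)
    rw [sub_self] at this
    rw [← QX.hasSum_iff]
    simpa only [sub_mul] using this
  ext m
  exact sub_eq_zero.mp (QX.coeff_eq_zero_of_hasSum_zero (h : ℝ) hh' _ hc m)

/-- modular forms of level `Γ₀(N)` (period one) -/
theorem hasQExp_modularForm (N : ℕ) [NeZero N] (k : ℤ) (f : ModularForm (Gamma0 N) k) :
    HasQExp 1 f (qExpansion 1 f) := by
  intro z
  rw [QX.hasSum_iff, Nat.cast_one]
  exact UpperHalfPlane.hasSum_qExpansion (h := 1) one_pos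
    (SlashInvariantFormClass.periodic_comp_ofComplex f (one_mem_strictPeriods_Gamma0 N))
    (ModularFormClass.holo f) (ModularFormClass.bdd_at_infty f) z

theorem hasQExp_levelOne (k : ℤ) (f : ModularForm 𝒮ℒ k) : HasQExp 1 f (qExpansion 1 f) := by
  intro z
  rw [QX.hasSum_iff, Nat.cast_one]
  exact UpperHalfPlane.hasSum_qExpansion (h := 1) one_pos
    (SlashInvariantFormClass.periodic_comp_ofComplex f one_mem_strictPeriods_SL)
    (ModularFormClass.holo f) (ModularFormClass.bdd_at_infty f) z

/-- `z ↦ F((z + i)/p)` has the `q^{1/p}`-expansion `∑ aₙ ζ^{in} xⁿ`, `ζ = exp(2πi/p)`. -/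
theorem HasQExp.shift {F : ℍ → ℂ} {P : PowerSeries ℂ} (hF : HasQExp 1 F P) (p : ℕ) (hp : 0 < p)
    (i : ℕ) :
    HasQExp p (fun z => F (ModularForm.heckeMatrix p i • z))
      (PowerSeries.rescale (Complex.exp (2 * π * Complex.I * i / p)) P) := by
  intro z
  have heq : (fun n : ℕ => PowerSeries.coeff n
        (PowerSeries.rescale (Complex.exp (2 * π * Complex.I * i / p)) P) *
        Complex.exp (2 * π * Complex.I * n * z / p)) =
      fun n : ℕ => PowerSeries.coeff n P * Complex.exp (2 * π * Complex.I * n *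
        ((ModularForm.heckeMatrix p i • z : ℍ) : ℂ) / (1 : ℕ)) := by
    funext n
    rw [PowerSeries.coeff_rescale, ModularForm.coe_heckeMatrix_smul hp.ne', ← Complex.exp_nat_mul,
      mul_comm (Complex.exp _) (PowerSeries.coeff n P), mul_assoc, ← Complex.exp_add]
    congr 2
    push_cast
    ring
  rw [heq]
  exact hF (ModularForm.heckeMatrix p i • z)

namespace QX

theorem hasQExp_one (h : ℕ) : HasQExp h (fun _ => 1) 1 := by
  intro z
  convert hasSum_single (α := ℂ) (f := fun n : ℕ => PowerSeries.coeff n (1 : PowerSeries ℂ) *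
    Complex.exp (2 * π * Complex.I * n * z / h)) 0 ?_ using 1
  · simp
  · intro n hn
    simp [PowerSeries.coeff_one, hn]

theorem hasQExp_zero (h : ℕ) : HasQExp h (fun _ => 0) 0 := by
  intro z
  simp only [map_zero, zero_mul]
  exact hasSum_zero

theorem hasQExp_prod {ι : Type*} (h : ℕ) (F : ι → ℍ → ℂ) (P : ι → PowerSeries ℂ)
    (hP : ∀ i, HasQExp h (F i) (P i)) (s : Finset ι) :
    HasQExp h (fun z => ∏ i ∈ s, F i z) (∏ i ∈ s, P i) := by
  classical
  induction s using Finset.induction_on with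
  | empty => simpa using hasQExp_one h
  | insert a s ha ih =>
    simp only [Finset.prod_insert ha]
    exact (hP a).mul ih

theorem hasQExp_sum {ι : Type*} (h : ℕ) (F : ι → ℍ → ℂ) (P : ι → PowerSeries ℂ)
    (hP : ∀ i, HasQExp h (F i) (P i)) (s : Finset ι) :
    HasQExp h (fun z => ∑ i ∈ s, F i z) (∑ i ∈ s, P i) := by
  classical
  induction s using Finset.induction_on with
  | empty => simpa using hasQExp_zero h
  | insert a s ha ih =>
    simp only [Finset.sum_insert ha]
    exact (hP a).add ih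

end QX

/-- the `q`-expansion of a level one form which is a finite product of functions with
`q^{1/h}`-expansions -/
theorem coeff_prod_eq {ι : Type*} [Fintype ι] (h : ℕ) (hh : 0 < h) (F : ι → ℍ → ℂ)
    (P : ι → PowerSeries ℂ) (hP : ∀ i, HasQExp h (F i) (P i)) (k : ℤ) (N : ModularForm 𝒮ℒ k)
    (hN : ∀ z, N z = ∏ i, F i z) : ∏ i, P i = expandPS h (qExpansion 1 N) := by
  have h1 := (hasQExp_levelOne k N).expand h hh
  rw [one_mul] at h1
  have h2 := QX.hasQExp_prod h F P hP Finset.univ
  have h3 : (fun z => ∏ i, F i z) = (N : ℍ → ℂ) := funext fun z => (hN z).symm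
  rw [h3] at h2
  exact h2.unique hh h1

theorem coeff_sum_eq {ι : Type*} [Fintype ι] (h : ℕ) (hh : 0 < h) (F : ι → ℍ → ℂ)
    (P : ι → PowerSeries ℂ) (hP : ∀ i, HasQExp h (F i) (P i)) (k : ℤ) (N : ModularForm 𝒮ℒ k)
    (hN : ∀ z, N z = ∑ i, F i z) : ∑ i, P i = expandPS h (qExpansion 1 N) := by
  have h1 := (hasQExp_levelOne k N).expand h hh
  rw [one_mul] at h1
  have h2 := QX.hasQExp_sum h F P hP Finset.univ
  have h3 : (fun z => ∑ i, F i z) = (N : ℍ → ℂ) := funext fun z => (hN z).symm
  rw [h3] at h2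
  exact h2.unique hh h1

end Fermat.Agent.S16
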