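import Mathlib
import Fermat.Agent.S16.Defs
import Fermat.Agent.S23.LevelOne
import Fermat.Agent.S22.DeltaInt

/-!
# S16: Sturm's bound in level one, modulo an additive subgroup of `ℂ`

If the `q`-coefficients `a_n` with `12 n ≤ k` of a level one modular form `f` of weight `k`
lie in an additive subgroup `S` of `ℂ`, then all `q`-coefficients of `f` lie in `S`
(`Sturm.sturm_addSubgroup`).  The interface theorem `sturm_mod` is the special case where
`S` is the image in `ℂ` of an ideal `I` of a subring `R` of `ℂ`.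

Proof: induction on the weight. Subtract `a_0 · E₄ ^ a · E₆ ^ b` (integral `q`-expansion with
constant term one), divide the resulting cusp form by `Δ = q + ...` (integral `q`-expansion
with leading coefficient one) and apply the induction hypothesis in weight `k - 12`.
-/

set_option autoImplicit false

namespace Fermat.Agent.S16

open ModularCurve CuspForm UpperHalfPlane CongruenceSubgroup
open scoped MatrixGroups ModularForm Manifold Real

namespace Sturm

open ModularForm EisensteinSeries Fermat.Agent.S23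

/-- Multiplication by a power series with integer coefficients preserves the property that all
coefficients lie in a given additive subgroup of `ℂ`. -/
theorem coeff_mul_mem (S : AddSubgroup ℂ) (D F : PowerSeries ℂ)
    (hD : ∀ n : ℕ, ∃ m : ℤ, PowerSeries.coeff n D = (m : ℂ))
    (hF : ∀ n : ℕ, PowerSeries.coeff n F ∈ S) (n : ℕ) :
    PowerSeries.coeff n (D * F) ∈ S := by
  rw [PowerSeries.coeff_mul]
  refine S.sum_mem fun p _ => ?_
  obtain ⟨m, hm⟩ := hD p.1
  rw [hm, ← zsmul_eq_mul]
  exact S.zsmul_mem (hF _) m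

/-- Division by a power series `D = q + ...` with integer coefficients: if the coefficients of
`D * F` up to degree `n + 1` lie in an additive subgroup `S` of `ℂ`, then so does the `n`-th
coefficient of `F`. -/
theorem coeff_mem_of_mul (S : AddSubgroup ℂ) (D F : PowerSeries ℂ)
    (hD : ∀ n : ℕ, ∃ m : ℤ, PowerSeries.coeff n D = (m : ℂ))
    (hD0 : PowerSeries.coeff 0 D = 0) (hD1 : PowerSeries.coeff 1 D = 1) :
    ∀ n : ℕ, (∀ m : ℕ, m ≤ n + 1 → PowerSeries.coeff m (D * F) ∈ S) →
      PowerSeries.coeff n F ∈ S := by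
  intro n
  induction n using Nat.strong_induction_on with
  | _ n ih =>
    intro h
    have h1 := h (n + 1) le_rfl
    rw [PowerSeries.coeff_mul, Finset.Nat.sum_antidiagonal_succ, hD0, zero_mul, zero_add,
      ← Finset.add_sum_erase _ _
        (show ((0 : ℕ), n) ∈ Finset.HasAntidiagonal.antidiagonal n by simp)] at h1
    simp only [zero_add, hD1, one_mul] at h1
    have h2 : ∑ p ∈ (Finset.HasAntidiagonal.antidiagonal n).erase (0, n),
        PowerSeries.coeff (p.1 + 1) D * PowerSeries.coeff p.2 F ∈ S := by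
      refine S.sum_mem fun p hp => ?_
      obtain ⟨hp1, hp2⟩ := Finset.mem_erase.mp hp
      rw [Finset.HasAntidiagonal.mem_antidiagonal] at hp2
      have hlt : p.2 < n := by
        rcases Nat.eq_zero_or_pos p.1 with h0 | hpos
        · exact absurd (Prod.ext h0 (by simpa [h0] using hp2)) hp1
        · omega
      obtain ⟨m, hm⟩ := hD (p.1 + 1)
      rw [hm, ← zsmul_eq_mul]
      exact S.zsmul_mem (ih p.2 hlt fun j hj => h j (by omega)) m
    have h3 := S.sub_mem h1 h2
    rwa [add_sub_cancel_right] at h3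

/-- The `q`-expansion of `Δ` has integer coefficients. -/
theorem discriminant_int (n : ℕ) :
    ∃ m : ℤ, PowerSeries.coeff n (qExpansion 1 ModularForm.discriminant) = (m : ℂ) :=
  Fermat.Agent.S22.discriminant_qExpansion_int n

/-- The constant coefficient of `Δ` vanishes. -/
theorem discriminant_coeff_zero :
    PowerSeries.coeff 0 (qExpansion 1 ModularForm.discriminant) = 0 := by
  simpa using CuspFormClass.qExpansion_coeff_zero CuspForm.discriminant one_pos
    one_mem_strictPeriods_SL

/-- The first coefficient of `Δ` is one. -/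
theorem discriminant_coeff_one :
    PowerSeries.coeff 1 (qExpansion 1 ModularForm.discriminant) = 1 :=
  ModularForm.discriminant_qExpansion_coeff_one

/-- Sturm's bound in level one for an additive subgroup `S` of `ℂ`, by induction on a bound
`12 * N` for the weight. -/
theorem sturm_aux (S : AddSubgroup ℂ) : ∀ (N : ℕ) (k : ℤ), k < 12 * (N : ℤ) →
    ∀ f : ModularForm 𝒮ℒ k,
      (∀ n : ℕ, 12 * (n : ℤ) ≤ k → PowerSeries.coeff n (qExpansion 1 f) ∈ S) →
      ∀ n : ℕ, PowerSeries.coeff n (qExpansion 1 f) ∈ S := by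
  intro N
  have hzero : ∀ {k : ℤ} (f : ModularForm 𝒮ℒ k), f = 0 →
      ∀ n : ℕ, PowerSeries.coeff n (qExpansion 1 f) ∈ S := by
    intro k f hf n
    rw [hf, FunLike.coe_zero, qExpansion_zero, map_zero]
    exact S.zero_mem
  induction N with
  | zero =>
    intro k hk f _
    exact hzero f (rank_zero_iff_forall_zero.mp
      (levelOne_neg_weight_rank_zero (by simpa using hk)) f)
  | succ N ih =>
    intro k hk f hf
    rcases lt_or_ge k 0 with hneg | hnn
    · exact hzero f (rank_zero_iff_forall_zero.mp (levelOne_neg_weight_rank_zero hneg) f)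
    rcases Int.even_or_odd k with hev | hodd
    swap
    · exact hzero f (levelOne_odd_weight_eq_zero hodd f)
    by_cases h2 : k = 2
    · subst h2
      exact hzero f (rank_zero_iff_forall_zero.mp levelOne_weight_two_rank_zero f)
    obtain ⟨a, b, hab⟩ : ∃ a b : ℕ, (a : ℤ) * 4 + (b : ℤ) * 6 = k := by
      obtain ⟨r, hr⟩ := hev
      refine ⟨(r.toNat - 3 * (r.toNat % 2)) / 2, r.toNat % 2, ?_⟩
      omega
    -- the monomial `G₀ = E₄ ^ a * E₆ ^ b` of weight `k`
    obtain ⟨G₀, hG₀⟩ : ∃ G₀ : ModularForm 𝒮ℒ k,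
        G₀ = ModularForm.mcast hab ((E₄.pow a).mul (E₆.pow b)) := ⟨_, rfl⟩
    have hq : qExpansion 1 G₀ = qExpansion 1 E₄ ^ a * qExpansion 1 E₆ ^ b := by
      rw [hG₀, ModularForm.qExpansion_mcast,
        ModularForm.qExpansion_mul one_pos one_mem_strictPeriods_SL,
        ModularForm.qExpansion_pow one_pos one_mem_strictPeriods_SL,
        ModularForm.qExpansion_pow one_pos one_mem_strictPeriods_SL]
    have hG₀int : IsIntPS (qExpansion 1 G₀) := by
      rw [hq]
      exact (isIntPS_qExpansion_E₄.pow a).mul (isIntPS_qExpansion_E₆.pow b)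
    have hG₀c : (qExpansion 1 G₀).coeff 0 = 1 := by
      have h4 := E_qExpansion_coeff_zero (k := 4) (by norm_num) ⟨2, rfl⟩
      have h6 := E_qExpansion_coeff_zero (k := 6) (by norm_num) ⟨3, rfl⟩
      rw [PowerSeries.coeff_zero_eq_constantCoeff_apply] at h4 h6 ⊢
      rw [hq, map_mul, map_pow, map_pow, h4, h6, one_pow, one_pow, one_mul]
    -- the constant term of `f`
    obtain ⟨a₀, ha₀⟩ : ∃ a₀ : ℂ, a₀ = (qExpansion 1 f).coeff 0 := ⟨_, rfl⟩
    have ha₀S : a₀ ∈ S := by
      rw [ha₀]
      exact hf 0 (by simpa using hnn)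
    have hG₀S : ∀ m : ℕ, PowerSeries.coeff m (a₀ • qExpansion 1 G₀) ∈ S := by
      intro m
      obtain ⟨z, hz⟩ := hG₀int m
      rw [PowerSeries.coeff_smul, hz, smul_eq_mul, mul_comm, ← zsmul_eq_mul]
      exact S.zsmul_mem ha₀S z
    -- the cusp form `H = f - a₀ G₀ = Δ f'`
    obtain ⟨H, hH⟩ : ∃ H : ModularForm 𝒮ℒ k, H = f - a₀ • G₀ := ⟨_, rfl⟩
    have hH0 : (qExpansion 1 H).coeff 0 = 0 := by
      rw [hH, ha₀]
      exact (isCuspForm_iff_coeffZero_eq_zero _).mp (sub_smul_isCuspForm f G₀ hG₀c)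
    have hqH : qExpansion 1 H = qExpansion 1 f - a₀ • qExpansion 1 G₀ := by
      rw [hH, ← qExpLin_apply, map_sub, map_smul, qExpLin_apply, qExpLin_apply]
    obtain ⟨f', hf'⟩ : ∃ f' : ModularForm 𝒮ℒ (k - 12),
        f' = CuspForm.discriminantEquiv (toCuspForm H hH0) := ⟨_, rfl⟩
    have hqH' : qExpansion 1 H
        = qExpansion 1 ModularForm.discriminant * qExpansion 1 f' := by
      rw [hf']
      exact qExpansion_eq_qExpansion_discriminant_mul H hH0
    have hHlow : ∀ m : ℕ, 12 * (m : ℤ) ≤ k → PowerSeries.coeff m (qExpansion 1 H) ∈ S := by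
      intro m hm
      rw [hqH, map_sub]
      exact S.sub_mem (hf m hm) (hG₀S m)
    have hf'low : ∀ m : ℕ, 12 * (m : ℤ) ≤ k - 12 →
        PowerSeries.coeff m (qExpansion 1 f') ∈ S := by
      intro m hm
      refine coeff_mem_of_mul S _ _ discriminant_int discriminant_coeff_zero
        discriminant_coeff_one m fun j hj => ?_
      rw [← hqH']
      refine hHlow j ?_
      have hj' : (j : ℤ) ≤ (m : ℤ) + 1 := by exact_mod_cast hj
      omega
    have hf'all := ih (k - 12) (by push_cast at hk; omega) f' hf'low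
    have hHall : ∀ m : ℕ, PowerSeries.coeff m (qExpansion 1 H) ∈ S := by
      intro m
      rw [hqH']
      exact coeff_mul_mem S _ _ discriminant_int hf'all m
    intro n
    have hfin : qExpansion 1 f = qExpansion 1 H + a₀ • qExpansion 1 G₀ := by
      rw [hqH, sub_add_cancel]
    rw [hfin, map_add]
    exact S.add_mem (hHall n) (hG₀S n)

/-- Sturm's bound in level one modulo an additive subgroup `S` of `ℂ`: if the `q`-coefficients
`a_n` with `12 n ≤ k` of a level one form of weight `k` lie in `S`, then all of them do. -/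
theorem sturm_addSubgroup (S : AddSubgroup ℂ) (k : ℤ) (f : ModularForm 𝒮ℒ k)
    (hf : ∀ n : ℕ, 12 * (n : ℤ) ≤ k → PowerSeries.coeff n (qExpansion 1 f) ∈ S) :
    ∀ n : ℕ, PowerSeries.coeff n (qExpansion 1 f) ∈ S :=
  sturm_aux S (k.toNat + 1) k (by push_cast; omega) f hf

/-- The image in `ℂ` of an ideal of a subring of `ℂ`, as an additive subgroup. -/
def idealImage (R : Subring ℂ) (I : Ideal R) : AddSubgroup ℂ where
  carrier := {x | ∃ r : R, r ∈ I ∧ (r : ℂ) = x}
  zero_mem' := ⟨0, I.zero_mem, rfl⟩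
  add_mem' := by
    rintro x y ⟨r, hr, rfl⟩ ⟨s, hs, rfl⟩
    exact ⟨r + s, I.add_mem hr hs, rfl⟩
  neg_mem' := by
    rintro x ⟨r, hr, rfl⟩
    exact ⟨-r, I.neg_mem hr, rfl⟩

theorem mem_idealImage (R : Subring ℂ) (I : Ideal R) (x : ℂ) :
    x ∈ idealImage R I ↔ ∃ r : R, r ∈ I ∧ (r : ℂ) = x := Iff.rfl

end Sturm

/-- Sturm's bound in level one modulo an ideal `I` of a subring `R ⊆ ℂ`. -/
theorem sturm_mod (R : Subring ℂ) (I : Ideal R) (k : ℤ) (f : ModularForm 𝒮ℒ k)
    (hR : ∀ n, PowerSeries.coeff n (qExpansion 1 f) ∈ R)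
    (hI : ∀ n : ℕ, 12 * (n : ℤ) ≤ k →
      ∃ r : R, r ∈ I ∧ (r : ℂ) = PowerSeries.coeff n (qExpansion 1 f)) :
    ∀ n : ℕ, ∃ r : R, r ∈ I ∧ (r : ℂ) = PowerSeries.coeff n (qExpansion 1 f) := by
  -- the hypothesis `hR` is not needed: the statement holds for any additive subgroup of `ℂ`
  have _ := hR
  intro n
  exact (Sturm.mem_idealImage R I _).mp
    (Sturm.sturm_addSubgroup (Sturm.idealImage R I) k f
      (fun m hm => (Sturm.mem_idealImage R I _).mpr (hI m hm)) n)

end Fermat.Agent.S16
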