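import Mathlib
import Fermat.Agent.S16.Defs

/-!
# S16: a valuation ring of `ℂ` in which a given prime is a non-unit

For a prime `l` we produce a valuation subring `O` of `ℂ` whose maximal ideal `O.nonunits`
contains `l`, and we record the elementary facts about `O` used by the "engine" of S16:
integers prime to `l` and roots of unity are units of `O`, and `O.nonunits` is an ideal of `O`.
-/

set_option autoImplicit false

namespace Fermat.Agent.S16

open ModularCurve CuspForm UpperHalfPlane CongruenceSubgroup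
open scoped MatrixGroups ModularForm Manifold Real

/-! Closure properties of the maximal ideal `O.nonunits` (shared by the engine applications). -/

theorem mem_of_mem_nonunits (O : ValuationSubring ℂ) {a : ℂ} (ha : a ∈ O.nonunits) : a ∈ O :=
  ValuationSubring.nonunits_subset ha

theorem zero_mem_nonunits (O : ValuationSubring ℂ) : (0 : ℂ) ∈ O.nonunits :=
  O.nonunits.zero_mem

theorem add_mem_nonunits (O : ValuationSubring ℂ) {a b : ℂ} (ha : a ∈ O.nonunits)
    (hb : b ∈ O.nonunits) : a + b ∈ O.nonunits :=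
  O.nonunits.add_mem ha hb

theorem neg_mem_nonunits (O : ValuationSubring ℂ) {a : ℂ} (ha : a ∈ O.nonunits) :
    -a ∈ O.nonunits :=
  O.nonunits.neg_mem ha

theorem mul_mem_nonunits (O : ValuationSubring ℂ) {a b : ℂ} (ha : a ∈ O) (hb : b ∈ O.nonunits) :
    a * b ∈ O.nonunits := by
  rw [ValuationSubring.mem_nonunits_iff] at hb ⊢
  rw [map_mul]
  have ha' : O.valuation a ≤ 1 := (O.valuation_le_one_iff a).mpr ha
  calc O.valuation a * O.valuation b ≤ 1 * O.valuation b := mul_le_mul_left ha' _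
    _ = O.valuation b := one_mul _
    _ < 1 := hb

theorem sum_mem_nonunits (O : ValuationSubring ℂ) {α : Type*} (s : Finset α) (f : α → ℂ)
    (hf : ∀ i ∈ s, f i ∈ O.nonunits) : ∑ i ∈ s, f i ∈ O.nonunits :=
  O.nonunits.sum_mem hf

namespace Val

theorem one_not_mem_nonunits (O : ValuationSubring ℂ) : (1 : ℂ) ∉ O.nonunits := by
  rw [ValuationSubring.mem_nonunits_iff, map_one]
  exact lt_irrefl _

end Val

/-- unit + non-unit is a unit -/
theorem add_not_mem_nonunits (O : ValuationSubring ℂ) {a b : ℂ} (ha : a ∈ O)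
    (ha' : a ∉ O.nonunits) (hb : b ∈ O.nonunits) : a + b ∉ O.nonunits := by
  intro h
  have _ := ha
  apply ha'
  have := add_mem_nonunits O h (neg_mem_nonunits O hb)
  simpa using this

theorem exists_valuationSubring (l : ℕ) (hl : l.Prime) :
    ∃ O : ValuationSubring ℂ, (l : ℂ) ∈ O.nonunits := by
  let A : Subring ℂ := (Int.castRingHom ℂ).range
  let x : A := ⟨(l : ℂ), ⟨(l : ℤ), by simp⟩⟩
  have hI : Ideal.span {x} ≠ ⊤ := by
    intro h
    rw [Ideal.span_singleton_eq_top] at h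
    obtain ⟨⟨y, hy⟩, hxy⟩ := isUnit_iff_exists_inv.mp h
    obtain ⟨m, rfl⟩ := hy
    have h1 : (l : ℂ) * ((m : ℤ) : ℂ) = 1 := by
      have := congrArg Subtype.val hxy
      simpa [x] using this
    have h2 : (l : ℤ) * m = 1 := by exact_mod_cast h1
    have h3 : (l : ℤ) ∣ 1 := Dvd.intro _ h2
    have h4 : l ∣ 1 := by exact_mod_cast h3
    exact hl.one_lt.ne' (Nat.dvd_one.mp h4)
  obtain ⟨B, -, hB⟩ := Ideal.image_subset_nonunits_valuationSubring _ hI
  exact ⟨B, hB ⟨x, Ideal.subset_span rfl, rfl⟩⟩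

theorem int_mem_nonunits_iff (l : ℕ) (hl : l.Prime) (O : ValuationSubring ℂ)
    (hO : (l : ℂ) ∈ O.nonunits) (k : ℤ) : (k : ℂ) ∈ O.nonunits ↔ (l : ℤ) ∣ k := by
  constructor
  · intro hk
    by_contra hdvd
    have hcop : IsCoprime k (l : ℤ) := by
      have hp : Prime (l : ℤ) := Nat.prime_iff_prime_int.mp hl
      exact ((hp.irreducible.coprime_iff_not_dvd).mpr hdvd).symm
    obtain ⟨a, b, hab⟩ := hcop
    apply Val.one_not_mem_nonunits O
    have h1 : ((a : ℂ) * (k : ℂ) + (b : ℂ) * (l : ℂ)) ∈ O.nonunits :=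
      add_mem_nonunits O (mul_mem_nonunits O (intCast_mem O a) hk)
        (mul_mem_nonunits O (intCast_mem O b) hO)
    have h2 : ((a : ℂ) * (k : ℂ) + (b : ℂ) * (l : ℂ)) = 1 := by exact_mod_cast hab
    rwa [h2] at h1
  · rintro ⟨j, rfl⟩
    have := mul_mem_nonunits O (intCast_mem O j) hO
    simpa [mul_comm] using this

/-- an integer prime to `l` is a unit of `O` -/
theorem int_not_mem_nonunits (l : ℕ) (hl : l.Prime) (O : ValuationSubring ℂ)
    (hO : (l : ℂ) ∈ O.nonunits) (k : ℤ) (hk : ¬ (l : ℤ) ∣ k) : (k : ℂ) ∉ O.nonunits :=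
  fun h => hk ((int_mem_nonunits_iff l hl O hO k).mp h)

theorem inv_int_mem (l : ℕ) (hl : l.Prime) (O : ValuationSubring ℂ) (hO : (l : ℂ) ∈ O.nonunits)
    (b : ℤ) (hb : ¬ (l : ℤ) ∣ b) : ((b : ℂ))⁻¹ ∈ O := by
  have h := int_not_mem_nonunits l hl O hO b hb
  rw [ValuationSubring.mem_nonunits_iff_or, not_or, not_not] at h
  exact h.2

theorem rootOfUnity_mem (O : ValuationSubring ℂ) (ζ : ℂ) (n : ℕ) (hn : 0 < n) (hζ : ζ ^ n = 1) :
    ζ ∈ O := by
  rcases O.mem_or_inv_mem ζ with h | h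
  · exact h
  · have h1 : ζ = (ζ⁻¹) ^ (n - 1) := by
      have hζ0 : ζ ≠ 0 := by
        rintro rfl
        rw [zero_pow hn.ne'] at hζ
        exact zero_ne_one hζ
      have h2 : ζ ^ (n - 1) * ζ = 1 := by
        rw [← pow_succ, Nat.sub_add_cancel hn, hζ]
      rw [inv_pow]
      exact (eq_inv_of_mul_eq_one_right h2)
    rw [h1]
    exact pow_mem h _

/-- a root of unity is a unit of `O` -/
theorem rootOfUnity_not_mem_nonunits (O : ValuationSubring ℂ) (ζ : ℂ) (n : ℕ) (hn : 0 < n)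
    (hζ : ζ ^ n = 1) : ζ ∉ O.nonunits := by
  intro h
  apply Val.one_not_mem_nonunits O
  have h2 : ζ ^ (n - 1) * ζ = 1 := by
    rw [← pow_succ, Nat.sub_add_cancel hn, hζ]
  rw [← h2]
  exact mul_mem_nonunits O (pow_mem (rootOfUnity_mem O ζ n hn hζ) _) h

end Fermat.Agent.S16
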