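import Mathlib
import Fermat.Agent.S16.Defs
import Fermat.Agent.S16.NormFam
import Fermat.Agent.S16.QX
import Fermat.Agent.S16.Sturm
import Fermat.Agent.S16.Val

/-!
# S16: the engine

An `SL(2, ℤ)`-equivariant finite family of weight `k` functions whose suitably scaled
`q^{1/h}`-expansions are integral and primitive with respect to a valuation ring `O ⊆ ℂ` cannot
vanish modulo the maximal ideal of `O` to total order beyond the level one Sturm bound:
the product of the family is a level one modular form, Gauss' lemma shows that its scaled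
`q`-expansion is still primitive, and Sturm's theorem gives the contradiction.
-/

set_option autoImplicit false

namespace Fermat.Agent.S16

open ModularCurve CuspForm UpperHalfPlane CongruenceSubgroup
open scoped MatrixGroups ModularForm Manifold Real

namespace Engine

/-- The maximal ideal of `O`, as an ideal of the subring `O.toSubring` of `ℂ`. -/
def mI (O : ValuationSubring ℂ) : Ideal O.toSubring where
  carrier := {r | (r : ℂ) ∈ O.nonunits}
  add_mem' := fun {a b} ha hb => by
    show ((a + b : O.toSubring) : ℂ) ∈ O.nonunits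
    rw [Subring.coe_add]
    exact add_mem_nonunits O ha hb
  zero_mem' := by
    show ((0 : O.toSubring) : ℂ) ∈ O.nonunits
    rw [Subring.coe_zero]
    exact zero_mem_nonunits O
  smul_mem' := fun c x hx => by
    show ((c * x : O.toSubring) : ℂ) ∈ O.nonunits
    rw [Subring.coe_mul]
    exact mul_mem_nonunits O c.2 hx

theorem mem_mI (O : ValuationSubring ℂ) (r : O.toSubring) :
    r ∈ mI O ↔ (r : ℂ) ∈ O.nonunits := Iff.rfl

theorem mI_isPrime (O : ValuationSubring ℂ) : (mI O).IsPrime := by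
  rw [Ideal.isPrime_iff]
  constructor
  · intro h
    have h1 : (1 : O.toSubring) ∈ mI O := by rw [h]; trivial
    rw [mem_mI, Subring.coe_one] at h1
    exact Val.one_not_mem_nonunits O h1
  · intro x y hxy
    by_contra hcon
    rw [not_or] at hcon
    obtain ⟨hx, hy⟩ := hcon
    rw [mem_mI, ValuationSubring.mem_nonunits_iff, not_lt] at hx hy
    have hx1 : O.valuation (x : ℂ) = 1 :=
      le_antisymm ((O.valuation_le_one_iff _).mpr x.2) hx
    have hy1 : O.valuation (y : ℂ) = 1 :=
      le_antisymm ((O.valuation_le_one_iff _).mpr y.2) hy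
    rw [mem_mI, Subring.coe_mul, ValuationSubring.mem_nonunits_iff, map_mul, hx1, hy1,
      one_mul] at hxy
    exact lt_irrefl _ hxy

/-- The lift to `O⟦X⟧` of a complex power series with coefficients in `O`. -/
noncomputable def lift (O : ValuationSubring ℂ) (A : PowerSeries ℂ)
    (hA : ∀ n, PowerSeries.coeff n A ∈ O) : PowerSeries O.toSubring :=
  PowerSeries.mk fun n => ⟨PowerSeries.coeff n A, hA n⟩

theorem map_lift (O : ValuationSubring ℂ) (A : PowerSeries ℂ)
    (hA : ∀ n, PowerSeries.coeff n A ∈ O) :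
    PowerSeries.map O.toSubring.subtype (lift O A hA) = A := by
  ext n
  simp [lift]

/-- Gauss' lemma for a finite product of power series with coefficients in the valuation ring
`O`: the product of primitive series is primitive, and the orders of vanishing modulo the
maximal ideal add up. -/
theorem gauss (O : ValuationSubring ℂ) {ι : Type*} [Fintype ι] (A : ι → PowerSeries ℂ)
    (hO : ∀ i n, PowerSeries.coeff n (A i) ∈ O)
    (hne : ∀ i, ∃ n, PowerSeries.coeff n (A i) ∉ O.nonunits)
    (d : ι → ℕ) (hd : ∀ i n, n < d i → PowerSeries.coeff n (A i) ∈ O.nonunits) :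
    (∀ n, PowerSeries.coeff n (∏ i, A i) ∈ O) ∧
    (∃ n, PowerSeries.coeff n (∏ i, A i) ∉ O.nonunits) ∧
    (∀ n, n < ∑ i, d i → PowerSeries.coeff n (∏ i, A i) ∈ O.nonunits) := by
  have : (mI O).IsPrime := mI_isPrime O
  let B : ι → PowerSeries O.toSubring := fun i => lift O (A i) (hO i)
  let φ : O.toSubring →+* O.toSubring ⧸ mI O := Ideal.Quotient.mk (mI O)
  let Q : ι → PowerSeries (O.toSubring ⧸ mI O) := fun i => PowerSeries.map φ (B i)
  have hprodA : ∏ i, A i = PowerSeries.map O.toSubring.subtype (∏ i, B i) := by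
    rw [map_prod]
    exact Finset.prod_congr rfl (fun i _ => (map_lift O (A i) (hO i)).symm)
  have hprodQ : ∏ i, Q i = PowerSeries.map φ (∏ i, B i) := by
    rw [map_prod]
  have hcoeffA : ∀ n, PowerSeries.coeff n (∏ i, A i)
      = ((PowerSeries.coeff n (∏ i, B i) : O.toSubring) : ℂ) := by
    intro n
    rw [hprodA, PowerSeries.coeff_map]
    rfl
  have hkey : ∀ n, PowerSeries.coeff n (∏ i, A i) ∈ O.nonunits ↔
      PowerSeries.coeff n (∏ i, Q i) = 0 := by
    intro n
    rw [hcoeffA, hprodQ, PowerSeries.coeff_map, ← mem_mI]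
    exact (Ideal.Quotient.eq_zero_iff_mem).symm
  have hkeyi : ∀ i n, PowerSeries.coeff n (A i) ∈ O.nonunits ↔
      PowerSeries.coeff n (Q i) = 0 := by
    intro i n
    have h1 : PowerSeries.coeff n (A i) = ((PowerSeries.coeff n (B i) : O.toSubring) : ℂ) := by
      conv_lhs => rw [← map_lift O (A i) (hO i), PowerSeries.coeff_map]
      rfl
    rw [h1, PowerSeries.coeff_map, ← mem_mI]
    exact (Ideal.Quotient.eq_zero_iff_mem).symm
  refine ⟨fun n => ?_, ?_, fun n hn => ?_⟩
  · rw [hcoeffA]
    exact (PowerSeries.coeff n (∏ i, B i)).2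
  · have hQne : ∏ i, Q i ≠ 0 := by
      rw [Finset.prod_ne_zero_iff]
      intro i _ hQi
      obtain ⟨n, hn⟩ := hne i
      apply hn
      rw [hkeyi, hQi, map_zero]
    obtain ⟨n, hn⟩ := PowerSeries.exists_coeff_ne_zero_iff_ne_zero.mpr hQne
    exact ⟨n, fun hmem => hn ((hkey n).mp hmem)⟩
  · rw [hkey]
    have hdvd : (PowerSeries.X : PowerSeries (O.toSubring ⧸ mI O)) ^ (∑ i, d i) ∣ ∏ i, Q i := by
      rw [← Finset.prod_pow_eq_pow_sum]
      apply Finset.prod_dvd_prod_of_dvd
      intro i _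
      rw [PowerSeries.X_pow_dvd_iff]
      intro m hm
      exact (hkeyi i m).mp (hd i m hm)
    exact PowerSeries.X_pow_dvd_iff.mp hdvd n hn

end Engine

/-- The engine: an equivariant family of weight `k` functions whose suitably scaled
`q^{1/h}`-expansions are `O`-integral and primitive cannot vanish modulo the maximal ideal to total
order (in `q^{1/h}`) beyond the level one Sturm bound. -/
theorem engine (O : ValuationSubring ℂ) {ι : Type*} [Fintype ι] (k : ℤ) (h : ℕ) (hh : 0 < h)
    (F : ι → ℍ → ℂ) (hhol : ∀ i, MDifferentiable 𝓘(ℂ) 𝓘(ℂ) (F i))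
    (hbdd : ∀ i, IsBoundedAtImInfty (F i))
    (hperm : ∀ g : SL(2, ℤ), ∃ σ : Equiv.Perm ι, ∀ i, F i ∣[k] g = F (σ i))
    (P : ι → PowerSeries ℂ) (hP : ∀ i, HasQExp h (F i) (P i))
    (c : ι → ℂ) (hc : ∀ i, c i ≠ 0)
    (hO : ∀ i n, c i * PowerSeries.coeff n (P i) ∈ O)
    (hne : ∀ i, ∃ n, c i * PowerSeries.coeff n (P i) ∉ O.nonunits)
    (d : ι → ℕ) (hd : ∀ i n, n < d i → c i * PowerSeries.coeff n (P i) ∈ O.nonunits)
    (hsum : ∀ n : ℕ, 12 * (n : ℤ) ≤ k * (Fintype.card ι : ℤ) → h * n < ∑ i, d i) : False := by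
  have _ := hc
  obtain ⟨N, hN⟩ := exists_levelOne_prod k F hhol hbdd hperm
  have hprod := coeff_prod_eq h hh F P hP (k * (Fintype.card ι : ℤ)) N hN
  let A : ι → PowerSeries ℂ := fun i => PowerSeries.C (c i) * P i
  have hA : ∀ i n, PowerSeries.coeff n (A i) = c i * PowerSeries.coeff n (P i) :=
    fun i n => PowerSeries.coeff_C_mul n (P i) (c i)
  have hprodA : ∏ i, A i = PowerSeries.C (∏ i, c i) * expandPS h (qExpansion 1 N) := by
    rw [Finset.prod_mul_distrib, hprod, ← map_prod]
  obtain ⟨h1, ⟨n0, hn0⟩, h3⟩ := Engine.gauss O A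
    (fun i n => by rw [hA]; exact hO i n)
    (fun i => by
      obtain ⟨n, hn⟩ := hne i
      exact ⟨n, by rw [hA]; exact hn⟩)
    d (fun i n hn => by rw [hA]; exact hd i n hn)
  have hcoeff : ∀ m, PowerSeries.coeff m (∏ i, A i)
      = if h ∣ m then (∏ i, c i) * PowerSeries.coeff (m / h) (qExpansion 1 N) else 0 := by
    intro m
    rw [hprodA, PowerSeries.coeff_C_mul, expandPS, PowerSeries.coeff_mk]
    split_ifs
    · rfl
    · rw [mul_zero]
  obtain ⟨G, hGN⟩ : ∃ G : ModularForm 𝒮ℒ (k * (Fintype.card ι : ℤ)),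
      (G : ℍ → ℂ) = (∏ i, c i) • (N : ℍ → ℂ) := ⟨(∏ i, c i) • N, rfl⟩
  have hG : qExpansion 1 G = (∏ i, c i) • qExpansion 1 N := by
    rw [hGN]
    exact ModularForm.qExpansion_smul one_pos one_mem_strictPeriods_SL (∏ i, c i) N
  have hcoeffG : ∀ n, PowerSeries.coeff n (qExpansion 1 G)
      = PowerSeries.coeff (h * n) (∏ i, A i) := by
    intro n
    rw [hcoeff, if_pos (dvd_mul_right h n), Nat.mul_div_cancel_left n hh, hG,
      PowerSeries.coeff_smul, smul_eq_mul]
  have hst := sturm_mod O.toSubring (Engine.mI O) (k * (Fintype.card ι : ℤ)) G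
    (fun n => by rw [hcoeffG]; exact h1 _)
    (fun n hn => ⟨⟨_, h1 (h * n)⟩, h3 _ (hsum n hn), (hcoeffG n).symm⟩)
  apply hn0
  rw [hcoeff]
  split_ifs with hdiv
  · obtain ⟨r, hr, hr'⟩ := hst (n0 / h)
    have h4 : (∏ i, c i) * PowerSeries.coeff (n0 / h) (qExpansion 1 N) = (r : ℂ) := by
      rw [hr', hG, PowerSeries.coeff_smul, smul_eq_mul]
    rw [h4]
    exact hr
  · exact zero_mem_nonunits O

end Fermat.Agent.S16
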