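import Mathlib
import Fermat.Agent.S16.Defs
import Fermat.Agent.S16.Cosets
import Fermat.Agent.S16.NormFam

/-!
# S16: the Fricke involution at prime level and `U_p ^ 2 = 1` in weight two

For a weight two modular form `G` of prime level `p`, with `W = (0 -1; p 0)` and `H = G ∣[2] W`:
`G = - U_p H`, `H = - U_p G`, hence `U_p (U_p G) = G`, and the translates of `G` by the coset
representatives `S * T ^ i` are `-(1/p) (U_p G) ((z + i) / p)`.
-/

set_option autoImplicit false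

namespace Fermat.Agent.S16

open ModularCurve CuspForm UpperHalfPlane CongruenceSubgroup
open scoped MatrixGroups ModularForm Manifold Real

namespace Fricke

/-- The Fricke matrix `W = (0 -1; p 0)`. -/
noncomputable def W (p : ℕ) [NeZero p] : GL (Fin 2) ℝ :=
  Matrix.GeneralLinearGroup.mkOfDetNeZero !![0, -1; (p : ℝ), 0]
    (by rw [Matrix.det_fin_two_of]; simpa using NeZero.ne p)

theorem val_W (p : ℕ) [NeZero p] :
    ((W p : GL (Fin 2) ℝ) : Matrix (Fin 2) (Fin 2) ℝ) = !![0, -1; (p : ℝ), 0] := rfl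

/-- The scalar matrix `c • 1`. -/
noncomputable def scal (c : ℝ) (hc : c ≠ 0) : GL (Fin 2) ℝ :=
  Matrix.GeneralLinearGroup.mkOfDetNeZero !![c, 0; 0, c]
    (by rw [Matrix.det_fin_two_of]; simpa using hc)

theorem val_scal (c : ℝ) (hc : c ≠ 0) :
    ((scal c hc : GL (Fin 2) ℝ) : Matrix (Fin 2) (Fin 2) ℝ) = !![c, 0; 0, c] := rfl

theorem det_scal (c : ℝ) (hc : c ≠ 0) : ((scal c hc).det : ℝ) = c * c := by
  rw [Matrix.GeneralLinearGroup.val_det_apply, val_scal, Matrix.det_fin_two_of]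
  ring

theorem det_scal_pos (c : ℝ) (hc : c ≠ 0) : 0 < ((scal c hc).det : ℝ) := by
  rw [det_scal]
  exact mul_self_pos.2 hc

/-- Scalar matrices act trivially in weight two. -/
theorem slash_scal (c : ℝ) (hc : c ≠ 0) (f : ℍ → ℂ) : f ∣[(2 : ℤ)] scal c hc = f := by
  have hc' : (c : ℂ) ≠ 0 := by exact_mod_cast hc
  funext τ
  have hσ : UpperHalfPlane.σ (scal c hc) = .refl ℝ ℂ := by
    rw [UpperHalfPlane.σ, if_pos (det_scal_pos c hc)]
  have hden : UpperHalfPlane.denom (scal c hc) τ = c := by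
    simp [UpperHalfPlane.denom, val_scal]
  have hsmul : scal c hc • τ = τ := by
    apply UpperHalfPlane.ext
    rw [UpperHalfPlane.coe_smul_of_det_pos (det_scal_pos c hc)]
    simp [UpperHalfPlane.num, UpperHalfPlane.denom, val_scal, hc']
  rw [ModularForm.slash_apply, hσ, hden, hsmul, det_scal, abs_mul_self]
  simp only [ContinuousAlgEquiv.refl_apply]
  push_cast
  have h2 : ((c : ℂ) * (c : ℂ)) ^ (1 : ℤ) * (c : ℂ) ^ (-2 : ℤ) = 1 := by
    rw [zpow_one, zpow_neg, zpow_two, mul_inv_cancel₀ (mul_ne_zero hc' hc')]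
  rw [mul_assoc, h2, mul_one]

/-- The matrix of the image in `GL(2, ℝ)` of an element of `SL(2, ℤ)`. -/
theorem val_mapGL (g : SL(2, ℤ)) :
    ((Matrix.SpecialLinearGroup.mapGL ℝ g : GL (Fin 2) ℝ) : Matrix (Fin 2) (Fin 2) ℝ) =
      !![((g 0 0 : ℤ) : ℝ), ((g 0 1 : ℤ) : ℝ); ((g 1 0 : ℤ) : ℝ), ((g 1 1 : ℤ) : ℝ)] := by
  ext i j
  fin_cases i <;> fin_cases j <;> rfl

/-- The matrix of `S * T ^ i`. -/
theorem coe_cosetRep_some (p : ℕ) (i : Fin p) :
    ((cosetRep p (some i) : SL(2, ℤ)) : Matrix (Fin 2) (Fin 2) ℤ) =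
      !![0, -1; 1, ((i : ℕ) : ℤ)] := by
  rw [cosetRep_some, ← zpow_natCast, Matrix.SpecialLinearGroup.coe_mul,
    ModularGroup.coe_T_zpow, ModularGroup.coe_S]
  simp

/-- `W * (1 i; 0 p) = p • (S * T ^ i)`. -/
theorem W_mul_heckeMatrix (p : ℕ) [NeZero p] (i : Fin p) :
    W p * ModularForm.heckeMatrix p (i : ℕ) =
      scal (p : ℝ) (Nat.cast_ne_zero.2 (NeZero.ne p)) *
        Matrix.SpecialLinearGroup.mapGL ℝ (cosetRep p (some i)) := by
  apply Units.ext
  rw [Units.val_mul, Units.val_mul, val_W, ModularForm.val_heckeMatrix (NeZero.ne p), val_scal,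
    val_mapGL, coe_cosetRep_some]
  simp

/-- `W * W = -p • 1`. -/
theorem W_mul_W (p : ℕ) [NeZero p] :
    W p * W p = scal (-(p : ℝ)) (neg_ne_zero.2 (Nat.cast_ne_zero.2 (NeZero.ne p))) := by
  apply Units.ext
  rw [Units.val_mul, val_W, val_scal]
  simp

/-- Slashing by `S * T ^ i` is slashing by `W` and then by `(1 i; 0 p)` (weight two). -/
theorem slash_cosetRep_some_eq (p : ℕ) [NeZero p] (F : ℍ → ℂ) (i : Fin p) :
    F ∣[(2 : ℤ)] cosetRep p (some i) =
      (F ∣[(2 : ℤ)] W p) ∣[(2 : ℤ)] ModularForm.heckeMatrix p (i : ℕ) := by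
  have h : F ∣[(2 : ℤ)] cosetRep p (some i) =
      F ∣[(2 : ℤ)] (Matrix.SpecialLinearGroup.mapGL ℝ (cosetRep p (some i))) := rfl
  rw [h, ← SlashAction.slash_mul, W_mul_heckeMatrix, SlashAction.slash_mul, slash_scal]

/-- Slashing twice by `W` is the identity (weight two). -/
theorem slash_W_slash_W (p : ℕ) [NeZero p] (F : ℍ → ℂ) :
    (F ∣[(2 : ℤ)] W p) ∣[(2 : ℤ)] W p = F := by
  rw [← SlashAction.slash_mul, W_mul_W, slash_scal]

/-- The sum of the translates by the `S * T ^ i` is `U_p` of the Fricke transform. -/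
theorem sum_slash_cosetRep_some (p : ℕ) [NeZero p] (F : ℍ → ℂ) :
    ∑ i : Fin p, F ∣[(2 : ℤ)] cosetRep p (some i) =
      ModularForm.heckeU 2 p (F ∣[(2 : ℤ)] W p) := by
  rw [ModularForm.heckeU_def,
    ← Fin.sum_univ_eq_sum_range (fun j => (F ∣[(2 : ℤ)] W p) ∣[(2 : ℤ)] ModularForm.heckeMatrix p j)]
  exact Finset.sum_congr rfl fun i _ => slash_cosetRep_some_eq p F i

/-- `W` normalises `Γ₀(p)`. -/
theorem exists_conj_of_mem_Gamma0 (p : ℕ) [NeZero p] {γ : GL (Fin 2) ℝ}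
    (hγ : γ ∈ (Gamma0 p : Subgroup (GL (Fin 2) ℝ))) :
    ∃ g' ∈ Gamma0 p, W p * γ = (Matrix.SpecialLinearGroup.mapGL ℝ g') * W p := by
  obtain ⟨g, hg, rfl⟩ := Subgroup.mem_map.mp hγ
  rw [CongruenceSubgroup.Gamma0_mem, ZMod.intCast_zmod_eq_zero_iff_dvd] at hg
  obtain ⟨c', hc'⟩ := hg
  have hdet : g 0 0 * g 1 1 - g 0 1 * g 1 0 = 1 := by
    have := g.det_coe
    rwa [Matrix.det_fin_two] at this
  have hdet' : Matrix.det !![g 1 1, -c'; -((p : ℤ) * g 0 1), g 0 0] = 1 := by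
    rw [Matrix.det_fin_two_of]
    rw [hc'] at hdet
    linarith
  set g' : SL(2, ℤ) := ⟨!![g 1 1, -c'; -((p : ℤ) * g 0 1), g 0 0], hdet'⟩ with hg'
  have e2 : g' 0 0 = g 1 1 := rfl
  have e3 : g' 0 1 = -c' := rfl
  have e4 : g' 1 0 = -((p : ℤ) * g 0 1) := rfl
  have e5 : g' 1 1 = g 0 0 := rfl
  refine ⟨g', ?_, ?_⟩
  · rw [CongruenceSubgroup.Gamma0_mem, ZMod.intCast_zmod_eq_zero_iff_dvd, e4]
    exact (dvd_mul_right _ _).neg_right
  · apply Units.ext
    rw [Units.val_mul, Units.val_mul, val_W, val_mapGL, val_mapGL, e2, e3, e4, e5, hc']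
    push_cast
    simp only [Matrix.mul_fin_two, mul_zero, add_zero, zero_mul, zero_add, one_mul, mul_one,
      mul_neg, neg_mul, neg_neg]
    rw [mul_comm (c' : ℝ) (p : ℝ), mul_comm ((g 0 0 : ℤ) : ℝ) (p : ℝ)]

open ConjAct Pointwise in
theorem Gamma0_le_conj (p : ℕ) [NeZero p] :
    (Gamma0 p : Subgroup (GL (Fin 2) ℝ)) ≤
      toConjAct (W p)⁻¹ • (Gamma0 p : Subgroup (GL (Fin 2) ℝ)) := by
  intro γ hγ
  obtain ⟨g', hg'mem, hg'⟩ := exists_conj_of_mem_Gamma0 p hγ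
  have h1 : γ = toConjAct (W p)⁻¹ • (Matrix.SpecialLinearGroup.mapGL ℝ g') := by
    rw [ConjAct.toConjAct_smul, inv_inv, mul_assoc, ← hg', ← mul_assoc, inv_mul_cancel, one_mul]
  rw [h1]
  exact Subgroup.smul_mem_pointwise_smul _ _ _ (Subgroup.mem_map_of_mem _ hg'mem)

/-- Restriction of a modular form to a smaller subgroup. -/
def restrictLE {Γ Γ' : Subgroup (GL (Fin 2) ℝ)} (h : Γ' ≤ Γ) {k : ℤ} (f : ModularForm Γ k) :
    ModularForm Γ' k where
  toFun := f
  slash_action_eq' γ hγ := f.slash_action_eq' γ (h hγ)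
  holo' := f.holo'
  bdd_at_cusps' hc := f.bdd_at_cusps' (hc.mono h)

/-- The Fricke transform `G ∣[2] W` of a weight two form of level `p`, as a form of level `p`. -/
noncomputable def frickeForm (p : ℕ) [NeZero p] (G : ModularForm (Gamma0 p) 2) :
    ModularForm (Gamma0 p) 2 :=
  restrictLE (Gamma0_le_conj p) (ModularForm.translate G (W p))

theorem coe_frickeForm (p : ℕ) [NeZero p] (G : ModularForm (Gamma0 p) 2) :
    (frickeForm p G : ℍ → ℂ) = (G : ℍ → ℂ) ∣[(2 : ℤ)] W p := rfl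

/-- The trace to level one of a weight two form of prime level vanishes. -/
theorem sum_slash_cosetRep_eq_zero (p : ℕ) [Fact p.Prime] (F : ModularForm (Gamma0 p) 2) :
    ∑ x : Option (Fin p), (F : ℍ → ℂ) ∣[(2 : ℤ)] cosetRep p x = 0 := by
  have hinv : ∀ γ : SL(2, ℤ),
      (∑ x : Option (Fin p), (F : ℍ → ℂ) ∣[(2 : ℤ)] cosetRep p x) ∣[(2 : ℤ)] γ =
        ∑ x : Option (Fin p), (F : ℍ → ℂ) ∣[(2 : ℤ)] cosetRep p x := by
    intro γ
    obtain ⟨σ, hσ⟩ := family_perm p 2 F γ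
    rw [SlashAction.sum_slash]
    simp_rw [hσ]
    exact Equiv.sum_comp σ (fun x => (F : ℍ → ℂ) ∣[(2 : ℤ)] cosetRep p x)
  have hbdd : IsBoundedAtImInfty
      (∑ x : Option (Fin p), (F : ℍ → ℂ) ∣[(2 : ℤ)] cosetRep p x) :=
    (Filter.boundedFilterSubmodule ℂ atImInfty).sum_mem fun x _ => family_bdd p 2 F x
  have hhol : MDifferentiable 𝓘(ℂ) 𝓘(ℂ)
      (∑ x : Option (Fin p), (F : ℍ → ℂ) ∣[(2 : ℤ)] cosetRep p x) :=
    MDifferentiable.sum fun x _ => family_mdiff p 2 F x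
  let N : ModularForm 𝒮ℒ 2 :=
    { toFun := ∑ x : Option (Fin p), (F : ℍ → ℂ) ∣[(2 : ℤ)] cosetRep p x
      slash_action_eq' := by
        rintro _ ⟨γ, rfl⟩
        exact hinv γ
      holo' := hhol
      bdd_at_cusps' := by
        intro c hc
        rw [OnePoint.isBoundedAt_iff_forall_SL2Z hc]
        intro γ _
        show IsBoundedAtImInfty
          ((∑ x : Option (Fin p), (F : ℍ → ℂ) ∣[(2 : ℤ)] cosetRep p x) ∣[(2 : ℤ)] γ)
        rw [hinv γ]
        exact hbdd }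
  have hN : N = 0 := rank_zero_iff_forall_zero.mp ModularForm.levelOne_weight_two_rank_zero N
  have h0 : (N : ℍ → ℂ) = 0 := by rw [hN]; rfl
  exact h0

/-- A weight two form of prime level is minus `U_p` of its Fricke transform. -/
theorem eq_neg_heckeU_slash_W (p : ℕ) [Fact p.Prime] [NeZero p] (F : ModularForm (Gamma0 p) 2) :
    (F : ℍ → ℂ) = -ModularForm.heckeU 2 p ((F : ℍ → ℂ) ∣[(2 : ℤ)] W p) := by
  have h := sum_slash_cosetRep_eq_zero p F
  rw [Fintype.sum_option, cosetRep_none, SlashAction.slash_one, sum_slash_cosetRep_some] at h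
  exact eq_neg_of_add_eq_zero_left h

/-- The Fricke transform of `G` is `- U_p G`. -/
theorem slash_W_eq_neg_heckeU (p : ℕ) [Fact p.Prime] [NeZero p] (G : ModularForm (Gamma0 p) 2) :
    (G : ℍ → ℂ) ∣[(2 : ℤ)] W p = -ModularForm.heckeU 2 p (G : ℍ → ℂ) := by
  have h := eq_neg_heckeU_slash_W p (frickeForm p G)
  rw [coe_frickeForm, slash_W_slash_W] at h
  exact h

end Fricke

open Fricke

/-- Fricke: `(G ∣[2] S T^i)(z) = -(1/p) (U_p G)((z + i)/p)`. -/
theorem slash_cosetRep_some (p : ℕ) [Fact p.Prime] (G : ModularForm (Gamma0 p) 2) (i : Fin p)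
    (z : ℍ) :
    ((G : ℍ → ℂ) ∣[(2 : ℤ)] cosetRep p (some i)) z =
      -(p : ℂ)⁻¹ * (ModularForm.heckeULin 2 (dvd_refl p) G) (ModularForm.heckeMatrix p i • z) := by
  have hp : p.Prime := Fact.out
  rw [slash_cosetRep_some_eq, slash_W_eq_neg_heckeU,
    ModularForm.slash_heckeMatrix_apply 2 hp.ne_zero, ModularForm.heckeULin_apply_apply,
    Pi.neg_apply]
  ring

/-- `U_p² = 1` on weight two forms of prime level `p`. -/
theorem heckeULin_heckeULin (p : ℕ) [Fact p.Prime] (G : ModularForm (Gamma0 p) 2) :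
    ModularForm.heckeULin 2 (dvd_refl p) (ModularForm.heckeULin 2 (dvd_refl p) G) = G := by
  apply DFunLike.coe_injective
  rw [ModularForm.coe_heckeULin_apply, ModularForm.coe_heckeULin_apply]
  have h1 := eq_neg_heckeU_slash_W p G
  rw [slash_W_eq_neg_heckeU, ModularForm.heckeU_neg, neg_neg] at h1
  exact h1.symm

end Fermat.Agent.S16
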