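import Mathlib
import Fermat.Agent.S16.Defs
import Fermat.Agent.S16.Cosets
import Fermat.Agent.S16.Fricke
import Fermat.Agent.S16.QX
import Fermat.Prelude.Thm_ModularFormClass_qCoeff_heckeU
import Fermat.Prelude.Thm_CongruenceSubgroup_one_mem_strictPeriods_Gamma0

/-!
# S16: `q`-expansions of the members of the coset family

Shared by the engine applications (`EngP`, `Eng3p`) and the trace identity (`TraceLin`).
-/

set_option autoImplicit false

namespace Fermat.Agent.S16

open ModularCurve CuspForm UpperHalfPlane CongruenceSubgroup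
open scoped MatrixGroups ModularForm Manifold Real

/-- `q`-expansion coefficients of `U_p G`. -/
theorem coeff_heckeULin (p : ℕ) [Fact p.Prime] (G : ModularForm (Gamma0 p) 2) (n : ℕ) :
    PowerSeries.coeff n (qExpansion 1 (ModularForm.heckeULin 2 (dvd_refl p) G)) =
      PowerSeries.coeff (n * p) (qExpansion 1 G) := by
  have hp : p ≠ 0 := (Fact.out : p.Prime).ne_zero
  have : NeZero p := ⟨hp⟩
  have h := ModularFormClass.qCoeff_heckeU G (CongruenceSubgroup.one_mem_strictPeriods_Gamma0 p)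
    hp n (k := 2)
  exact h

theorem hasQExp_family_none (p : ℕ) [Fact p.Prime] (G : ModularForm (Gamma0 p) 2) :
    HasQExp 1 ((G : ℍ → ℂ) ∣[(2 : ℤ)] cosetRep p none) (qExpansion 1 G) := by
  have : NeZero p := ⟨(Fact.out : p.Prime).ne_zero⟩
  have h1 : (G : ℍ → ℂ) ∣[(2 : ℤ)] cosetRep p none = G := by
    rw [cosetRep_none]
    exact SlashAction.slash_one _ _
  rw [h1]
  exact hasQExp_modularForm p 2 G

/-- The translate `G ∣ S T^i` has the `q^{1/p}`-expansion `-(1/p) ∑ₙ a_{pn}(G) ζ^{in} xⁿ`. -/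
theorem hasQExp_family_some (p : ℕ) [Fact p.Prime] (G : ModularForm (Gamma0 p) 2) (i : Fin p) :
    HasQExp p ((G : ℍ → ℂ) ∣[(2 : ℤ)] cosetRep p (some i))
      ((-(p : ℂ)⁻¹) • PowerSeries.rescale (Complex.exp (2 * π * Complex.I * ((i : ℕ) : ℂ) / p))
        (qExpansion 1 (ModularForm.heckeULin 2 (dvd_refl p) G))) := by
  have hp : 0 < p := (Fact.out : p.Prime).pos
  have : NeZero p := ⟨hp.ne'⟩
  have h1 : (G : ℍ → ℂ) ∣[(2 : ℤ)] cosetRep p (some i) =
      (-(p : ℂ)⁻¹) • fun z : ℍ =>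
        (ModularForm.heckeULin 2 (dvd_refl p) G) (ModularForm.heckeMatrix p i • z) := by
    funext z
    rw [slash_cosetRep_some]
    rfl
  rw [h1]
  exact ((hasQExp_modularForm p 2 (ModularForm.heckeULin 2 (dvd_refl p) G)).shift p hp i).smul _

theorem coeff_E4_zero : PowerSeries.coeff 0 (qExpansion 1 ModularForm.E₄) = 1 :=
  EisensteinSeries.E_qExpansion_coeff_zero _ ⟨2, rfl⟩

theorem coeff_E4 (n : ℕ) (hn : 1 ≤ n) :
    PowerSeries.coeff n (qExpansion 1 ModularForm.E₄) = 240 * (ArithmeticFunction.sigma 3 n : ℂ) := by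
  have hn0 : n ≠ 0 := by omega
  rw [EisensteinSeries.E_qExpansion_coeff _ ⟨2, rfl⟩ n, if_neg hn0,
    show bernoulli 4 = -1 / 30 by decide +kernel]
  push_cast
  norm_num

theorem coeff_E6_zero : PowerSeries.coeff 0 (qExpansion 1 ModularForm.E₆) = 1 :=
  EisensteinSeries.E_qExpansion_coeff_zero _ ⟨3, rfl⟩

theorem coeff_E6 (n : ℕ) (hn : 1 ≤ n) :
    PowerSeries.coeff n (qExpansion 1 ModularForm.E₆) = -504 * (ArithmeticFunction.sigma 5 n : ℂ) := by
  have hn0 : n ≠ 0 := by omega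
  rw [EisensteinSeries.E_qExpansion_coeff _ ⟨3, rfl⟩ n, if_neg hn0,
    show bernoulli 6 = 1 / 42 by decide +kernel]
  push_cast
  norm_num

/-- level one forms are fixed by the slash action of `SL(2, ℤ)` -/
theorem levelOne_slash (k : ℤ) (f : ModularForm 𝒮ℒ k) (g : SL(2, ℤ)) :
    (f : ℍ → ℂ) ∣[k] g = f :=
  SlashInvariantForm.slash_action_eqn f _ ⟨g, rfl⟩

end Fermat.Agent.S16
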