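import Mathlib
import Fermat.Agent.S16.Defs
import Fermat.Agent.S16.Engine
import Fermat.Agent.S16.FamQ
import Fermat.Agent.S16.Cosets
import Fermat.Agent.S16.Fricke
import Fermat.Agent.S16.Eis

/-!
# S16: the engine at the prime two (family over `Γ₀(3) ∩ Γ₀(p)` cosets)

`NF4`: a weight two form of prime level `p ≠ 2, 3` is not congruent to `1` modulo `8`.
-/

set_option autoImplicit false

namespace Fermat.Agent.S16

open ModularCurve CuspForm UpperHalfPlane CongruenceSubgroup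
open scoped MatrixGroups ModularForm Manifold Real

namespace Eng3p

/-! ### Arithmetic in a valuation subring -/

section Val

variable (O : ValuationSubring ℂ)

theorem mul_mem_nu {a b : ℂ} (ha : a ∈ O) (hb : b ∈ O.nonunits) : a * b ∈ O.nonunits := by
  rw [ValuationSubring.mem_nonunits_iff] at hb ⊢
  rw [map_mul]
  have ha' : O.valuation a ≤ 1 := (O.valuation_le_one_iff a).mpr ha
  exact mul_lt_one_of_nonneg_of_lt_one_right ha' zero_le hb

theorem mem_of_nu {a : ℂ} (ha : a ∈ O.nonunits) : a ∈ O :=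
  O.nonunits_subset ha

/-- unit plus nonunit is a unit -/
theorem add_not_nu {a b : ℂ} (ha : a ∉ O.nonunits) (hb : b ∈ O.nonunits) :
    a + b ∉ O.nonunits := by
  intro h
  apply ha
  have := O.nonunits.sub_mem h hb
  simpa using this

theorem not_nu_of_mul {a b : ℂ} (hb : b ∈ O) (hu : a * b ∉ O.nonunits) : a ∉ O.nonunits := by
  intro h
  apply hu
  rw [mul_comm]
  exact mul_mem_nu O hb h

theorem int_mem (k : ℤ) : (k : ℂ) ∈ O := intCast_mem O k

theorem nat_mem (k : ℕ) : (k : ℂ) ∈ O := natCast_mem O k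

theorem two_mem : (2 : ℂ) ∈ O := by
  have := nat_mem O 2
  exact_mod_cast this

theorem one_not_nu : (1 : ℂ) ∉ O.nonunits := by
  intro h
  rw [ValuationSubring.mem_nonunits_iff, map_one] at h
  exact lt_irrefl _ h

variable {O}

theorem scaled_mem (k : ℤ) {x y : ℂ} (hx : x / 8 ∈ O) (hy : y / 4 ∈ O) :
    (k : ℂ) / 4 * (x + y) ∈ O := by
  have h : (k : ℂ) / 4 * (x + y) = (k : ℂ) * (2 * (x / 8)) + (k : ℂ) * (y / 4) := by ring
  rw [h]
  exact add_mem (mul_mem (int_mem O k) (mul_mem (two_mem O) hx)) (mul_mem (int_mem O k) hy)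

theorem scaled_nu (h2 : (2 : ℂ) ∈ O.nonunits) (k : ℤ) {x : ℂ} (hx : x / 8 ∈ O) :
    (k : ℂ) / 4 * (x + 0) ∈ O.nonunits := by
  have h : (k : ℂ) / 4 * (x + 0) = ((k : ℂ) * (x / 8)) * 2 := by ring
  rw [h]
  exact mul_mem_nu O (mul_mem (int_mem O k) hx) h2

theorem scaled_not_nu (h2 : (2 : ℂ) ∈ O.nonunits) (k : ℤ) {x y : ℂ} (hx : x / 8 ∈ O)
    (hu : (k : ℂ) * (y / 4) ∉ O.nonunits) : (k : ℂ) / 4 * (x + y) ∉ O.nonunits := by
  have h : (k : ℂ) / 4 * (x + y) = (k : ℂ) * (y / 4) + ((k : ℂ) * (x / 8)) * 2 := by ring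
  rw [h]
  exact add_not_nu O hu (mul_mem_nu O (mul_mem (int_mem O k) hx) h2)

end Val

/-! ### The two coset families and their expansions -/

section Fam

theorem coeff_expandPS (d : ℕ) (P : PowerSeries ℂ) (n : ℕ) :
    PowerSeries.coeff n (expandPS d P) = if d ∣ n then PowerSeries.coeff (n / d) P else 0 := by
  simp [expandPS, PowerSeries.coeff_mk]

/-- the root of unity appearing in the expansion of the translate by `S T^j` -/
noncomputable def zeta (N j : ℕ) : ℂ := Complex.exp (2 * π * Complex.I * (j : ℂ) / N)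

theorem zeta_pow (N : ℕ) (hN : N ≠ 0) (j : ℕ) : zeta N j ^ N = 1 := by
  rw [zeta, ← Complex.exp_nat_mul]
  have hN' : (N : ℂ) ≠ 0 := Nat.cast_ne_zero.mpr hN
  have h : (N : ℂ) * (2 * π * Complex.I * (j : ℂ) / N) = (j : ℂ) * (2 * π * Complex.I) := by
    field_simp
  rw [h, Complex.exp_nat_mul_two_pi_mul_I]

theorem zeta_pow_mem (O : ValuationSubring ℂ) (N : ℕ) (hN : N ≠ 0) (j n : ℕ) :
    zeta N j ^ n ∈ O := by
  refine rootOfUnity_mem O _ N (Nat.pos_of_ne_zero hN) ?_
  rw [← pow_mul, mul_comm, pow_mul, zeta_pow N hN, one_pow]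

/-- the expansion of `s • f ∣ cosetRep N x` in the variable `q^{1/(N M)}` -/
noncomputable def famQ (N M : ℕ) [Fact N.Prime] (s : ℂ) (f : ModularForm (Gamma0 N) 2) :
    Option (Fin N) → PowerSeries ℂ
  | none => s • expandPS (N * M) (qExpansion 1 f)
  | some j => s • expandPS M ((-(N : ℂ)⁻¹) • PowerSeries.rescale (zeta N j)
      (qExpansion 1 (ModularForm.heckeULin 2 (dvd_refl N) f)))

theorem hasQExp_famQ (N M h : ℕ) [Fact N.Prime] (hM : 0 < M) (hh : N * M = h) (s : ℂ)
    (f : ModularForm (Gamma0 N) 2) (x : Option (Fin N)) :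
    HasQExp h (s • ((f : ℍ → ℂ) ∣[(2 : ℤ)] cosetRep N x)) (famQ N M s f x) := by
  subst hh
  have hN : 0 < N := (Fact.out : N.Prime).pos
  cases x with
  | none =>
    have h := ((hasQExp_family_none N f).expand (N * M) (Nat.mul_pos hN hM)).smul s
    rwa [one_mul] at h
  | some j =>
    exact ((hasQExp_family_some N f j).expand M hM).smul s

theorem coeff_famQ_none (N M : ℕ) [Fact N.Prime] (s : ℂ) (f : ModularForm (Gamma0 N) 2)
    (m : ℕ) :
    PowerSeries.coeff m (famQ N M s f none) =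
      if N * M ∣ m then s * PowerSeries.coeff (m / (N * M)) (qExpansion 1 f) else 0 := by
  simp only [famQ, PowerSeries.coeff_smul, coeff_expandPS, smul_eq_mul]
  split_ifs <;> simp

theorem coeff_famQ_some (N M : ℕ) [Fact N.Prime] (s : ℂ) (f : ModularForm (Gamma0 N) 2)
    (j : Fin N) (m : ℕ) :
    PowerSeries.coeff m (famQ N M s f (some j)) =
      if M ∣ m then s * (-(N : ℂ)⁻¹ * (zeta N j ^ (m / M) *
        PowerSeries.coeff (m / M) (qExpansion 1 (ModularForm.heckeULin 2 (dvd_refl N) f))))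
      else 0 := by
  simp only [famQ, PowerSeries.coeff_smul, coeff_expandPS, smul_eq_mul,
    PowerSeries.coeff_rescale]
  split_ifs <;> simp

end Fam

/-! ### The side of `G` -/

section GSide

variable {O : ValuationSubring ℂ} (p : ℕ) [Fact p.Prime] (G : ModularForm (Gamma0 p) 2)

omit [Fact p.Prime] in
theorem G_coeff_zero (hG : CongrOne p 2 3 G) : PowerSeries.coeff 0 (qExpansion 1 G) = 1 :=
  hG.1

omit [Fact p.Prime] in
theorem G_coeff_div (h2 : ((2 : ℕ) : ℂ) ∈ O.nonunits) (hG : CongrOne p 2 3 G) (k : ℕ)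
    (hk : 1 ≤ k) : PowerSeries.coeff k (qExpansion 1 G) / 8 ∈ O := by
  obtain ⟨a, b, hb, h⟩ := hG.2 k hk
  have hb0 : (b : ℂ) ≠ 0 := by
    intro h0
    apply hb
    have hb' : b = 0 := by exact_mod_cast h0
    rw [hb']
    exact dvd_zero _
  have h' : PowerSeries.coeff k (qExpansion 1 G) = ((2 : ℕ) : ℂ) ^ 3 * (a : ℂ) / (b : ℂ) := h
  have h'' : PowerSeries.coeff k (qExpansion 1 G) / 8 = (a : ℂ) * (b : ℂ)⁻¹ := by
    rw [h']
    push_cast
    field_simp
    ring
  rw [h'']
  exact mul_mem (int_mem O a) (inv_int_mem 2 Nat.prime_two O h2 b hb)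

theorem QG_zero_none (hG : CongrOne p 2 3 G) :
    PowerSeries.coeff 0 (famQ p 3 (p : ℂ) G none) = (p : ℂ) := by
  rw [coeff_famQ_none]
  simp [G_coeff_zero p G hG]

theorem QG_zero_some (hG : CongrOne p 2 3 G) (j : Fin p) :
    PowerSeries.coeff 0 (famQ p 3 (p : ℂ) G (some j)) = -1 := by
  have hp0 : (p : ℂ) ≠ 0 := Nat.cast_ne_zero.mpr (Fact.out : p.Prime).ne_zero
  rw [coeff_famQ_some, coeff_heckeULin]
  simp [G_coeff_zero p G hG, hp0]

theorem QG_pos (h2 : ((2 : ℕ) : ℂ) ∈ O.nonunits) (hG : CongrOne p 2 3 G) (x : Option (Fin p))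
    (m : ℕ) (hm : 0 < m) : PowerSeries.coeff m (famQ p 3 (p : ℂ) G x) / 8 ∈ O := by
  have hp : 0 < p := (Fact.out : p.Prime).pos
  have hp0 : (p : ℂ) ≠ 0 := Nat.cast_ne_zero.mpr hp.ne'
  cases x with
  | none =>
    rw [coeff_famQ_none]
    split_ifs with hd
    · have hk : 1 ≤ m / (p * 3) := Nat.div_pos (Nat.le_of_dvd hm hd) (by positivity)
      rw [mul_div_assoc]
      exact mul_mem (nat_mem O p) (G_coeff_div p G h2 hG _ hk)
    · simp
  | some j =>
    rw [coeff_famQ_some, coeff_heckeULin]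
    split_ifs with hd
    · have hk : 1 ≤ m / 3 * p :=
        Nat.mul_pos (Nat.div_pos (Nat.le_of_dvd hm hd) (by norm_num)) hp
      have h : (p : ℂ) * (-(p : ℂ)⁻¹ * (zeta p j ^ (m / 3) *
          PowerSeries.coeff (m / 3 * p) (qExpansion 1 G))) / 8 =
          -(zeta p j ^ (m / 3) * (PowerSeries.coeff (m / 3 * p) (qExpansion 1 G) / 8)) := by
        field_simp
      rw [h]
      exact neg_mem (mul_mem (zeta_pow_mem O p hp.ne' j _) (G_coeff_div p G h2 hG _ hk))
    · simp

theorem QG_none_self : PowerSeries.coeff p (famQ p 3 (p : ℂ) G none) = 0 := by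
  have hp : 0 < p := (Fact.out : p.Prime).pos
  rw [coeff_famQ_none, if_neg]
  exact Nat.not_dvd_of_pos_of_lt hp (by omega)

end GSide

/-! ### The Eisenstein side -/

section ESide

variable {O : ValuationSubring ℂ} (p : ℕ)

theorem E_coeff_zero : PowerSeries.coeff 0 (qExpansion 1 (eisP 3)) = 1 / 12 := by
  have h : PowerSeries.coeff 0 (qExpansion 1 (eisP 3)) = (((3 : ℕ) : ℂ) - 1) / 24 :=
    qCoeff_eisP_zero 3
  rw [h]
  norm_num

theorem E_coeff (k : ℕ) (hk : 1 ≤ k) :
    PowerSeries.coeff k (qExpansion 1 (eisP 3)) = (sigmaP 3 k : ℂ) :=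
  qCoeff_eisP 3 k hk

theorem sigmaP_three_one : sigmaP 3 1 = 1 := by
  decide

theorem QE_zero_none : PowerSeries.coeff 0 (famQ 3 p (12 : ℂ) (eisP 3) none) = 1 := by
  rw [coeff_famQ_none]
  simp [E_coeff_zero]

theorem QE_zero_some (i : Fin 3) :
    PowerSeries.coeff 0 (famQ 3 p (12 : ℂ) (eisP 3) (some i)) = -(1 / 3) := by
  rw [coeff_famQ_some, heckeULin_eisP]
  simp [E_coeff_zero]
  norm_num

theorem QE_pos (x : Option (Fin 3)) (m : ℕ) (hm : 0 < m) (hp : 0 < p) :
    PowerSeries.coeff m (famQ 3 p (12 : ℂ) (eisP 3) x) / 4 ∈ O := by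
  cases x with
  | none =>
    rw [coeff_famQ_none]
    split_ifs with hd
    · have hk : 1 ≤ m / (3 * p) := Nat.div_pos (Nat.le_of_dvd hm hd) (by positivity)
      rw [E_coeff _ hk]
      have h : (12 : ℂ) * (sigmaP 3 (m / (3 * p)) : ℂ) / 4 =
          ((3 * sigmaP 3 (m / (3 * p)) : ℕ) : ℂ) := by
        push_cast
        ring
      rw [h]
      exact nat_mem O _
    · simp
  | some i =>
    rw [coeff_famQ_some, heckeULin_eisP]
    split_ifs with hd
    · have hk : 1 ≤ m / p := Nat.div_pos (Nat.le_of_dvd hm hd) hp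
      rw [E_coeff _ hk]
      have h : (12 : ℂ) * (-((3 : ℕ) : ℂ)⁻¹ * (zeta 3 i ^ (m / p) * (sigmaP 3 (m / p) : ℂ))) / 4 =
          -(zeta 3 i ^ (m / p) * (sigmaP 3 (m / p) : ℂ)) := by
        push_cast
        ring
      rw [h]
      exact neg_mem (mul_mem (zeta_pow_mem O 3 (by norm_num) i _) (nat_mem O _))
    · simp

theorem QE_none_lt (m : ℕ) (hm : 0 < m) (hlt : m < 3 * p) :
    PowerSeries.coeff m (famQ 3 p (12 : ℂ) (eisP 3) none) = 0 := by
  rw [coeff_famQ_none, if_neg]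
  exact Nat.not_dvd_of_pos_of_lt hm hlt

theorem QE_none_top (hp : 0 < p) :
    PowerSeries.coeff (3 * p) (famQ 3 p (12 : ℂ) (eisP 3) none) = 12 := by
  rw [coeff_famQ_none, if_pos (dvd_refl _), Nat.div_self (by positivity), E_coeff 1 le_rfl,
    sigmaP_three_one]
  simp

theorem QE_some_self (hp : 0 < p) (i : Fin 3) :
    PowerSeries.coeff p (famQ 3 p (12 : ℂ) (eisP 3) (some i)) = -4 * zeta 3 i := by
  rw [coeff_famQ_some, heckeULin_eisP, if_pos (dvd_refl _), Nat.div_self hp, E_coeff 1 le_rfl,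
    sigmaP_three_one]
  push_cast
  ring

end ESide

/-! ### Assembly -/

section Main

/-- numerators of the scalars `c = k / 4` -/
def kfun (p : ℕ) (k1 k2 : ℤ) : Option (Fin 3) × Option (Fin p) → ℤ
  | (none, none) => k1
  | (none, some _) => 1
  | (some _, none) => k2
  | (some _, some _) => -3

/-- the vanishing orders modulo the maximal ideal -/
def dfun (p : ℕ) : Option (Fin 3) × Option (Fin p) → ℕ
  | (none, some _) => 3 * p
  | _ => 0

theorem sum_dfun (p : ℕ) : ∑ x, dfun p x = 3 * p * p := by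
  simp [Fintype.sum_prod_type, Fintype.sum_option, dfun]
  ring

theorem core (p : ℕ) [Fact p.Prime] (hp5 : 5 ≤ p) (G : ModularForm (Gamma0 p) 2)
    (hG : CongrOne p 2 3 G) (O : ValuationSubring ℂ) (h2 : ((2 : ℕ) : ℂ) ∈ O.nonunits)
    (k1 k2 : ℤ) (hk1 : k1 ≠ 0) (hk2 : k2 ≠ 0)
    (h10 : (k1 : ℂ) / 4 * ((p : ℂ) + 1) ∈ O)
    (h1u : (k1 : ℂ) / 4 * ((p : ℂ) + 1) ∉ O.nonunits ∨ (k1 : ℂ) * 3 ∉ O.nonunits)
    (h20 : (k2 : ℂ) / 4 * ((p : ℂ) + -(1 / 3)) ∈ O)
    (h2u : (k2 : ℂ) / 4 * ((p : ℂ) + -(1 / 3)) ∉ O.nonunits ∨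
      ∀ w : ℂ, w ^ 3 = 1 → (k2 : ℂ) * (-w) ∉ O.nonunits) : False := by
  have hp : 0 < p := by omega
  have h2' : (2 : ℂ) ∈ O.nonunits := by exact_mod_cast h2
  refine engine O (ι := Option (Fin 3) × Option (Fin p)) 2 (3 * p) (by positivity)
    (fun x => (p : ℂ) • ((G : ℍ → ℂ) ∣[(2 : ℤ)] cosetRep p x.2) +
      (12 : ℂ) • ((eisP 3 : ℍ → ℂ) ∣[(2 : ℤ)] cosetRep 3 x.1)) ?_ ?_ ?_
    (fun x => famQ p 3 (p : ℂ) G x.2 + famQ 3 p (12 : ℂ) (eisP 3) x.1) ?_
    (fun x => (kfun p k1 k2 x : ℂ) / 4) ?_ ?_ ?_ (dfun p) ?_ ?_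
  · -- holomorphy
    intro x
    exact ((family_mdiff p 2 G x.2).const_smul (p : ℂ)).add
      ((family_mdiff 3 2 (eisP 3) x.1).const_smul (12 : ℂ))
  · -- boundedness
    intro x
    exact ((family_bdd p 2 G x.2).smul (p : ℂ)).add ((family_bdd 3 2 (eisP 3) x.1).smul (12 : ℂ))
  · -- equivariance
    intro g
    obtain ⟨σ3, h3⟩ := family_perm 3 2 (eisP 3) g
    obtain ⟨σp, hσp⟩ := family_perm p 2 G g
    refine ⟨Equiv.prodCongr σ3 σp, fun x => ?_⟩
    simp only [SlashAction.add_slash, ModularForm.SL_smul_slash, h3, hσp, Equiv.prodCongr_apply,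
      Prod.map_fst, Prod.map_snd]
  · -- expansions
    intro x
    exact (hasQExp_famQ p 3 (3 * p) (by norm_num) (Nat.mul_comm p 3) (p : ℂ) G x.2).add
      (hasQExp_famQ 3 p (3 * p) hp rfl (12 : ℂ) (eisP 3) x.1)
  · -- the scalars are nonzero
    rintro ⟨_ | i, _ | j⟩ <;> simp [kfun, hk1, hk2]
  · -- integrality
    rintro ⟨a, b⟩ m
    rcases Nat.eq_zero_or_pos m with rfl | hm
    · rcases a with _ | i <;> rcases b with _ | j
      · simp only [map_add, QG_zero_none p G hG, QE_zero_none, kfun]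
        exact h10
      · simp only [map_add, QG_zero_some p G hG, QE_zero_none, kfun]
        simp
      · simp only [map_add, QG_zero_none p G hG, QE_zero_some, kfun]
        exact h20
      · simp only [map_add, QG_zero_some p G hG, QE_zero_some, kfun]
        norm_num
    · simp only [map_add]
      exact scaled_mem _ (QG_pos p G h2 hG b m hm) (QE_pos p a m hm hp)
  · -- primitivity
    rintro ⟨a, b⟩
    rcases a with _ | i <;> rcases b with _ | j
    · rcases h1u with h | h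
      · refine ⟨0, ?_⟩
        simp only [map_add, QG_zero_none p G hG, QE_zero_none, kfun]
        exact h
      · refine ⟨3 * p, ?_⟩
        simp only [map_add, kfun]
        refine scaled_not_nu h2' _ (QG_pos p G h2 hG none (3 * p) (by positivity)) ?_
        rw [QE_none_top p hp]
        convert h using 2
        norm_num
    · refine ⟨3 * p, ?_⟩
      simp only [map_add, kfun]
      refine scaled_not_nu h2' _ (QG_pos p G h2 hG (some j) (3 * p) (by positivity)) ?_
      rw [QE_none_top p hp]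
      have h3 : ((3 : ℤ) : ℂ) ∉ O.nonunits := fun h => by
        have h' := (int_mem_nonunits_iff 2 Nat.prime_two O h2 3).mp h
        norm_num at h'
      convert h3 using 1
      norm_num
    · rcases h2u with h | h
      · refine ⟨0, ?_⟩
        simp only [map_add, QG_zero_none p G hG, QE_zero_some, kfun]
        exact h
      · refine ⟨p, ?_⟩
        simp only [map_add, kfun]
        rw [QG_none_self p G, QE_some_self p hp i]
        have h' := h (zeta 3 i) (zeta_pow 3 (by norm_num) i)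
        convert h' using 2
        ring
    · refine ⟨0, ?_⟩
      simp only [map_add, QG_zero_some p G hG, QE_zero_some, kfun]
      convert one_not_nu O using 1
      norm_num
  · -- vanishing orders
    rintro ⟨a, b⟩ m hm
    rcases a with _ | i <;> rcases b with _ | j
    · simp [dfun] at hm
    · have hm' : m < 3 * p := hm
      rcases Nat.eq_zero_or_pos m with rfl | hpos
      · simp only [map_add, QG_zero_some p G hG, QE_zero_none, kfun]
        simp [zero_mem]
      · simp only [map_add, kfun]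
        rw [QE_none_lt p m hpos hm']
        exact scaled_nu h2' _ (QG_pos p G h2 hG (some j) m hpos)
    · simp [dfun] at hm
    · simp [dfun] at hm
  · -- the Sturm bound
    intro n hn
    rw [sum_dfun]
    have hcard : Fintype.card (Option (Fin 3) × Option (Fin p)) = 4 * (p + 1) := by
      simp [Fintype.card_prod, Fintype.card_option]
    rw [hcard] at hn
    have hn' : n < p := by
      push_cast at hn
      omega
    exact (Nat.mul_lt_mul_left (by positivity)).mpr hn'

end Main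

end Eng3p

/-- A weight two form of prime level `p ≠ 2, 3` is not congruent to `1` modulo `8`. -/
theorem NF4 (p : ℕ) [Fact p.Prime] (hp2 : p ≠ 2) (hp3 : p ≠ 3) (G : ModularForm (Gamma0 p) 2) :
    ¬ CongrOne p 2 3 G := by
  intro hG
  have hpp : p.Prime := Fact.out
  have hp5 : 5 ≤ p := hpp.five_le_of_ne_two_of_ne_three hp2 hp3
  obtain ⟨O, h2⟩ := exists_valuationSubring 2 Nat.prime_two
  have hodd : p % 2 = 1 := hpp.eq_two_or_odd.resolve_left hp2
  have hunit : ∀ k : ℤ, ¬ (2 : ℤ) ∣ k → (k : ℂ) ∉ O.nonunits := fun k hk h =>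
    hk (by exact_mod_cast (int_mem_nonunits_iff 2 Nat.prime_two O h2 k).mp h)
  have hmod : p % 4 = 1 ∨ p % 4 = 3 := by omega
  rcases hmod with h | h
  · -- `p = 4 t + 1`: scalars `1 / 2` and `3 / 2`, units at the constant terms
    obtain ⟨t, ht⟩ : ∃ t : ℕ, p = 4 * t + 1 := ⟨p / 4, by omega⟩
    have e1 : ((2 : ℤ) : ℂ) / 4 * ((p : ℂ) + 1) = ((2 * t + 1 : ℤ) : ℂ) := by
      rw [ht]
      push_cast
      ring
    have e2 : ((6 : ℤ) : ℂ) / 4 * ((p : ℂ) + -(1 / 3)) = ((6 * t + 1 : ℤ) : ℂ) := by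
      rw [ht]
      push_cast
      ring
    refine Eng3p.core p hp5 G hG O h2 2 6 (by norm_num) (by norm_num) ?_ (Or.inl ?_) ?_
      (Or.inl ?_)
    · rw [e1]
      exact Eng3p.int_mem O _
    · rw [e1]
      exact hunit _ (by omega)
    · rw [e2]
      exact Eng3p.int_mem O _
    · rw [e2]
      exact hunit _ (by omega)
  · -- `p = 4 t + 3`: scalars `1 / 4` and `3 / 4`, units at the first nonconstant terms
    obtain ⟨t, ht⟩ : ∃ t : ℕ, p = 4 * t + 3 := ⟨p / 4, by omega⟩
    have e1 : ((1 : ℤ) : ℂ) / 4 * ((p : ℂ) + 1) = ((t + 1 : ℤ) : ℂ) := by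
      rw [ht]
      push_cast
      ring
    have e2 : ((3 : ℤ) : ℂ) / 4 * ((p : ℂ) + -(1 / 3)) = ((3 * t + 2 : ℤ) : ℂ) := by
      rw [ht]
      push_cast
      ring
    have h3 : ((3 : ℤ) : ℂ) ∉ O.nonunits := hunit 3 (by norm_num)
    refine Eng3p.core p hp5 G hG O h2 1 3 (by norm_num) (by norm_num) ?_ (Or.inr ?_) ?_
      (Or.inr ?_)
    · rw [e1]
      exact Eng3p.int_mem O _
    · have e : ((1 : ℤ) : ℂ) * 3 = ((3 : ℤ) : ℂ) := by
        push_cast
        ring
      rw [e]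
      exact h3
    · rw [e2]
      exact Eng3p.int_mem O _
    · intro w hw
      refine Eng3p.not_nu_of_mul O (b := -w ^ 2) ?_ ?_
      · exact neg_mem (pow_mem (rootOfUnity_mem O w 3 (by norm_num) hw) 2)
      · have e : ((3 : ℤ) : ℂ) * -w * -w ^ 2 = ((3 : ℤ) : ℂ) := by
          have e' : ((3 : ℤ) : ℂ) * -w * -w ^ 2 = ((3 : ℤ) : ℂ) * w ^ 3 := by ring
          rw [e', hw, mul_one]
        rw [e]
        exact h3

end Fermat.Agent.S16
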