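import Mathlib
import Fermat.Agent.S16.Defs
import Fermat.Agent.S16.Engine
import Fermat.Agent.S16.FamQ
import Fermat.Agent.S16.Cosets
import Fermat.Agent.S16.QX
import Fermat.Agent.S16.Val

/-!
# S16: the engine applied at primes `l ≥ 5` and at `l = 3`

`NF1`: for a prime `l ≥ 5` no weight two form `G` of level `Γ₀(p)` has constant term `1` and all
higher `q`-coefficients in `l ℤ_(l)`.  `NF2`: for `l = 3` none has all higher coefficients in
`9 ℤ_(3)`.

Both follow from `engine` applied to the family of translates of `Φ = p G E₄ + E₆` (weight six,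
level `Γ₀(p)`) by the coset representatives of `Γ₀(p) \ SL(2, ℤ)`.
-/

set_option autoImplicit false

namespace Fermat.Agent.S16

open ModularCurve CuspForm UpperHalfPlane CongruenceSubgroup
open scoped MatrixGroups ModularForm Manifold Real

namespace EngP

/-! ### The form `Φ = p G E₄ + E₆` and its translates -/

/-- Restriction of a level one modular form to `Γ₀(p)`. -/
noncomputable def restr (p : ℕ) {k : ℤ} (f : ModularForm 𝒮ℒ k) : ModularForm (Gamma0 p) k where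
  toFun := f
  slash_action_eq' γ hγ := f.slash_action_eq' γ (Subgroup.map_le_range _ _ hγ)
  holo' := f.holo'
  bdd_at_cusps' hc := f.bdd_at_cusps' (hc.mono (Subgroup.map_le_range _ _))

/-- The weight six form `p G E₄ + E₆` of level `p`. -/
noncomputable def Phi (p : ℕ) (G : ModularForm (Gamma0 p) 2) : ModularForm (Gamma0 p) 6 :=
  (p : ℂ) • ModularForm.mcast (by norm_num) (G.mul (restr p ModularForm.E₄)) +
    restr p ModularForm.E₆

theorem coe_Phi (p : ℕ) (G : ModularForm (Gamma0 p) 2) :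
    (Phi p G : ℍ → ℂ) =
      (p : ℂ) • ((G : ℍ → ℂ) * (ModularForm.E₄ : ℍ → ℂ)) + (ModularForm.E₆ : ℍ → ℂ) := rfl

theorem slash_Phi (p : ℕ) (G : ModularForm (Gamma0 p) 2) (γ : SL(2, ℤ)) :
    (Phi p G : ℍ → ℂ) ∣[(6 : ℤ)] γ =
      (p : ℂ) • (((G : ℍ → ℂ) ∣[(2 : ℤ)] γ) * (ModularForm.E₄ : ℍ → ℂ)) +
        (ModularForm.E₆ : ℍ → ℂ) := by
  have h : ((G : ℍ → ℂ) * (ModularForm.E₄ : ℍ → ℂ)) ∣[(6 : ℤ)] γ =
      ((G : ℍ → ℂ) ∣[(2 : ℤ)] γ) * (ModularForm.E₄ : ℍ → ℂ) := by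
    have h' := ModularForm.mul_slash_SL2 2 4 γ (G : ℍ → ℂ) (ModularForm.E₄ : ℍ → ℂ)
    rw [levelOne_slash] at h'
    exact h'
  rw [coe_Phi, SlashAction.add_slash, ModularForm.SL_smul_slash, levelOne_slash, h]

/-- The root of unity `exp(2πi i/p)`. -/
noncomputable def zeta (p : ℕ) (i : Fin p) : ℂ :=
  Complex.exp (2 * π * Complex.I * ((i : ℕ) : ℂ) / p)

theorem zeta_pow (p : ℕ) [Fact p.Prime] (i : Fin p) : zeta p i ^ p = 1 := by
  have hp : (p : ℂ) ≠ 0 := Nat.cast_ne_zero.mpr (Fact.out : p.Prime).ne_zero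
  rw [zeta, ← Complex.exp_nat_mul]
  have : (p : ℂ) * (2 * π * Complex.I * ((i : ℕ) : ℂ) / p) = ((i : ℕ) : ℂ) * (2 * π * Complex.I) := by
    field_simp
  rw [this, Complex.exp_nat_mul_two_pi_mul_I]

/-- The `q^{1/p}`-expansion of `Φ` itself. -/
noncomputable def Pnone (p : ℕ) (G : ModularForm (Gamma0 p) 2) : PowerSeries ℂ :=
  expandPS p ((p : ℂ) • (qExpansion 1 G * qExpansion 1 ModularForm.E₄) +
    qExpansion 1 ModularForm.E₆)

/-- The `q^{1/p}`-expansion of `Φ ∣ S T^i`. -/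
noncomputable def Psome (p : ℕ) [Fact p.Prime] (G : ModularForm (Gamma0 p) 2) (i : Fin p) :
    PowerSeries ℂ :=
  -(PowerSeries.rescale (zeta p i) (qExpansion 1 (ModularForm.heckeULin 2 (dvd_refl p) G)) *
      expandPS p (qExpansion 1 ModularForm.E₄)) + expandPS p (qExpansion 1 ModularForm.E₆)

theorem hasQExp_none (p : ℕ) [Fact p.Prime] (G : ModularForm (Gamma0 p) 2) :
    HasQExp p ((Phi p G : ℍ → ℂ) ∣[(6 : ℤ)] cosetRep p none) (Pnone p G) := by
  have hp : 0 < p := (Fact.out : p.Prime).pos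
  rw [slash_Phi]
  have h1 := ((((hasQExp_family_none p G).mul (hasQExp_levelOne 4 ModularForm.E₄)).smul
    (p : ℂ)).add (hasQExp_levelOne 6 ModularForm.E₆)).expand p hp
  rw [one_mul] at h1
  exact h1

theorem hasQExp_some (p : ℕ) [Fact p.Prime] (G : ModularForm (Gamma0 p) 2) (i : Fin p) :
    HasQExp p ((Phi p G : ℍ → ℂ) ∣[(6 : ℤ)] cosetRep p (some i)) (Psome p G i) := by
  have hp : 0 < p := (Fact.out : p.Prime).pos
  have hp' : (p : ℂ) ≠ 0 := Nat.cast_ne_zero.mpr hp.ne'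
  rw [slash_Phi]
  have h4 := (hasQExp_levelOne 4 ModularForm.E₄).expand p hp
  have h6 := (hasQExp_levelOne 6 ModularForm.E₆).expand p hp
  rw [one_mul] at h4 h6
  have h1 := (((hasQExp_family_some p G i).mul h4).smul (p : ℂ)).add h6
  have h2 : (p : ℂ) • ((-(p : ℂ)⁻¹) • PowerSeries.rescale
      (Complex.exp (2 * π * Complex.I * ((i : ℕ) : ℂ) / p))
        (qExpansion 1 (ModularForm.heckeULin 2 (dvd_refl p) G)) *
      expandPS p (qExpansion 1 ModularForm.E₄)) + expandPS p (qExpansion 1 ModularForm.E₆) =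
      Psome p G i := by
    rw [Psome, zeta, smul_mul_assoc, smul_smul, mul_neg, mul_inv_cancel₀ hp', neg_one_smul]
  rw [h2] at h1
  exact h1

/-! ### Coefficients modulo the maximal ideal -/

theorem coeff_expandPS (d : ℕ) (P : PowerSeries ℂ) (n : ℕ) :
    PowerSeries.coeff n (expandPS d P) = if d ∣ n then PowerSeries.coeff (n / d) P else 0 := by
  rw [expandPS, PowerSeries.coeff_mk]

/-- A series with coefficients in the maximal ideal (after scaling by `c`) times an integral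
series has coefficients in the maximal ideal (after scaling by `c`). -/
theorem small_mul (O : ValuationSubring ℂ) (c : ℂ) (S T : PowerSeries ℂ)
    (hS : ∀ n, c * PowerSeries.coeff n S ∈ O.nonunits) (hT : ∀ n, PowerSeries.coeff n T ∈ O)
    (n : ℕ) : c * PowerSeries.coeff n (S * T) ∈ O.nonunits := by
  rw [PowerSeries.coeff_mul, Finset.mul_sum]
  refine sum_mem_nonunits O _ _ fun x _ => ?_
  rw [← mul_assoc, mul_comm]
  exact mul_mem_nonunits O (hT _) (hS _)

theorem small_sub_one (O : ValuationSubring ℂ) (c : ℂ) (Q : PowerSeries ℂ)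
    (h0 : PowerSeries.coeff 0 Q = 1)
    (hQ : ∀ k, 1 ≤ k → c * PowerSeries.coeff k Q ∈ O.nonunits) (n : ℕ) :
    c * PowerSeries.coeff n (Q - 1) ∈ O.nonunits := by
  rcases Nat.eq_zero_or_pos n with rfl | hn
  · rw [map_sub, h0, PowerSeries.coeff_zero_one, sub_self, mul_zero]
    exact zero_mem_nonunits O
  · rw [map_sub, PowerSeries.coeff_one, if_neg hn.ne', sub_zero]
    exact hQ n hn

/-- The `q`-coefficients of `E₄`, as integers. -/
def E4z (n : ℕ) : ℤ := if n = 0 then 1 else 240 * (ArithmeticFunction.sigma 3 n : ℤ)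

/-- The `q`-coefficients of `E₆`, as integers. -/
def E6z (n : ℕ) : ℤ := if n = 0 then 1 else -504 * (ArithmeticFunction.sigma 5 n : ℤ)

theorem E4_coeff (n : ℕ) :
    PowerSeries.coeff n (qExpansion 1 ModularForm.E₄) = ((E4z n : ℤ) : ℂ) := by
  rcases Nat.eq_zero_or_pos n with rfl | hn
  · rw [coeff_E4_zero, E4z, if_pos rfl, Int.cast_one]
  · rw [coeff_E4 n hn, E4z, if_neg hn.ne']
    push_cast
    ring

theorem E6_coeff (n : ℕ) :
    PowerSeries.coeff n (qExpansion 1 ModularForm.E₆) = ((E6z n : ℤ) : ℂ) := by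
  rcases Nat.eq_zero_or_pos n with rfl | hn
  · rw [coeff_E6_zero, E6z, if_pos rfl, Int.cast_one]
  · rw [coeff_E6 n hn, E6z, if_neg hn.ne']
    push_cast
    ring

/-- `c • P` is congruent, modulo the maximal ideal of `O`, to `c • M(x^p)`. -/
def Approx (O : ValuationSubring ℂ) (p : ℕ) (c : ℂ) (P : PowerSeries ℂ) (M : ℕ → ℤ) : Prop :=
  ∀ n, ∃ r ∈ O.nonunits,
    c * PowerSeries.coeff n P = (if p ∣ n then c * ((M (n / p) : ℤ) : ℂ) else 0) + r

theorem Approx.mem {O : ValuationSubring ℂ} {p : ℕ} {c : ℂ} {P : PowerSeries ℂ} {M : ℕ → ℤ}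
    (h : Approx O p c P M) (hM : ∀ m, c * ((M m : ℤ) : ℂ) ∈ O) (n : ℕ) :
    c * PowerSeries.coeff n P ∈ O := by
  obtain ⟨r, hr, h1⟩ := h n
  rw [h1]
  refine add_mem ?_ (mem_of_mem_nonunits O hr)
  split_ifs
  · exact hM _
  · exact zero_mem O

theorem Approx.exists_not_mem {O : ValuationSubring ℂ} {p : ℕ} {c : ℂ} {P : PowerSeries ℂ}
    {M : ℕ → ℤ} (h : Approx O p c P M) (hp : 0 < p) (hM : ∀ m, c * ((M m : ℤ) : ℂ) ∈ O)
    (hU : ∃ m, c * ((M m : ℤ) : ℂ) ∉ O.nonunits) :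
    ∃ n, c * PowerSeries.coeff n P ∉ O.nonunits := by
  obtain ⟨m, hm⟩ := hU
  obtain ⟨r, hr, h1⟩ := h (m * p)
  refine ⟨m * p, ?_⟩
  rw [h1, if_pos (dvd_mul_left p m), Nat.mul_div_cancel m hp]
  exact add_not_mem_nonunits O (hM m) hm hr

theorem Approx.mem_nonunits {O : ValuationSubring ℂ} {p : ℕ} {c : ℂ} {P : PowerSeries ℂ}
    {M : ℕ → ℤ} (h : Approx O p c P M) (hM0 : M 0 = 0) (n : ℕ) (hn : n < p) :
    c * PowerSeries.coeff n P ∈ O.nonunits := by
  obtain ⟨r, hr, h1⟩ := h n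
  rw [h1]
  have h2 : (if p ∣ n then c * ((M (n / p) : ℤ) : ℂ) else 0) = 0 := by
    split_ifs with hpn
    · rw [Nat.div_eq_of_lt hn, hM0, Int.cast_zero, mul_zero]
    · rfl
  rw [h2, zero_add]
  exact hr

theorem approx_some (O : ValuationSubring ℂ) (p : ℕ) [Fact p.Prime]
    (G : ModularForm (Gamma0 p) 2) (c : ℂ) (h0 : PowerSeries.coeff 0 (qExpansion 1 G) = 1)
    (hG : ∀ k, 1 ≤ k → c * PowerSeries.coeff k (qExpansion 1 G) ∈ O.nonunits) (i : Fin p) :
    Approx O p c (Psome p G i) (fun m => E6z m - E4z m) := by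
  intro n
  have hp : 0 < p := (Fact.out : p.Prime).pos
  have hζ : ∀ k : ℕ, zeta p i ^ k ∈ O := fun k =>
    pow_mem (rootOfUnity_mem O _ p hp (zeta_pow p i)) k
  have hA1 : ∀ n, c * PowerSeries.coeff n
      (PowerSeries.rescale (zeta p i) (qExpansion 1 (ModularForm.heckeULin 2 (dvd_refl p) G)) - 1)
        ∈ O.nonunits := by
    apply small_sub_one
    · rw [PowerSeries.coeff_rescale, pow_zero, one_mul, coeff_heckeULin, zero_mul, h0]
    · intro k hk
      rw [PowerSeries.coeff_rescale, coeff_heckeULin, mul_left_comm]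
      exact mul_mem_nonunits O (hζ k) (hG _ (Nat.mul_pos hk hp))
  have hX : ∀ n, PowerSeries.coeff n (expandPS p (qExpansion 1 ModularForm.E₄)) ∈ O := by
    intro n
    rw [coeff_expandPS]
    split_ifs
    · rw [E4_coeff]
      exact intCast_mem O _
    · exact zero_mem O
  have hS : ∀ n, c * PowerSeries.coeff n
      (-(PowerSeries.rescale (zeta p i)
        (qExpansion 1 (ModularForm.heckeULin 2 (dvd_refl p) G)) - 1)) ∈ O.nonunits := by
    intro n
    rw [map_neg, mul_neg]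
    exact neg_mem_nonunits O (hA1 n)
  refine ⟨_, small_mul O c _ _ hS hX n, ?_⟩
  have hP : Psome p G i = (expandPS p (qExpansion 1 ModularForm.E₆) -
      expandPS p (qExpansion 1 ModularForm.E₄)) +
      (-(PowerSeries.rescale (zeta p i)
        (qExpansion 1 (ModularForm.heckeULin 2 (dvd_refl p) G)) - 1)) *
        expandPS p (qExpansion 1 ModularForm.E₄) := by
    rw [Psome]
    ring
  rw [hP, map_add, mul_add, map_sub, coeff_expandPS, coeff_expandPS]
  congr 1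
  split_ifs
  · rw [E4_coeff, E6_coeff]
    push_cast
    ring
  · simp

theorem approx_none (O : ValuationSubring ℂ) (p : ℕ) [Fact p.Prime]
    (G : ModularForm (Gamma0 p) 2) (c : ℂ) (h0 : PowerSeries.coeff 0 (qExpansion 1 G) = 1)
    (hG : ∀ k, 1 ≤ k → c * PowerSeries.coeff k (qExpansion 1 G) ∈ O.nonunits) :
    Approx O p c (Pnone p G) (fun m => (p : ℤ) * E4z m + E6z m) := by
  intro n
  have hQ1 := small_sub_one O c (qExpansion 1 G) h0 hG
  have hS : ∀ n, c * PowerSeries.coeff n ((p : ℂ) • (qExpansion 1 G - 1)) ∈ O.nonunits := by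
    intro n
    rw [PowerSeries.coeff_smul, smul_eq_mul, mul_left_comm]
    exact mul_mem_nonunits O (natCast_mem O p) (hQ1 n)
  have hB : ∀ n, PowerSeries.coeff n (qExpansion 1 ModularForm.E₄) ∈ O := by
    intro n
    rw [E4_coeff]
    exact intCast_mem O _
  have hP : (p : ℂ) • (qExpansion 1 G * qExpansion 1 ModularForm.E₄) +
      qExpansion 1 ModularForm.E₆ =
      ((p : ℂ) • qExpansion 1 ModularForm.E₄ + qExpansion 1 ModularForm.E₆) +
        ((p : ℂ) • (qExpansion 1 G - 1)) * qExpansion 1 ModularForm.E₄ := by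
    rw [smul_mul_assoc, sub_mul, one_mul, smul_sub]
    ring
  by_cases hpn : p ∣ n
  · refine ⟨_, small_mul O c _ _ hS hB (n / p), ?_⟩
    rw [if_pos hpn, Pnone, coeff_expandPS, if_pos hpn, hP, map_add, mul_add, map_add,
      PowerSeries.coeff_smul, smul_eq_mul, E4_coeff, E6_coeff]
    push_cast
    ring
  · refine ⟨0, zero_mem_nonunits O, ?_⟩
    rw [if_neg hpn, Pnone, coeff_expandPS, if_neg hpn, mul_zero, add_zero]

/-- The common core of `NF1` and `NF2`: the engine applied to the translates of `Φ`. -/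
theorem core (O : ValuationSubring ℂ) (p : ℕ) [Fact p.Prime] (G : ModularForm (Gamma0 p) 2)
    (c₁ c₂ : ℂ) (hc₁ : c₁ ≠ 0) (hc₂ : c₂ ≠ 0)
    (h0 : PowerSeries.coeff 0 (qExpansion 1 G) = 1)
    (hG₁ : ∀ k, 1 ≤ k → c₁ * PowerSeries.coeff k (qExpansion 1 G) ∈ O.nonunits)
    (hG₂ : ∀ k, 1 ≤ k → c₂ * PowerSeries.coeff k (qExpansion 1 G) ∈ O.nonunits)
    (hM₁ : ∀ n, c₁ * ((E6z n - E4z n : ℤ) : ℂ) ∈ O)
    (hU₁ : ∃ n, c₁ * ((E6z n - E4z n : ℤ) : ℂ) ∉ O.nonunits)
    (hM₂ : ∀ n, c₂ * (((p : ℤ) * E4z n + E6z n : ℤ) : ℂ) ∈ O)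
    (hU₂ : ∃ n, c₂ * (((p : ℤ) * E4z n + E6z n : ℤ) : ℂ) ∉ O.nonunits) : False := by
  have hp : p.Prime := Fact.out
  refine engine O 6 p hp.pos (fun x => (Phi p G : ℍ → ℂ) ∣[(6 : ℤ)] cosetRep p x)
    (family_mdiff p 6 (Phi p G)) (family_bdd p 6 (Phi p G)) (family_perm p 6 (Phi p G))
    (fun x => x.elim (Pnone p G) (Psome p G)) ?_ (fun x => x.elim c₂ (fun _ => c₁)) ?_ ?_ ?_
    (fun x => x.elim 0 (fun _ => p)) ?_ ?_
  · rintro (_ | i)
    · exact hasQExp_none p G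
    · exact hasQExp_some p G i
  · rintro (_ | i)
    · exact hc₂
    · exact hc₁
  · rintro (_ | i) n
    · exact (approx_none O p G c₂ h0 hG₂).mem hM₂ n
    · exact (approx_some O p G c₁ h0 hG₁ i).mem hM₁ n
  · rintro (_ | i)
    · exact (approx_none O p G c₂ h0 hG₂).exists_not_mem hp.pos hM₂ hU₂
    · exact (approx_some O p G c₁ h0 hG₁ i).exists_not_mem hp.pos hM₁ hU₁
  · rintro (_ | i) n hn
    · exact absurd hn (Nat.not_lt_zero n)
    · exact (approx_some O p G c₁ h0 hG₁ i).mem_nonunits (by decide) n hn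
  · intro n hn
    rw [Fintype.card_option, Fintype.card_fin] at hn
    rw [Fintype.sum_option]
    simp only [Option.elim, Finset.sum_const, Finset.card_univ, Fintype.card_fin, smul_eq_mul,
      zero_add]
    have h2 := hp.two_le
    have h3 : n < p := by
      push_cast at hn
      omega
    exact Nat.mul_lt_mul_of_pos_left h3 hp.pos

/-! ### Arithmetic of the coefficients of `E₄`, `E₆` -/

theorem E4z_zero : E4z 0 = 1 := by decide

theorem E6z_zero : E6z 0 = 1 := by decide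

theorem E4z_one : E4z 1 = 240 := by decide

theorem E6z_one : E6z 1 = -504 := by decide

theorem E4z_two : E4z 2 = 2160 := by decide

theorem E6z_two : E6z 2 = -16632 := by decide

theorem not_dvd_744 (l : ℕ) (hl : l.Prime) (h5 : 5 ≤ l) (h31 : l ≠ 31) : ¬ (l : ℤ) ∣ 744 := by
  intro h
  have h' : l ∣ 2 ^ 3 * 3 * 31 := by
    have : ((l : ℕ) : ℤ) ∣ ((744 : ℕ) : ℤ) := by exact_mod_cast h
    exact Int.natCast_dvd_natCast.mp this
  rcases (Nat.Prime.dvd_mul hl).mp h' with h1 | h1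
  · rcases (Nat.Prime.dvd_mul hl).mp h1 with h2 | h2
    · have := (Nat.prime_dvd_prime_iff_eq hl Nat.prime_two).mp (hl.dvd_of_dvd_pow h2)
      omega
    · have := (Nat.prime_dvd_prime_iff_eq hl Nat.prime_three).mp h2
      omega
  · have := (Nat.prime_dvd_prime_iff_eq hl (by norm_num)).mp h1
    omega

theorem arith_some (l : ℕ) (hl : l.Prime) (h5 : 5 ≤ l) : ∃ n, ¬ (l : ℤ) ∣ E6z n - E4z n := by
  by_cases h31 : l = 31
  · subst h31
    refine ⟨2, ?_⟩
    rw [E6z_two, E4z_two]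
    decide
  · refine ⟨1, ?_⟩
    rw [E6z_one, E4z_one]
    intro h
    refine not_dvd_744 l hl h5 h31 ?_
    have h2 : (-504 - 240 : ℤ) = -744 := by norm_num
    rw [h2] at h
    exact (Int.dvd_neg).mp h

theorem arith_none (l : ℕ) (hl : l.Prime) (h5 : 5 ≤ l) (p : ℕ) :
    ∃ n, ¬ (l : ℤ) ∣ (p : ℤ) * E4z n + E6z n := by
  by_cases h : (l : ℤ) ∣ (p : ℤ) + 1
  · by_cases h31 : l = 31
    · subst h31
      refine ⟨2, ?_⟩
      rw [E6z_two, E4z_two]
      intro h2
      push_cast at h h2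
      omega
    · refine ⟨1, ?_⟩
      rw [E6z_one, E4z_one]
      intro h2
      refine not_dvd_744 l hl h5 h31 ?_
      have h3 : (744 : ℤ) = 240 * ((p : ℤ) + 1) - ((p : ℤ) * 240 + -504) := by ring
      rw [h3]
      exact dvd_sub (Dvd.dvd.mul_left h 240) h2
  · refine ⟨0, ?_⟩
    rw [E6z_zero, E4z_zero, mul_one]
    exact h

theorem three_dvd_some (n : ℕ) : ∃ t : ℤ, E6z n - E4z n = 3 * t := by
  rcases Nat.eq_zero_or_pos n with rfl | hn
  · exact ⟨0, by rw [E6z_zero, E4z_zero]; norm_num⟩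
  · refine ⟨-168 * (ArithmeticFunction.sigma 5 n : ℤ) - 80 * (ArithmeticFunction.sigma 3 n : ℤ), ?_⟩
    rw [E6z, E4z, if_neg hn.ne', if_neg hn.ne']
    ring

theorem three_dvd_none (p : ℕ) (h : (3 : ℤ) ∣ (p : ℤ) + 1) (n : ℕ) :
    ∃ t : ℤ, (p : ℤ) * E4z n + E6z n = 3 * t := by
  rcases Nat.eq_zero_or_pos n with rfl | hn
  · obtain ⟨t, ht⟩ := h
    exact ⟨t, by rw [E6z_zero, E4z_zero, mul_one, ht]⟩
  · refine ⟨(p : ℤ) * (80 * (ArithmeticFunction.sigma 3 n : ℤ)) -
      168 * (ArithmeticFunction.sigma 5 n : ℤ), ?_⟩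
    rw [E6z, E4z, if_neg hn.ne', if_neg hn.ne']
    ring

theorem third_mul (t : ℤ) : (3 : ℂ)⁻¹ * ((3 * t : ℤ) : ℂ) = (t : ℂ) := by
  push_cast
  field_simp

end EngP

open EngP in
theorem NF1 (p l : ℕ) [Fact p.Prime] (hl : l.Prime) (h5 : 5 ≤ l) (G : ModularForm (Gamma0 p) 2) :
    ¬ CongrOne p l 1 G := by
  rintro ⟨h0, hk⟩
  obtain ⟨O, hO⟩ := exists_valuationSubring l hl
  have hG : ∀ k, 1 ≤ k → 1 * PowerSeries.coeff k (qExpansion 1 G) ∈ O.nonunits := by
    intro k hk1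
    obtain ⟨a, b, hb, hab⟩ := hk k hk1
    have hab' : PowerSeries.coeff k (qExpansion 1 G) = ((a : ℂ) * ((b : ℂ))⁻¹) * (l : ℂ) := by
      rw [show PowerSeries.coeff k (qExpansion 1 G) = ModularFormClass.qCoeff G k from rfl, hab]
      ring
    rw [one_mul, hab']
    exact mul_mem_nonunits O (mul_mem (intCast_mem O a) (inv_int_mem l hl O hO b hb)) hO
  refine core O p G 1 1 one_ne_zero one_ne_zero h0 hG hG ?_ ?_ ?_ ?_
  · intro n
    rw [one_mul]
    exact intCast_mem O _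
  · obtain ⟨n, hn⟩ := arith_some l hl h5
    exact ⟨n, by rw [one_mul]; exact int_not_mem_nonunits l hl O hO _ hn⟩
  · intro n
    rw [one_mul]
    exact intCast_mem O _
  · obtain ⟨n, hn⟩ := arith_none l hl h5 p
    exact ⟨n, by rw [one_mul]; exact int_not_mem_nonunits l hl O hO _ hn⟩

open EngP in
theorem NF2 (p : ℕ) [Fact p.Prime] (hp : p ≠ 3) (G : ModularForm (Gamma0 p) 2) :
    ¬ CongrOne p 3 2 G := by
  -- the hypothesis `p ≠ 3` of the interface is not needed by this proof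
  have _ := hp
  rintro ⟨h0, hk⟩
  obtain ⟨O, hO⟩ := exists_valuationSubring 3 Nat.prime_three
  have h3 : (3 : ℂ) ∈ O.nonunits := by simpa using hO
  have hG3 : ∀ k, 1 ≤ k → (3 : ℂ)⁻¹ * PowerSeries.coeff k (qExpansion 1 G) ∈ O.nonunits := by
    intro k hk1
    obtain ⟨a, b, hb, hab⟩ := hk k hk1
    have hab' : (3 : ℂ)⁻¹ * PowerSeries.coeff k (qExpansion 1 G) =
        ((a : ℂ) * ((b : ℂ))⁻¹) * (3 : ℂ) := by
      rw [show PowerSeries.coeff k (qExpansion 1 G) = ModularFormClass.qCoeff G k from rfl, hab]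
      push_cast
      ring
    rw [hab']
    exact mul_mem_nonunits O
      (mul_mem (intCast_mem O a) (inv_int_mem 3 Nat.prime_three O hO b hb)) h3
  have hG1 : ∀ k, 1 ≤ k → 1 * PowerSeries.coeff k (qExpansion 1 G) ∈ O.nonunits := by
    intro k hk1
    have h := mul_mem_nonunits O (mem_of_mem_nonunits O h3) (hG3 k hk1)
    have h' : (3 : ℂ) * ((3 : ℂ)⁻¹ * PowerSeries.coeff k (qExpansion 1 G)) =
        1 * PowerSeries.coeff k (qExpansion 1 G) := by
      rw [← mul_assoc, mul_inv_cancel₀ (by norm_num : (3 : ℂ) ≠ 0)]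
    rw [← h']
    exact h
  have h3' : (3 : ℂ)⁻¹ ≠ 0 := inv_ne_zero (by norm_num)
  have hM₁ : ∀ n, (3 : ℂ)⁻¹ * ((E6z n - E4z n : ℤ) : ℂ) ∈ O := by
    intro n
    obtain ⟨t, ht⟩ := three_dvd_some n
    rw [ht, third_mul]
    exact intCast_mem O t
  have hU₁ : ∃ n, (3 : ℂ)⁻¹ * ((E6z n - E4z n : ℤ) : ℂ) ∉ O.nonunits := by
    refine ⟨1, ?_⟩
    have h1 : E6z 1 - E4z 1 = 3 * (-248) := by rw [E6z_one, E4z_one]; norm_num
    rw [h1, third_mul]
    exact int_not_mem_nonunits 3 Nat.prime_three O hO _ (by decide)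
  by_cases hp1 : (3 : ℤ) ∣ (p : ℤ) + 1
  · refine core O p G (3 : ℂ)⁻¹ (3 : ℂ)⁻¹ h3' h3' h0 hG3 hG3 hM₁ hU₁ ?_ ?_
    · intro n
      obtain ⟨t, ht⟩ := three_dvd_none p hp1 n
      rw [ht, third_mul]
      exact intCast_mem O t
    · refine ⟨1, ?_⟩
      have h1 : (p : ℤ) * E4z 1 + E6z 1 = 3 * (80 * (p : ℤ) - 168) := by
        rw [E6z_one, E4z_one]
        ring
      rw [h1, third_mul]
      refine int_not_mem_nonunits 3 Nat.prime_three O hO _ ?_
      push_cast
      omega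
  · refine core O p G (3 : ℂ)⁻¹ 1 h3' one_ne_zero h0 hG3 hG1 hM₁ hU₁ ?_ ?_
    · intro n
      rw [one_mul]
      exact intCast_mem O _
    · refine ⟨0, ?_⟩
      rw [one_mul, E6z_zero, E4z_zero, mul_one]
      exact int_not_mem_nonunits 3 Nat.prime_three O hO _ hp1

end Fermat.Agent.S16
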