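import Mathlib
import Fermat.Agent.S16.Defs
import Fermat.Agent.S16.Cosets
import Fermat.Agent.S16.Fricke
import Fermat.Agent.S16.Eis
import Fermat.Agent.S16.NormFam
import Fermat.Agent.S16.QX
import Fermat.Agent.S16.FamQ
import Fermat.Agent.S16.SigmaP

/-!
# S16: the linear trace identity and the non-existence statements `NF3`, `NF5`

For a weight two form `G` of level `Γ₀(p)` and the Eisenstein series `E = eisP p`, the trace to
level one of the weight four form `G · E` is a multiple of `E₄`.  Comparing the coefficients of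
`q⁰` and `q¹` yields

  `a₁(G) (p² - 1)/24 + ∑_{0 < i < p} a_{ip}(G) σ'(p - i) = (p + 1)(10 p - 11)`

whenever `a₀(G) = 1`.  If all higher coefficients of `G` lie in `l ^ r • ℤ_(l)` this forces
`l ^ r ∣ (p + 1)(10 p - 11)`, which is impossible for `l ^ r = 3`, `p ≡ 1 mod 3` and for
`l ^ r = 4`, `p ≡ 1 mod 4`.
-/

set_option autoImplicit false

namespace Fermat.Agent.S16

open ModularCurve CuspForm UpperHalfPlane CongruenceSubgroup
open scoped MatrixGroups ModularForm Manifold Real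

namespace TraceLin

/-- The product `G · E` (with `E = eisP p`) as a modular form of weight four and level `p`. -/
noncomputable def prodForm (p : ℕ) [Fact p.Prime] (G : ModularForm (Gamma0 p) 2) :
    ModularForm (Gamma0 p) 4 :=
  ModularForm.mcast (by norm_num) (G.mul (eisP p))

theorem prodForm_slash (p : ℕ) [Fact p.Prime] (G : ModularForm (Gamma0 p) 2)
    (A : SL(2, ℤ)) :
    ((prodForm p G : ModularForm (Gamma0 p) 4) : ℍ → ℂ) ∣[(4 : ℤ)] A =
      ((G : ℍ → ℂ) ∣[(2 : ℤ)] A) *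
        (((eisP p : ModularForm (Gamma0 p) 2) : ℍ → ℂ) ∣[(2 : ℤ)] A) :=
  ModularForm.mul_slash_SL2 2 2 A (G : ℍ → ℂ)
    ((eisP p : ModularForm (Gamma0 p) 2) : ℍ → ℂ)

/-- the expansions of the translates of `G · E` at period `p` -/
noncomputable def famPS (p : ℕ) [Fact p.Prime] (G : ModularForm (Gamma0 p) 2) :
    Option (Fin p) → PowerSeries ℂ
  | none => expandPS p (qExpansion 1 G * qExpansion 1 (eisP p))
  | some i =>
      ((-(p : ℂ)⁻¹) •
        PowerSeries.rescale (Complex.exp (2 * π * Complex.I * ((i : ℕ) : ℂ) / p))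
          (qExpansion 1 (ModularForm.heckeULin 2 (dvd_refl p) G))) *
      ((-(p : ℂ)⁻¹) •
        PowerSeries.rescale (Complex.exp (2 * π * Complex.I * ((i : ℕ) : ℂ) / p))
          (qExpansion 1 (eisP p)))

theorem hasQExp_fam (p : ℕ) [Fact p.Prime] (G : ModularForm (Gamma0 p) 2)
    (x : Option (Fin p)) :
    HasQExp p
      (((prodForm p G : ModularForm (Gamma0 p) 4) : ℍ → ℂ) ∣[(4 : ℤ)] cosetRep p x)
      (famPS p G x) := by
  rw [prodForm_slash]
  cases x with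
  | none =>
    have h := ((hasQExp_family_none p G).mul (hasQExp_family_none p (eisP p))).expand p
      (Fact.out : p.Prime).pos
    rw [one_mul] at h
    exact h
  | some i =>
    have h := (hasQExp_family_some p G i).mul (hasQExp_family_some p (eisP p) i)
    rw [heckeULin_eisP] at h
    exact h

theorem coeff_expandPS_mul (d : ℕ) (hd : 0 < d) (P : PowerSeries ℂ) (m : ℕ) :
    PowerSeries.coeff (d * m) (expandPS d P) = PowerSeries.coeff m P := by
  unfold expandPS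
  rw [PowerSeries.coeff_mk, if_pos (dvd_mul_right d m), Nat.mul_div_cancel_left m hd]

theorem exp_pow_eq_one (p : ℕ) (hp : 0 < p) (i m : ℕ) :
    Complex.exp (2 * π * Complex.I * (i : ℂ) / p) ^ (p * m) = 1 := by
  rw [← Complex.exp_nat_mul]
  have hp' : (p : ℂ) ≠ 0 := Nat.cast_ne_zero.mpr hp.ne'
  have : ((p * m : ℕ) : ℂ) * (2 * π * Complex.I * (i : ℂ) / p) =
      ((i * m : ℕ) : ℂ) * (2 * π * Complex.I) := by
    push_cast
    field_simp
  rw [this]
  exact Complex.exp_nat_mul_two_pi_mul_I _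

theorem coeff_famPS_some (p : ℕ) [Fact p.Prime] (G : ModularForm (Gamma0 p) 2) (i : Fin p)
    (m : ℕ) :
    PowerSeries.coeff (p * m) (famPS p G (some i)) =
      ((p : ℂ)⁻¹) ^ 2 * PowerSeries.coeff (p * m)
        (qExpansion 1 (ModularForm.heckeULin 2 (dvd_refl p) G) * qExpansion 1 (eisP p)) := by
  have hp : 0 < p := (Fact.out : p.Prime).pos
  show PowerSeries.coeff (p * m) (((-(p : ℂ)⁻¹) • PowerSeries.rescale _ _) *
      ((-(p : ℂ)⁻¹) • PowerSeries.rescale _ _)) = _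
  rw [smul_mul_smul_comm, ← map_mul, PowerSeries.coeff_smul, PowerSeries.coeff_rescale,
    exp_pow_eq_one p hp, one_mul, smul_eq_mul]
  ring

/-- The linear trace identity. -/
theorem trace_identity (p : ℕ) [Fact p.Prime] (G : ModularForm (Gamma0 p) 2) :
    ∃ c : ℂ, ∀ m : ℕ,
      PowerSeries.coeff m (qExpansion 1 G * qExpansion 1 (eisP p)) +
        (p : ℂ)⁻¹ * PowerSeries.coeff (p * m)
          (qExpansion 1 (ModularForm.heckeULin 2 (dvd_refl p) G) * qExpansion 1 (eisP p)) =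
      c * PowerSeries.coeff m (qExpansion 1 ModularForm.E₄) := by
  have hp : 0 < p := (Fact.out : p.Prime).pos
  have hp' : (p : ℂ) ≠ 0 := Nat.cast_ne_zero.mpr hp.ne'
  obtain ⟨N, hN⟩ := exists_levelOne_sum (ι := Option (Fin p)) 4
    (fun x => ((prodForm p G : ModularForm (Gamma0 p) 4) : ℍ → ℂ) ∣[(4 : ℤ)] cosetRep p x)
    (fun x => family_mdiff p 4 (prodForm p G) x)
    (fun x => family_bdd p 4 (prodForm p G) x)
    (fun g => family_perm p 4 (prodForm p G) g)
  obtain ⟨c, hc⟩ : ∃ c : ℂ, c • ModularForm.E₄ = N :=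
    (finrank_eq_one_iff_of_nonzero' ModularForm.E₄
      (EisensteinSeries.E_ne_zero _ ⟨2, rfl⟩)).mp
      (Module.rank_eq_one_iff_finrank_eq_one.mp
        ModularForm.levelOne_weight_four_rank_one) _
  have hqN : qExpansion 1 (N : ℍ → ℂ) = c • qExpansion 1 (ModularForm.E₄ : ℍ → ℂ) := by
    rw [← ModularForm.qExpansion_smul one_pos one_mem_strictPeriods_SL c
      ModularForm.E₄, show (c • ModularForm.E₄ : ℍ → ℂ) = N from congrArg DFunLike.coe hc]
  have hsum := coeff_sum_eq p hp _ (famPS p G) (hasQExp_fam p G) 4 N hN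
  refine ⟨c, fun m => ?_⟩
  have h1 := congrArg (PowerSeries.coeff (p * m)) hsum
  rw [coeff_expandPS_mul p hp, hqN, PowerSeries.coeff_smul, smul_eq_mul, map_sum,
    Fintype.sum_option] at h1
  rw [← h1]
  congr 1
  · exact (coeff_expandPS_mul p hp _ m).symm
  · rw [Finset.sum_congr rfl (fun i _ => coeff_famPS_some p G i m), Finset.sum_const,
      Finset.card_univ, Fintype.card_fin, nsmul_eq_mul]
    field_simp

theorem coeff_eisP_zero (p : ℕ) [Fact p.Prime] :
    PowerSeries.coeff 0 (qExpansion 1 (eisP p)) = ((p : ℂ) - 1) / 24 :=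
  qCoeff_eisP_zero p

theorem coeff_eisP (p : ℕ) [Fact p.Prime] (k : ℕ) (hk : 1 ≤ k) :
    PowerSeries.coeff k (qExpansion 1 (eisP p)) = (sigmaP p k : ℂ) :=
  qCoeff_eisP p k hk

theorem sigmaP_self (p : ℕ) [Fact p.Prime] : sigmaP p p = 1 := by
  have h := sigmaP_mul_self p 1 Fact.out le_rfl
  rw [one_mul, sigmaP_one p Fact.out] at h
  exact h

theorem coeff_mul_self_sq (p : ℕ) [Fact p.Prime] (G : ModularForm (Gamma0 p) 2) :
    PowerSeries.coeff p (qExpansion 1 (ModularForm.heckeULin 2 (dvd_refl p) G)) =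
      PowerSeries.coeff 1 (qExpansion 1 G) := by
  have h1 := coeff_heckeULin p (ModularForm.heckeULin 2 (dvd_refl p) G) 1
  rw [heckeULin_heckeULin, one_mul] at h1
  exact h1.symm

/-- The coefficient of `x ^ p` in `Q_{U_p G} · Q_E`. -/
theorem coeff_p (p : ℕ) [Fact p.Prime] (G : ModularForm (Gamma0 p) 2)
    (h0 : PowerSeries.coeff 0 (qExpansion 1 G) = 1) :
    PowerSeries.coeff p
        (qExpansion 1 (ModularForm.heckeULin 2 (dvd_refl p) G) * qExpansion 1 (eisP p)) =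
      1 + PowerSeries.coeff 1 (qExpansion 1 G) * (((p : ℂ) - 1) / 24) +
        ∑ k ∈ Finset.range (p - 1),
          PowerSeries.coeff ((k + 1) * p) (qExpansion 1 G) * (sigmaP p (p - (k + 1)) : ℂ) := by
  have hp : 1 ≤ p := (Fact.out : p.Prime).pos
  rw [PowerSeries.coeff_mul, Finset.Nat.sum_antidiagonal_eq_sum_range_succ_mk,
    Finset.sum_range_succ]
  obtain ⟨q, rfl⟩ : ∃ q, p = q + 1 := ⟨p - 1, by omega⟩
  rw [Finset.sum_range_succ']
  simp only [Nat.sub_zero, Nat.sub_self, Nat.add_sub_cancel]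
  rw [coeff_mul_self_sq, coeff_eisP_zero, coeff_eisP _ _ hp, sigmaP_self, coeff_heckeULin,
    zero_mul, h0]
  have hsum : ∑ k ∈ Finset.range q,
        PowerSeries.coeff (k + 1)
            (qExpansion 1 (ModularForm.heckeULin 2 (dvd_refl (q + 1)) G)) *
          PowerSeries.coeff (q + 1 - (k + 1)) (qExpansion 1 (eisP (q + 1))) =
      ∑ k ∈ Finset.range q,
        PowerSeries.coeff ((k + 1) * (q + 1)) (qExpansion 1 G) *
          (sigmaP (q + 1) (q + 1 - (k + 1)) : ℂ) := by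
    refine Finset.sum_congr rfl fun k hk => ?_
    have hk' : k < q := Finset.mem_range.mp hk
    rw [coeff_heckeULin, coeff_eisP _ _ (by omega)]
  rw [hsum]
  push_cast
  ring

/-- The key identity. -/
theorem key_identity (p : ℕ) [Fact p.Prime] (G : ModularForm (Gamma0 p) 2)
    (h0 : PowerSeries.coeff 0 (qExpansion 1 G) = 1) :
    PowerSeries.coeff 1 (qExpansion 1 G) * (((p : ℂ) ^ 2 - 1) / 24) +
        ∑ k ∈ Finset.range (p - 1),
          PowerSeries.coeff ((k + 1) * p) (qExpansion 1 G) * (sigmaP p (p - (k + 1)) : ℂ) =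
      ((p : ℂ) + 1) * (10 * p - 11) := by
  have hp : 0 < p := (Fact.out : p.Prime).pos
  have hp' : (p : ℂ) ≠ 0 := Nat.cast_ne_zero.mpr hp.ne'
  obtain ⟨c, hc⟩ := trace_identity p G
  have hc0 := hc 0
  have hc1 := hc 1
  have hG'0 :
      PowerSeries.coeff 0 (qExpansion 1 (ModularForm.heckeULin 2 (dvd_refl p) G)) = 1 := by
    rw [coeff_heckeULin, zero_mul, h0]
  have hE40 : PowerSeries.coeff 0 (qExpansion 1 ModularForm.E₄) = 1 :=
    EisensteinSeries.E_qExpansion_coeff_zero _ ⟨2, rfl⟩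
  rw [mul_zero, PowerSeries.coeff_zero_eq_constantCoeff, map_mul, map_mul,
    ← PowerSeries.coeff_zero_eq_constantCoeff, h0, hG'0, coeff_eisP_zero, hE40] at hc0
  rw [mul_one, coeff_p p G h0, ModularForm.E₄_qExpansion_coeff_one, PowerSeries.coeff_mul,
    Finset.Nat.sum_antidiagonal_eq_sum_range_succ_mk, Finset.sum_range_succ,
    Finset.sum_range_one, h0, coeff_eisP_zero, coeff_eisP _ _ le_rfl,
    sigmaP_one p Fact.out] at hc1
  set a1 := PowerSeries.coeff 1 (qExpansion 1 G) with ha1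
  set S := ∑ k ∈ Finset.range (p - 1),
    PowerSeries.coeff ((k + 1) * p) (qExpansion 1 G) * (sigmaP p (p - (k + 1)) : ℂ) with hS
  have hc0' : c = ((p : ℂ) - 1) / 24 + (p : ℂ)⁻¹ * (((p : ℂ) - 1) / 24) := by
    rw [← mul_one c, ← hc0]
    ring
  rw [hc0', Nat.cast_one] at hc1
  have hu : (p : ℂ) * (p : ℂ)⁻¹ = 1 := mul_inv_cancel₀ hp'
  linear_combination (p : ℂ) * hc1 +
    (-a1 * ((p : ℂ) - 1) / 24 - S - 1 + 10 * ((p : ℂ) - 1)) * hu

/-- `x ∈ l ^ r • ℤ_(l)`. -/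
def LDiv (l r : ℕ) (x : ℂ) : Prop :=
  ∃ a b : ℤ, ¬ (l : ℤ) ∣ b ∧ x = (l : ℂ) ^ r * (a : ℂ) / (b : ℂ)

theorem LDiv.zero {l r : ℕ} (hl : l.Prime) : LDiv l r 0 := by
  exact ⟨0, 1, (Nat.prime_iff_prime_int.mp hl).not_dvd_one, by simp⟩

theorem LDiv.add {l r : ℕ} (hl : l.Prime) {x y : ℂ} (hx : LDiv l r x) (hy : LDiv l r y) :
    LDiv l r (x + y) := by
  obtain ⟨a, b, hb, rfl⟩ := hx
  obtain ⟨a', b', hb', rfl⟩ := hy
  have hl' : Prime (l : ℤ) := Nat.prime_iff_prime_int.mp hl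
  have hb0 : (b : ℂ) ≠ 0 := by
    intro h
    exact hb (by rw [Int.cast_eq_zero.mp h]; exact dvd_zero _)
  have hb0' : (b' : ℂ) ≠ 0 := by
    intro h
    exact hb' (by rw [Int.cast_eq_zero.mp h]; exact dvd_zero _)
  refine ⟨a * b' + a' * b, b * b', ?_, ?_⟩
  · intro h
    rcases hl'.dvd_or_dvd h with h | h
    · exact hb h
    · exact hb' h
  · push_cast
    field_simp

theorem LDiv.mul_int {l r : ℕ} {x : ℂ} (hx : LDiv l r x) (n : ℤ) : LDiv l r (x * n) := by
  obtain ⟨a, b, hb, rfl⟩ := hx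
  refine ⟨a * n, b, hb, ?_⟩
  push_cast
  ring

theorem LDiv.sum {l r : ℕ} (hl : l.Prime) {ι : Type*} (s : Finset ι) (f : ι → ℂ)
    (hf : ∀ i ∈ s, LDiv l r (f i)) : LDiv l r (∑ i ∈ s, f i) := by
  classical
  induction s using Finset.induction_on with
  | empty => simpa using LDiv.zero hl
  | insert i s hi ih =>
    rw [Finset.sum_insert hi]
    exact (hf i (Finset.mem_insert_self i s)).add hl
      (ih fun j hj => hf j (Finset.mem_insert_of_mem hj))

theorem LDiv.dvd_of_int {l r : ℕ} (hl : l.Prime) {M : ℤ} (h : LDiv l r (M : ℂ)) :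
    (l : ℤ) ^ r ∣ M := by
  obtain ⟨a, b, hb, hM⟩ := h
  have hl' : Prime (l : ℤ) := Nat.prime_iff_prime_int.mp hl
  have hb0 : (b : ℂ) ≠ 0 := by
    intro h
    exact hb (by rw [Int.cast_eq_zero.mp h]; exact dvd_zero _)
  have h1 : M * b = (l : ℤ) ^ r * a := by
    have : ((M * b : ℤ) : ℂ) = (((l : ℤ) ^ r * a : ℤ) : ℂ) := by
      push_cast
      rw [hM]
      field_simp
    exact_mod_cast this
  exact hl'.pow_dvd_of_dvd_mul_right r hb (h1 ▸ Dvd.intro _ rfl)

theorem sq_sub_one (p : ℕ) (hp : p.Prime) (h5 : 5 ≤ p) :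
    ∃ t : ℤ, ((p : ℂ) ^ 2 - 1) / 24 = (t : ℂ) := by
  have h2 : p % 2 = 1 := by
    rcases hp.eq_two_or_odd with h | h
    · omega
    · exact h
  have h3 : p % 3 ≠ 0 := by
    intro h
    have := (Nat.prime_dvd_prime_iff_eq Nat.prime_three hp).mp (Nat.dvd_of_mod_eq_zero h)
    omega
  have h24 : (p * p) % 24 = 1 := by
    have : p % 24 = 1 ∨ p % 24 = 5 ∨ p % 24 = 7 ∨ p % 24 = 11 ∨ p % 24 = 13 ∨ p % 24 = 17 ∨
        p % 24 = 19 ∨ p % 24 = 23 := by omega
    rw [Nat.mul_mod]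
    rcases this with h | h | h | h | h | h | h | h <;> rw [h]
  obtain ⟨t, ht⟩ : ∃ t : ℕ, p * p = 24 * t + 1 := ⟨p * p / 24, by omega⟩
  refine ⟨(t : ℤ), ?_⟩
  have h' : ((p * p : ℕ) : ℂ) = ((24 * t + 1 : ℕ) : ℂ) := congrArg _ ht
  rw [div_eq_iff (by norm_num)]
  push_cast at h' ⊢
  linear_combination h'

theorem dvd_of_congrOne (p l r : ℕ) [Fact p.Prime] (hl : l.Prime) (h5 : 5 ≤ p)
    (G : ModularForm (Gamma0 p) 2) (hG : CongrOne p l r G) :
    (l : ℤ) ^ r ∣ ((p : ℤ) + 1) * (10 * p - 11) := by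
  obtain ⟨h0, hk⟩ := hG
  have hkey := key_identity p G h0
  obtain ⟨t, ht⟩ := sq_sub_one p Fact.out h5
  apply LDiv.dvd_of_int hl
  have hcast : (((p : ℤ) + 1) * (10 * p - 11) : ℤ) = ((p : ℂ) + 1) * (10 * p - 11) := by
    push_cast
    ring
  rw [hcast, ← hkey, ht]
  refine LDiv.add hl (LDiv.mul_int (hk 1 le_rfl) t) (LDiv.sum hl _ _ fun k _ => ?_)
  have h1 : 1 ≤ (k + 1) * p := Nat.mul_pos (Nat.succ_pos k) (Fact.out : p.Prime).pos
  have h2 := LDiv.mul_int (hk _ h1) (sigmaP p (p - (k + 1)) : ℤ)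
  rw [Int.cast_natCast] at h2
  exact h2

end TraceLin

theorem NF3 (p : ℕ) [Fact p.Prime] (hp : p % 3 = 1) (G : ModularForm (Gamma0 p) 2) :
    ¬ CongrOne p 3 1 G := by
  intro hG
  have hp' : p.Prime := Fact.out
  have h5 : 5 ≤ p := by
    have := hp'.two_le
    rcases hp'.eq_two_or_odd with h | h
    · omega
    · omega
  have h := TraceLin.dvd_of_congrOne p 3 1 Nat.prime_three h5 G hG
  obtain ⟨q, hq⟩ : ∃ q : ℤ, (p : ℤ) = 3 * q + 1 := ⟨(p / 3 : ℕ), by omega⟩
  rw [hq] at h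
  have h' : ((3 : ℕ) : ℤ) ^ 1 ∣ 3 * (30 * q ^ 2 + 19 * q - 1) + 1 := by
    have e : (3 * q + 1 + 1) * (10 * (3 * q + 1) - 11) =
        3 * (30 * q ^ 2 + 19 * q - 1) + 1 := by ring
    rw [← e]
    exact h
  generalize 30 * q ^ 2 + 19 * q - 1 = X at h'
  have e3 : ((3 : ℕ) : ℤ) ^ 1 = 3 := by norm_num
  rw [e3] at h'
  omega

theorem NF5 (p : ℕ) [Fact p.Prime] (hp : p % 4 = 1) (G : ModularForm (Gamma0 p) 2) :
    ¬ CongrOne p 2 2 G := by
  intro hG
  have hp' : p.Prime := Fact.out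
  have h5 : 5 ≤ p := by
    have := hp'.two_le
    omega
  have h := TraceLin.dvd_of_congrOne p 2 2 Nat.prime_two h5 G hG
  obtain ⟨q, hq⟩ : ∃ q : ℤ, (p : ℤ) = 4 * q + 1 := ⟨(p / 4 : ℕ), by omega⟩
  rw [hq] at h
  have h' : ((2 : ℕ) : ℤ) ^ 2 ∣ 4 * (40 * q ^ 2 + 19 * q - 1) + 2 := by
    have e : (4 * q + 1 + 1) * (10 * (4 * q + 1) - 11) =
        4 * (40 * q ^ 2 + 19 * q - 1) + 2 := by ring
    rw [← e]
    exact h
  generalize 40 * q ^ 2 + 19 * q - 1 = X at h'
  have e4 : ((2 : ℕ) : ℤ) ^ 2 = 4 := by norm_num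
  rw [e4] at h'
  omega

end Fermat.Agent.S16
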