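import Mathlib
import Fermat.Agent.S16.Defs
import Fermat.Agent.S16.SigmaP
import Fermat.Agent.S16.Cosets
import Fermat.Agent.S16.Eis
import Fermat.Agent.S16.EngP
import Fermat.Agent.S16.Eng3p
import Fermat.Agent.S16.TraceLin
import Fermat.Prelude.Thm_ModularForm_sturm_bound_Gamma0
import Fermat.Prelude.Thm_CongruenceSubgroup_one_mem_strictPeriods_Gamma0

/-!
# S16: the upper bound

If a weight two cusp form of level `p` has integral `q`-coefficients congruent to those of the
Eisenstein series modulo `m`, then `m` divides the numerator of `(p - 1) / 12`.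
-/

set_option autoImplicit false

namespace Fermat.Agent.S16

open ModularCurve CuspForm UpperHalfPlane CongruenceSubgroup
open scoped MatrixGroups ModularForm Manifold Real

namespace Upper

/-- A cusp form regarded as a modular form. -/
def toMF {Γ : Subgroup (GL (Fin 2) ℝ)} {k : ℤ} (f : CuspForm Γ k) : ModularForm Γ k where
  toSlashInvariantForm := f.toSlashInvariantForm
  holo' := f.holo'
  bdd_at_cusps' := fun hc => ModularFormClass.bdd_at_cusps f hc

theorem toMF_apply {Γ : Subgroup (GL (Fin 2) ℝ)} {k : ℤ} (f : CuspForm Γ k) (z : ℍ) :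
    toMF f z = f z := rfl

theorem index_Gamma0_le (p : ℕ) [Fact p.Prime] : (Gamma0 p).index ≤ p + 1 := by
  classical
  have hex : ∀ g : SL(2, ℤ), ∃ x : Option (Fin p), g⁻¹ * (cosetRep p x)⁻¹ ∈ Gamma0 p :=
    fun g => (existsUnique_cosetRep p g⁻¹).exists
  let φ : SL(2, ℤ) ⧸ Gamma0 p → Option (Fin p) := fun q => (hex q.out).choose
  have hφ : Function.Injective φ := by
    intro q q' h
    have h1 := (hex q.out).choose_spec
    have h2 := (hex q'.out).choose_spec
    have h' : (hex q.out).choose = (hex q'.out).choose := h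
    rw [h'] at h1
    have hmem : (q.out)⁻¹ * q'.out ∈ Gamma0 p := by
      have h3 := (Gamma0 p).mul_mem h1 ((Gamma0 p).inv_mem h2)
      have e : (q.out)⁻¹ * (cosetRep p (hex q'.out).choose)⁻¹ *
          ((q'.out)⁻¹ * (cosetRep p (hex q'.out).choose)⁻¹)⁻¹ = (q.out)⁻¹ * q'.out := by
        group
      rwa [e] at h3
    have := QuotientGroup.eq.mpr hmem
    rwa [QuotientGroup.out_eq', QuotientGroup.out_eq'] at this
  have hcard := Nat.card_le_card_of_injective φ hφ
  have h4 : Nat.card (Option (Fin p)) = p + 1 := by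
    simp [Nat.card_eq_fintype_card]
  rw [h4] at hcard
  exact hcard

theorem cuspForm_eq_zero_of_le_three (p : ℕ) [Fact p.Prime] (hp : p ≤ 3)
    (g : CuspForm (Gamma0 p) 2) : g = 0 := by
  have : NeZero p := ⟨(Fact.out : p.Prime).ne_zero⟩
  have hF : toMF g = 0 := by
    apply ModularForm.sturm_bound_Gamma0 p
    intro n hn
    have hidx := index_Gamma0_le p
    have hn0 : n = 0 := by
      have h1 : ((2 : ℤ) * ((Gamma0 p).index : ℤ)).toNat / 12 = 0 := by
        have : ((2 : ℤ) * ((Gamma0 p).index : ℤ)).toNat ≤ 8 := by omega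
        omega
      omega
    subst hn0
    exact CuspFormClass.qExpansion_coeff_zero g one_pos
      (CongruenceSubgroup.one_mem_strictPeriods_Gamma0 p)
  ext z
  have h := DFunLike.congr_fun hF z
  exact h

theorem eisensteinNumerator_pos (p : ℕ) [hp : Fact p.Prime] : 0 < eisensteinNumerator p := by
  unfold eisensteinNumerator
  have h1 : 0 < p - 1 := Nat.sub_pos_of_lt hp.out.one_lt
  exact Nat.div_pos (Nat.le_of_dvd h1 (Nat.gcd_dvd_left _ _)) (Nat.gcd_pos_of_pos_left _ h1)

theorem fact12_two : (12 : ℕ).factorization 2 = 2 := by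
  have h : (12 : ℕ) = 2 ^ 2 * 3 := by norm_num
  rw [h, Nat.factorization_mul (by norm_num) (by norm_num), Finsupp.add_apply,
    Nat.Prime.factorization_pow Nat.prime_two, Nat.Prime.factorization Nat.prime_three]
  simp

theorem fact12_three : (12 : ℕ).factorization 3 = 1 := by
  have h : (12 : ℕ) = 2 ^ 2 * 3 := by norm_num
  rw [h, Nat.factorization_mul (by norm_num) (by norm_num), Finsupp.add_apply,
    Nat.Prime.factorization_pow Nat.prime_two, Nat.Prime.factorization Nat.prime_three]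
  simp

theorem fact24_two : (24 : ℕ).factorization 2 = 3 := by
  have h : (24 : ℕ) = 2 ^ 3 * 3 := by norm_num
  rw [h, Nat.factorization_mul (by norm_num) (by norm_num), Finsupp.add_apply,
    Nat.Prime.factorization_pow Nat.prime_two, Nat.Prime.factorization Nat.prime_three]
  simp

theorem fact24_three : (24 : ℕ).factorization 3 = 1 := by
  have h : (24 : ℕ) = 2 ^ 3 * 3 := by norm_num
  rw [h, Nat.factorization_mul (by norm_num) (by norm_num), Finsupp.add_apply,
    Nat.Prime.factorization_pow Nat.prime_two, Nat.Prime.factorization Nat.prime_three]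
  simp

theorem fact12_of_five_le (l : ℕ) (hl : l.Prime) (h5 : 5 ≤ l) : (12 : ℕ).factorization l = 0 := by
  apply Nat.factorization_eq_zero_of_not_dvd
  intro h
  have hle : l ≤ 12 := Nat.le_of_dvd (by norm_num) h
  interval_cases l <;> first | omega | (exact absurd hl (by norm_num))

theorem fact24_of_five_le (l : ℕ) (hl : l.Prime) (h5 : 5 ≤ l) : (24 : ℕ).factorization l = 0 := by
  apply Nat.factorization_eq_zero_of_not_dvd
  intro h
  have hle : l ≤ 24 := Nat.le_of_dvd (by norm_num) h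
  interval_cases l <;> first | omega | (exact absurd hl (by norm_num))

theorem arith (p : ℕ) [Fact p.Prime] (hp5 : 5 ≤ p) (m : ℤ) (hm0 : m ≠ 0)
    (hmn : ¬ m ∣ (eisensteinNumerator p : ℤ)) :
    ∃ l r : ℕ, l.Prime ∧
      (∃ a b : ℤ, ¬ (l : ℤ) ∣ b ∧ 24 * m * b = (l : ℤ) ^ r * a * ((p : ℤ) - 1)) ∧
      ((5 ≤ l ∧ r = 1) ∨ (l = 3 ∧ r = 2) ∨ (l = 3 ∧ r = 1 ∧ p % 3 = 1) ∨ (l = 2 ∧ r = 3) ∨
        (l = 2 ∧ r = 2 ∧ p % 4 = 1)) := by
  obtain ⟨D, hD⟩ : ∃ D, D = p - 1 := ⟨_, rfl⟩
  have hD0 : D ≠ 0 := by omega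
  obtain ⟨n, hn⟩ : ∃ n, n = eisensteinNumerator p := ⟨_, rfl⟩
  have hn0 : n ≠ 0 := by rw [hn]; exact (eisensteinNumerator_pos p).ne'
  have hng : n * Nat.gcd D 12 = D := by
    rw [hn, hD]
    exact Nat.div_mul_cancel (Nat.gcd_dvd_left (p - 1) 12)
  obtain ⟨M, hM⟩ : ∃ M, M = m.natAbs := ⟨_, rfl⟩
  have hM0 : M ≠ 0 := by rw [hM]; exact Int.natAbs_ne_zero.mpr hm0
  have hMn : ¬ M ∣ n := by
    intro h
    apply hmn
    rw [← hn, ← Int.natAbs_dvd_natAbs, ← hM]
    simpa using h
  have hnot : ¬ M.factorization ≤ n.factorization :=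
    fun h => hMn ((Nat.factorization_le_iff_dvd hM0 hn0).1 h)
  obtain ⟨l, hl⟩ : ∃ l, n.factorization l < M.factorization l := by
    by_contra hcon
    push Not at hcon
    exact hnot (fun l => hcon l)
  have hlp : l.Prime := by
    by_contra h
    rw [Nat.factorization_eq_zero_of_not_prime M h] at hl
    omega
  have hg0 : Nat.gcd D 12 ≠ 0 := Nat.gcd_ne_zero_right (by norm_num)
  have h3 : D.factorization l = n.factorization l + (Nat.gcd D 12).factorization l := by
    have := congrArg (fun x => x.factorization l) hng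
    simp only [Nat.factorization_mul hn0 hg0, Finsupp.add_apply] at this
    exact this.symm
  have h4 : (Nat.gcd D 12).factorization l = min (D.factorization l) ((12 : ℕ).factorization l) := by
    rw [Nat.factorization_gcd hD0 (by norm_num)]
    rfl
  have h5 : (24 * M).factorization l = (24 : ℕ).factorization l + M.factorization l := by
    rw [Nat.factorization_mul (by norm_num) hM0]
    rfl
  have key : ∀ r : ℕ, r + min (D.factorization l) ((12 : ℕ).factorization l) ≤
      (24 : ℕ).factorization l + 1 →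
      ∃ a b : ℤ, ¬ (l : ℤ) ∣ b ∧ 24 * m * b = (l : ℤ) ^ r * a * ((p : ℤ) - 1) := by
    intro r hr
    have hdvd : l ^ (r + D.factorization l) ∣ 24 * M := by
      rw [hlp.pow_dvd_iff_le_factorization (Nat.mul_ne_zero (by norm_num) hM0)]
      omega
    have hdvdZ : (l : ℤ) ^ (r + D.factorization l) ∣ 24 * m := by
      have h6 : ((l ^ (r + D.factorization l) : ℕ) : ℤ) ∣ ((24 * M : ℕ) : ℤ) :=
        Int.natCast_dvd_natCast.mpr hdvd
      rw [hM] at h6
      push_cast at h6
      rw [show (24 : ℤ) * |m| = |24 * m| by rw [abs_mul]; norm_num] at h6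
      exact (dvd_abs _ _).mp h6
    obtain ⟨a, ha⟩ := hdvdZ
    refine ⟨a, ((D / l ^ D.factorization l : ℕ) : ℤ), ?_, ?_⟩
    · intro h
      exact Nat.not_dvd_ordCompl hlp hD0 (Int.natCast_dvd_natCast.mp h)
    · have hDeq : (l : ℤ) ^ (D.factorization l) * ((D / l ^ D.factorization l : ℕ) : ℤ) =
          (p : ℤ) - 1 := by
        have h7 := Nat.ordProj_mul_ordCompl_eq_self D l
        have h8 : ((l ^ D.factorization l * (D / l ^ D.factorization l) : ℕ) : ℤ) = (D : ℤ) := by
          rw [h7]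
        rw [Nat.cast_mul, Nat.cast_pow] at h8
        rw [h8, hD]
        have : 1 ≤ p := by omega
        push_cast [Nat.cast_sub this]
        ring
      rw [ha, ← hDeq]
      ring
  have hl2 := hlp.two_le
  by_cases hl5 : 5 ≤ l
  · refine ⟨l, 1, hlp, key 1 ?_, Or.inl ⟨hl5, rfl⟩⟩
    rw [fact12_of_five_le l hlp hl5, fact24_of_five_le l hlp hl5]
    simp
  · have hl23 : l = 2 ∨ l = 3 := by
      have : l ≤ 4 := by omega
      interval_cases l
      · exact Or.inl rfl
      · exact Or.inr rfl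
      · exact absurd hlp (by norm_num)
    rcases hl23 with rfl | rfl
    · by_cases hs : D.factorization 2 ≤ 1
      · refine ⟨2, 3, hlp, key 3 ?_, Or.inr (Or.inr (Or.inr (Or.inl ⟨rfl, rfl⟩)))⟩
        rw [fact12_two, fact24_two]
        omega
      · refine ⟨2, 2, hlp, key 2 ?_, Or.inr (Or.inr (Or.inr (Or.inr ⟨rfl, rfl, ?_⟩)))⟩
        · rw [fact12_two, fact24_two]
          omega
        · have h4dvd : 2 ^ 2 ∣ D := by
            rw [Nat.prime_two.pow_dvd_iff_le_factorization hD0]
            omega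
          omega
    · by_cases hs : D.factorization 3 = 0
      · refine ⟨3, 2, hlp, key 2 ?_, Or.inr (Or.inl ⟨rfl, rfl⟩)⟩
        rw [fact12_three, fact24_three, hs]
        simp
      · refine ⟨3, 1, hlp, key 1 ?_, Or.inr (Or.inr (Or.inl ⟨rfl, rfl, ?_⟩))⟩
        · rw [fact12_three, fact24_three]
          omega
        · have h3dvd : 3 ∣ D := Nat.dvd_of_factorization_pos hs
          omega


theorem qCoeff_smul_sub (p : ℕ) [Fact p.Prime] (g : CuspForm (Gamma0 p) 2) (c : ℂ) (n : ℕ) :
    ModularFormClass.qCoeff (c • (eisP p - toMF g) : ModularForm (Gamma0 p) 2) n =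
      c * (ModularFormClass.qCoeff (eisP p) n - ModularFormClass.qCoeff g n) := by
  have : NeZero p := ⟨(Fact.out : p.Prime).ne_zero⟩
  unfold ModularFormClass.qCoeff
  have hΓ := CongruenceSubgroup.one_mem_strictPeriods_Gamma0 p
  have h1 : (⇑(c • (eisP p - toMF g)) : ℍ → ℂ) = c • ⇑(eisP p - toMF g) := rfl
  have h2 : (⇑(eisP p - toMF g) : ℍ → ℂ) = ⇑(eisP p) - ⇑(toMF g) := rfl
  rw [h1, ModularForm.qExpansion_smul one_pos hΓ c (eisP p - toMF g), h2,
    ModularForm.qExpansion_sub one_pos hΓ (eisP p) (toMF g)]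
  simp only [map_smul, map_sub, smul_eq_mul]
  rfl

theorem qCoeff_cusp_zero (p : ℕ) [Fact p.Prime] (g : CuspForm (Gamma0 p) 2) :
    ModularFormClass.qCoeff g 0 = 0 := by
  have : NeZero p := ⟨(Fact.out : p.Prime).ne_zero⟩
  exact CuspFormClass.qExpansion_coeff_zero g one_pos
    (CongruenceSubgroup.one_mem_strictPeriods_Gamma0 p)

end Upper

open Upper in
theorem upper_bound (p : ℕ) [Fact p.Prime] (m : ℤ)
    (g : CuspForm (Gamma0 p) 2)
    (hg : ∀ k : ℕ, 1 ≤ k → ∃ c : ℤ, ModularFormClass.qCoeff g k = (c : ℂ) ∧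
      m ∣ c - (sigmaP p k : ℤ)) :
    m ∣ (eisensteinNumerator p : ℤ) := by
  have hpp : p.Prime := Fact.out
  by_cases hp3 : p ≤ 3
  · have hg0 := cuspForm_eq_zero_of_le_three p hp3 g
    obtain ⟨c, hc, hdiv⟩ := hg 1 le_rfl
    have hc0 : c = 0 := by
      have h0 : ModularFormClass.qCoeff ((0 : CuspForm (Gamma0 p) 2) : ℍ → ℂ) 1 = 0 := by
        unfold ModularFormClass.qCoeff
        rw [show ((0 : CuspForm (Gamma0 p) 2) : ℍ → ℂ) = 0 from rfl, qExpansion_zero]
        simp
      rw [hg0, h0] at hc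
      exact_mod_cast hc.symm
    rw [hc0, sigmaP_one p hpp] at hdiv
    have h1 : m ∣ 1 := by
      have := (dvd_neg (a := m)).mpr hdiv
      simpa using this
    exact h1.trans (one_dvd _)
  · have hp5 : 5 ≤ p := by
      by_contra h
      have h4 : p = 4 := by omega
      rw [h4] at hpp
      exact absurd hpp (by norm_num)
    by_contra hmn
    have hpne : ((p : ℂ) - 1) ≠ 0 := by
      have : (p : ℂ) ≠ 1 := by
        have : p ≠ 1 := by omega
        exact_mod_cast this
      exact sub_ne_zero.mpr this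
    obtain ⟨G, hGdef⟩ : ∃ G : ModularForm (Gamma0 p) 2,
        G = ((24 : ℂ) / ((p : ℂ) - 1)) • (eisP p - toMF g) := ⟨_, rfl⟩
    have hG0 : ModularFormClass.qCoeff G 0 = 1 := by
      rw [hGdef, qCoeff_smul_sub, qCoeff_eisP_zero, qCoeff_cusp_zero]
      field_simp
      ring
    by_cases hm0 : m = 0
    · have hC : CongrOne p 5 1 G := by
        refine ⟨hG0, fun k hk => ⟨0, 1, by norm_num, ?_⟩⟩
        obtain ⟨c, hc, hdiv⟩ := hg k hk
        rw [hm0, zero_dvd_iff] at hdiv
        have hceq : c = (sigmaP p k : ℤ) := by omega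
        rw [hGdef, qCoeff_smul_sub, qCoeff_eisP p k hk, hc, hceq]
        simp
      exact NF1 p 5 (by norm_num) le_rfl G hC
    · obtain ⟨l, r, hlp, ⟨a, b, hb, hab⟩, hcases⟩ := arith p hp5 m hm0 hmn
      have hC : CongrOne p l r G := by
        refine ⟨hG0, fun k hk => ?_⟩
        obtain ⟨c, hc, j, hj⟩ := hg k hk
        refine ⟨-(a * j), b, hb, ?_⟩
        rw [hGdef, qCoeff_smul_sub, qCoeff_eisP p k hk, hc]
        have hbne : (b : ℂ) ≠ 0 := by
          have : b ≠ 0 := by
            rintro rfl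
            exact hb (dvd_zero _)
          exact_mod_cast this
        have h1 : ((24 * m * b : ℤ) : ℂ) = (((l : ℤ) ^ r * a * ((p : ℤ) - 1) : ℤ) : ℂ) := by
          rw [hab]
        have h2 : ((c - (sigmaP p k : ℤ) : ℤ) : ℂ) = ((m * j : ℤ) : ℂ) := by rw [hj]
        push_cast at h1 h2
        field_simp
        push_cast
        linear_combination (-(j : ℂ)) * h1 + (-(24 * (b : ℂ))) * h2
      rcases hcases with ⟨h5, rfl⟩ | ⟨rfl, rfl⟩ | ⟨rfl, rfl, h3⟩ | ⟨rfl, rfl⟩ | ⟨rfl, rfl, h4⟩
      · exact NF1 p l hlp h5 G hC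
      · exact NF2 p (by omega) G hC
      · exact NF3 p h3 G hC
      · exact NF4 p (by omega) (by omega) G hC
      · exact NF5 p h4 G hC

end Fermat.Agent.S16
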